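/-
PT-X / X-U, generic part (helper74): index of `n`-th powers in commutative groups.

* `powQuotMap n f`: the map `B/Bⁿ → C/Cⁿ` induced by `f : B →* C`.
* `card_powQuot_eq_mul`: if `f : B →* C` is surjective and `C` has no `n`-torsion, then
  `|B/Bⁿ| = |ker f/(ker f)ⁿ| · |C/Cⁿ|` (as `Nat.card`, no finiteness hypothesis).
* `card_powQuot_of_finite`: for a finite commutative group `|T/Tⁿ| = |T[n]|`.
* `card_powQuot_of_free`: for `Additive C` free of finite rank `r` over `ℤ`: `|C/Cⁿ| = n ^ r`.
-/
import Mathlib

set_option autoImplicit false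

namespace Fermat.Agent.PT.X

variable {B C : Type*} [CommGroup B] [CommGroup C]

/-- The subgroup of `n`-th powers. -/
abbrev powRange (B : Type*) [CommGroup B] (n : ℕ) : Subgroup B := (powMonoidHom n : B →* B).range

lemma mem_powRange {n : ℕ} {b : B} : b ∈ powRange B n ↔ ∃ c : B, c ^ n = b := by
  simp [powRange, MonoidHom.mem_range]

/-- The map `B/Bⁿ → C/Cⁿ` induced by a homomorphism. -/
noncomputable def powQuotMap (n : ℕ) (f : B →* C) : B ⧸ powRange B n →* C ⧸ powRange C n :=
  QuotientGroup.map _ _ f (by
    rintro _ ⟨b, rfl⟩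
    exact ⟨f b, by simp⟩)

@[simp] lemma powQuotMap_mk (n : ℕ) (f : B →* C) (b : B) :
    powQuotMap n f (QuotientGroup.mk b) = QuotientGroup.mk (f b) := rfl

lemma powQuotMap_surjective (n : ℕ) {f : B →* C} (hf : Function.Surjective f) :
    Function.Surjective (powQuotMap n f) := by
  intro c
  induction c using QuotientGroup.induction_on with
  | H c =>
    obtain ⟨b, rfl⟩ := hf c
    exact ⟨QuotientGroup.mk b, rfl⟩

/-- If `C` has no `n`-torsion, `ker f / (ker f)ⁿ → B/Bⁿ` is injective. -/
lemma powQuotMap_subtype_ker_injective (n : ℕ) (f : B →* C)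
    (htf : ∀ c : C, c ^ n = 1 → c = 1) :
    Function.Injective (powQuotMap n f.ker.subtype) := by
  rw [injective_iff_map_eq_one]
  intro a ha
  induction a using QuotientGroup.induction_on with
  | H a =>
    rw [powQuotMap_mk, QuotientGroup.eq_one_iff] at ha
    obtain ⟨b, hb⟩ := mem_powRange.mp ha
    have hb' : b ∈ f.ker := by
      rw [MonoidHom.mem_ker]
      apply htf
      rw [← map_pow, hb]
      exact a.2
    rw [QuotientGroup.eq_one_iff]
    exact mem_powRange.mpr ⟨⟨b, hb'⟩, Subtype.ext hb⟩

/-- Exactness in the middle. -/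
lemma powQuotMap_ker_eq_range (n : ℕ) {f : B →* C} (hf : Function.Surjective f) :
    (powQuotMap n f).ker = (powQuotMap n f.ker.subtype).range := by
  ext x
  induction x using QuotientGroup.induction_on with
  | H b =>
    rw [MonoidHom.mem_ker, powQuotMap_mk, QuotientGroup.eq_one_iff, MonoidHom.mem_range]
    constructor
    · intro h
      obtain ⟨c, hc⟩ := mem_powRange.mp h
      obtain ⟨b', rfl⟩ := hf c
      have hk : b * (b' ^ n)⁻¹ ∈ f.ker := by
        rw [MonoidHom.mem_ker, map_mul, map_inv, map_pow, hc, mul_inv_cancel]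
      refine ⟨QuotientGroup.mk ⟨_, hk⟩, ?_⟩
      rw [powQuotMap_mk, QuotientGroup.eq]
      refine mem_powRange.mpr ⟨b', ?_⟩
      simp
    · rintro ⟨a, ha⟩
      induction a using QuotientGroup.induction_on with
      | H a =>
        rw [powQuotMap_mk, QuotientGroup.eq] at ha
        obtain ⟨c, hc⟩ := mem_powRange.mp ha
        refine mem_powRange.mpr ⟨f c, ?_⟩
        have h1 : f ((f.ker.subtype a)⁻¹ * b) = f b := by
          rw [map_mul, map_inv]
          have : f (f.ker.subtype a) = 1 := a.2
          rw [this, inv_one, one_mul]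
        rw [← map_pow, hc, h1]

/-- **Multiplicativity of the index of `n`-th powers** along `1 → ker f → B → C → 1` when `C` has
no `n`-torsion. (`Nat.card`, valid without finiteness hypotheses.) -/
theorem card_powQuot_eq_mul (n : ℕ) {f : B →* C} (hf : Function.Surjective f)
    (htf : ∀ c : C, c ^ n = 1 → c = 1) :
    Nat.card (B ⧸ powRange B n) =
      Nat.card (f.ker ⧸ powRange f.ker n) * Nat.card (C ⧸ powRange C n) := by
  have h1 := Subgroup.card_mul_index (powQuotMap n f).ker
  rw [Subgroup.index_ker, MonoidHom.range_eq_top.mpr (powQuotMap_surjective n hf)] at h1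
  rw [← h1, powQuotMap_ker_eq_range n hf]
  congr 1
  · exact (Nat.card_congr
      (MonoidHom.ofInjective (powQuotMap_subtype_ker_injective n f htf)).toEquiv).symm
  · exact Nat.card_congr (Subgroup.topEquiv (G := C ⧸ powRange C n)).toEquiv

/-- For a finite commutative group, `|T/Tⁿ| = |T[n]|`. -/
theorem card_powQuot_of_finite (T : Type*) [CommGroup T] [Finite T] (n : ℕ) :
    Nat.card (T ⧸ powRange T n) = Nat.card (powMonoidHom n : T →* T).ker := by
  have h1 := Subgroup.card_mul_index (powMonoidHom n : T →* T).ker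
  rw [Subgroup.index_ker] at h1
  have h2 := Subgroup.card_mul_index (powRange T n)
  have h3 : Nat.card (powRange T n) ≠ 0 := Nat.card_pos.ne'
  have h4 : Nat.card (powRange T n) * (powRange T n).index =
      Nat.card (powRange T n) * Nat.card (powMonoidHom n : T →* T).ker := by
    rw [h2, ← h1, mul_comm]
  exact Nat.eq_of_mul_eq_mul_left (Nat.pos_of_ne_zero h3) h4

/-- Bridge multiplicative/additive: the index of `n`-th powers. -/
lemma powRange_index_eq (C : Type*) [CommGroup C] (n : ℕ) :
    (powRange C n).index = (nsmulAddMonoidHom (α := Additive C) n).range.index := by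
  rw [← Subgroup.index_toAddSubgroup]
  congr 1

/-- If `Additive C` is a free `ℤ`-module of finite rank, `|C/Cⁿ| = n ^ rank`. -/
theorem card_powQuot_of_free (C : Type*) [CommGroup C] [Module.Free ℤ (Additive C)]
    [Module.Finite ℤ (Additive C)] (n : ℕ) :
    Nat.card (C ⧸ powRange C n) = n ^ Module.finrank ℤ (Additive C) := by
  have := AddSubgroup.index_range_nsmul (Additive C) n
  rw [← powRange_index_eq] at this
  exact this

/-- Invariance under isomorphism. -/
theorem card_powQuot_congr (e : B ≃* C) (n : ℕ) :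
    Nat.card (B ⧸ powRange B n) = Nat.card (C ⧸ powRange C n) := by
  refine Nat.card_congr (QuotientGroup.congr _ _ e ?_).toEquiv
  ext c
  simp only [Subgroup.mem_map, mem_powRange]
  constructor
  · rintro ⟨b, ⟨b', rfl⟩, rfl⟩
    exact ⟨e b', by simp⟩
  · rintro ⟨c', rfl⟩
    exact ⟨e.symm (c' ^ n), ⟨e.symm c', by simp⟩, by simp⟩

lemma card_powQuot_subgroup_congr {H H' : Subgroup B} (h : H = H') (n : ℕ) :
    Nat.card (H ⧸ powRange H n) = Nat.card (H' ⧸ powRange H' n) := by
  subst h; rfl

/-- Version of `card_powQuot_eq_mul` for a not necessarily surjective homomorphism. -/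
theorem card_powQuot_eq_mul_range (n : ℕ) (f : B →* C) (htf : ∀ c : C, c ^ n = 1 → c = 1) :
    Nat.card (B ⧸ powRange B n) =
      Nat.card (f.ker ⧸ powRange f.ker n) * Nat.card (f.range ⧸ powRange f.range n) := by
  have h := card_powQuot_eq_mul n (f := f.rangeRestrict) f.rangeRestrict_surjective
    (fun c hc => by
      apply Subtype.ext
      apply htf
      have := congrArg Subtype.val hc
      simpa using this)
  rw [h, card_powQuot_subgroup_congr (MonoidHom.ker_rangeRestrict f) n]

/-- The additive subgroup of `M` corresponding to a subgroup of `Multiplicative M`, as a type. -/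
def subgroupMultiplicativeEquiv {M : Type*} [AddCommGroup M] (Λ : Subgroup (Multiplicative M)) :
    Additive Λ ≃+ (Subgroup.toAddSubgroup' Λ) where
  toFun x := ⟨Multiplicative.toAdd (Additive.toMul x).1, (Additive.toMul x).2⟩
  invFun y := Additive.ofMul ⟨Multiplicative.ofAdd y.1, y.2⟩
  left_inv _ := rfl
  right_inv _ := rfl
  map_add' _ _ := rfl

/-- A subgroup of finite index of a free abelian group of rank `r`: `|Λ/Λⁿ| = n ^ r`. -/
theorem card_powQuot_of_finiteIndex (M : Type*) [AddCommGroup M] [Module.Free ℤ M]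
    [Module.Finite ℤ M] (Λ : Subgroup (Multiplicative M)) [Λ.FiniteIndex] (n : ℕ) :
    Nat.card (Λ ⧸ powRange Λ n) = n ^ Module.finrank ℤ M := by
  set A : AddSubgroup M := Subgroup.toAddSubgroup' Λ with hA
  have hfi : A.FiniteIndex := by
    constructor
    have h1 : (AddSubgroup.toSubgroup A).index = A.index := AddSubgroup.index_toSubgroup A
    have h2 : AddSubgroup.toSubgroup A = Λ := by
      rw [hA]; exact OrderIso.apply_symm_apply _ _
    rw [← h1, h2]
    exact Subgroup.FiniteIndex.index_ne_zero
  let e : Additive Λ ≃ₗ[ℤ] A.toIntSubmodule := (subgroupMultiplicativeEquiv Λ).toIntLinearEquiv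
  have : Module.Free ℤ (Additive Λ) := Module.Free.of_equiv e.symm
  have : Module.Finite ℤ (Additive Λ) := Module.Finite.equiv e.symm
  rw [card_powQuot_of_free, e.finrank_eq]
  congr 1
  exact AddSubgroup.finrank_eq_of_finiteIndex A

end Fermat.Agent.PT.X
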