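/-
PT-X / X-D, X-U common core (helper74): orders of elements of `Kˣ` at the primes of a Dedekind
domain, divisors, and the map to the class group.
-/
import Mathlib
import Fermat.Agent.PT.X.PowIndex

set_option autoImplicit false
set_option linter.unusedSectionVars false

open IsDedekindDomain IsDedekindDomain.HeightOneSpectrum FractionalIdeal
open scoped nonZeroDivisors

namespace Fermat.Agent.PT.X

variable {R : Type*} [CommRing R] [IsDedekindDomain R] {K : Type*} [Field K] [Algebra R K]
  [IsFractionRing R K]

/-- The order of `x ∈ Kˣ` at the prime `v` (`= count` of the principal fractional ideal). -/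
noncomputable def ordAt (v : HeightOneSpectrum R) (x : Kˣ) : ℤ :=
  FractionalIdeal.count K v (spanSingleton R⁰ (x : K))

lemma spanSingleton_units_ne_zero (x : Kˣ) : spanSingleton R⁰ (x : K) ≠ 0 := by
  rw [Ne, spanSingleton_eq_zero_iff]
  exact x.ne_zero

lemma ordAt_one (v : HeightOneSpectrum R) : ordAt v (1 : Kˣ) = 0 := by
  simp [ordAt, count_one]

lemma ordAt_mul (v : HeightOneSpectrum R) (x y : Kˣ) :
    ordAt v (x * y) = ordAt v x + ordAt v y := by
  rw [ordAt, ordAt, ordAt, Units.val_mul, ← spanSingleton_mul_spanSingleton,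
    count_mul K v (spanSingleton_units_ne_zero x) (spanSingleton_units_ne_zero y)]

/-- Mathlib's multiplicative valuation on `Kˣ` is `exp (- ord)`. -/
lemma valuationOfNeZero_eq_ordAt (v : HeightOneSpectrum R) (x : Kˣ) :
    v.valuationOfNeZero x = Multiplicative.ofAdd (-(ordAt v x)) := by
  classical
  have hx0 : spanSingleton R⁰ (x : K) ≠ 0 := spanSingleton_units_ne_zero x
  have hspec : (x : K) * algebraMap R K (IsLocalization.sec R⁰ (x : K)).2 =
      algebraMap R K (IsLocalization.sec R⁰ (x : K)).1 := IsLocalization.sec_spec R⁰ (x : K)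
  have hd : algebraMap R K ((IsLocalization.sec R⁰ (x : K)).2 : R) ≠ 0 :=
    map_ne_zero_of_mem_nonZeroDivisors _ (IsFractionRing.injective R K)
      (IsLocalization.sec R⁰ (x : K)).2.property
  have hI : spanSingleton R⁰ (x : K) =
      spanSingleton R⁰ ((algebraMap R K) (IsLocalization.sec R⁰ (x : K)).2)⁻¹ *
        ↑(Ideal.span {(IsLocalization.sec R⁰ (x : K)).1} : Ideal R) := by
    rw [coeIdeal_span_singleton, spanSingleton_mul_spanSingleton]
    congr 1
    rw [← hspec]
    field_simp
  rw [ordAt, count_well_defined K v hx0 hI]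
  change v.valuationOfNeZeroToFun x = _
  unfold valuationOfNeZeroToFun
  simp only [neg_sub, sub_neg_eq_add]
  congr 1
  ring

end Fermat.Agent.PT.X

namespace Fermat.Agent.PT.X

variable {R : Type*} [CommRing R] [IsDedekindDomain R] {K : Type*} [Field K] [Algebra R K]
  [IsFractionRing R K]

lemma ordAt_inv (v : HeightOneSpectrum R) (x : Kˣ) : ordAt v x⁻¹ = - ordAt v x := by
  have h := ordAt_mul v x x⁻¹
  rw [mul_inv_cancel, ordAt_one] at h
  linarith

/-- `x` is an `S`-unit iff its order vanishes outside `S`. -/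
lemma mem_unit_iff_ordAt (S : Set (HeightOneSpectrum R)) (x : Kˣ) :
    x ∈ S.unit K ↔ ∀ v, v ∉ S → ordAt v x = 0 := by
  have key : ∀ v : HeightOneSpectrum R, v.valuation K (x : K) = 1 ↔ ordAt v x = 0 := by
    intro v
    rw [← valuationOfNeZero_eq, valuationOfNeZero_eq_ordAt]
    constructor
    · intro h
      have h1 : Multiplicative.ofAdd (-(ordAt v x)) = 1 := by exact_mod_cast h
      have h2 : -(ordAt v x) = 0 := by simpa using h1
      linarith
    · intro h
      rw [h]
      simp
  constructor
  · intro hx v hv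
    exact (key v).mp (hx v hv)
  · intro hx v hv
    exact (key v).mpr (hx v hv)

section family

variable {ι : Type*} (f : ι → HeightOneSpectrum R)

variable (K) in
/-- The fractional ideal `∏ᵢ (f i) ^ (d i)`. -/
noncomputable def idealOf (d : ι →₀ ℤ) : FractionalIdeal R⁰ K :=
  d.prod fun i n => ((f i).asIdeal : FractionalIdeal R⁰ K) ^ n

lemma prime_coe_ne_zero (v : HeightOneSpectrum R) : ((v.asIdeal : FractionalIdeal R⁰ K)) ≠ 0 :=
  coeIdeal_ne_zero.mpr v.ne_bot

lemma idealOf_ne_zero (d : ι →₀ ℤ) : idealOf K f d ≠ 0 := by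
  rw [idealOf, Finsupp.prod]
  exact Finset.prod_ne_zero_iff.mpr fun i _ => zpow_ne_zero _ (prime_coe_ne_zero _)

lemma idealOf_zero : idealOf K f (0 : ι →₀ ℤ) = 1 := by
  simp [idealOf]

lemma idealOf_add (d d' : ι →₀ ℤ) : idealOf K f (d + d') = idealOf K f d * idealOf K f d' := by
  classical
  rw [idealOf, idealOf, idealOf]
  exact Finsupp.prod_add_index' (fun i => zpow_zero _)
    (fun i a b => zpow_add₀ (prime_coe_ne_zero _) a b)

lemma count_idealOf (hf : Function.Injective f) (d : ι →₀ ℤ) (i : ι) :
    count K (f i) (idealOf K f d) = d i := by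
  classical
  rw [idealOf, Finsupp.prod, count_prod]
  · simp only [count_zpow, count_maximal, mul_ite, mul_one, mul_zero]
    rw [Finset.sum_eq_single i]
    · simp
    · intro j _ hji
      rw [if_neg]
      intro h
      exact hji (hf h)
    · intro hi
      simp only [Finsupp.mem_support_iff, not_not] at hi
      simp [hi]
  · exact fun j _ => zpow_ne_zero _ (prime_coe_ne_zero _)

lemma count_idealOf_of_notMem (d : ι →₀ ℤ) (w : HeightOneSpectrum R) (hw : ∀ i, f i ≠ w) :
    count K w (idealOf K f d) = 0 := by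
  classical
  rw [idealOf, Finsupp.prod, count_prod]
  · simp only [count_zpow, count_maximal, mul_ite, mul_one, mul_zero]
    apply Finset.sum_eq_zero
    intro j _
    rw [if_neg]
    intro h
    exact hw j h
  · exact fun j _ => zpow_ne_zero _ (prime_coe_ne_zero _)

variable (K) in
/-- `d ↦ ∏ᵢ (f i) ^ (d i)` as a homomorphism to the group of invertible fractional ideals. -/
noncomputable def idealHom : Multiplicative (ι →₀ ℤ) →* (FractionalIdeal R⁰ K)ˣ where
  toFun d := Units.mk0 (idealOf K f (Multiplicative.toAdd d)) (idealOf_ne_zero f _)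
  map_one' := by
    apply Units.ext
    simp [idealOf_zero]
  map_mul' d d' := by
    apply Units.ext
    simp [idealOf_add]

@[simp] lemma coe_idealHom (d : Multiplicative (ι →₀ ℤ)) :
    ((idealHom K f d : (FractionalIdeal R⁰ K)ˣ) : FractionalIdeal R⁰ K) =
      idealOf K f (Multiplicative.toAdd d) := rfl

variable (K) in
/-- The class of `∏ᵢ (f i) ^ (d i)`. -/
noncomputable def classHom : Multiplicative (ι →₀ ℤ) →* ClassGroup R :=
  (ClassGroup.mk K).comp (idealHom K f)

/-- A divisor whose class is trivial is the divisor of an element. -/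
lemma exists_ordAt_eq_of_mem_ker (hf : Function.Injective f) (d : Multiplicative (ι →₀ ℤ))
    (hd : d ∈ (classHom K f).ker) :
    ∃ x : Kˣ, (∀ i, ordAt (f i) x = Multiplicative.toAdd d i) ∧
      ∀ w : HeightOneSpectrum R, (∀ i, f i ≠ w) → ordAt w x = 0 := by
  rw [MonoidHom.mem_ker, classHom, MonoidHom.comp_apply, ClassGroup.mk_eq_one_iff] at hd
  obtain ⟨x, hx⟩ := hd.principal
  have hx' : idealOf K f (Multiplicative.toAdd d) = spanSingleton R⁰ x := by
    apply Subtype.coe_injective
    simpa using hx
  have hx0 : x ≠ 0 := by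
    rintro rfl
    exact idealOf_ne_zero f _ (by simpa using hx')
  refine ⟨Units.mk0 x hx0, fun i => ?_, fun w hw => ?_⟩
  · rw [ordAt, Units.val_mk0, ← hx', count_idealOf f hf]
  · rw [ordAt, Units.val_mk0, ← hx', count_idealOf_of_notMem f _ w hw]

end family

end Fermat.Agent.PT.X
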