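import Mathlib

/-!
# PT-X, piece X2 (X-K): Kummer theory for a finite subgroup of `Kˣ / Kˣᵖ`

`K` a field containing a primitive `p`-th root of unity (`p` prime), `W ≤ Kˣ`,
`E = K(W^{1/p})` (`IsKummerExt p W E`).  If `W Kˣᵖ / Kˣᵖ` is finite then `E / K` is a finite
Galois extension, abelian of exponent `p`, of degree `|W Kˣᵖ / Kˣᵖ| = [W : W ∩ Kˣᵖ]`.
-/

set_option autoImplicit false

noncomputable section

namespace Fermat.Agent.PT.X

open IntermediateField Polynomial

variable {K : Type*} [Field K]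

/-- the `p`-th roots in `E` of the elements of `W ≤ Kˣ` -/
def kumRoots (p : ℕ) (W : Subgroup Kˣ) (E : Type*) [Field E] [Algebra K E] : Set E :=
  {β | ∃ a ∈ W, β ^ p = algebraMap K E (a : K)}

/-- `E = K(W^{1/p})`: `E` is generated over `K` by `p`-th roots of the elements of `W`, and
every element of `W` has a `p`-th root in `E`. -/
structure IsKummerExt (p : ℕ) (W : Subgroup Kˣ) (E : Type*) [Field E] [Algebra K E] : Prop where
  gen : IntermediateField.adjoin K (kumRoots p W E) = ⊤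
  root : ∀ a ∈ W, ∃ β : E, β ^ p = algebraMap K E (a : K)

variable {E : Type*} [Field E] [Algebra K E]

section basic

variable {p : ℕ} {ζ : K}

theorem kum_root_ne_zero (hp : p ≠ 0) {a : Kˣ} {β : E} (hβ : β ^ p = algebraMap K E (a : K)) :
    β ≠ 0 := by
  rintro rfl
  rw [zero_pow hp] at hβ
  exact (a.ne_zero) ((algebraMap K E).injective (by rw [← hβ, map_zero]))

/-- `p`-th roots of unity of `E` lie in `K` -/
theorem kum_exists_pow_eq (hp : p ≠ 0) (hζ : IsPrimitiveRoot ζ p) {x : E} (hx : x ^ p = 1) :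
    ∃ k : ℕ, x = algebraMap K E (ζ ^ k) := by
  haveI : NeZero p := ⟨hp⟩
  have hζ' : IsPrimitiveRoot (algebraMap K E ζ) p :=
    hζ.map_of_injective (algebraMap K E).injective
  obtain ⟨k, _, hk⟩ := hζ'.eq_pow_of_pow_eq_one hx
  exact ⟨k, by rw [map_pow, hk]⟩

/-- two `p`-th roots of the same element differ by an element of `K` -/
theorem kum_root_eq_mul (hp : p ≠ 0) (hζ : IsPrimitiveRoot ζ p) {a : Kˣ} {β β₀ : E}
    (hβ : β ^ p = algebraMap K E (a : K)) (hβ₀ : β₀ ^ p = algebraMap K E (a : K)) :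
    ∃ k : ℕ, β = algebraMap K E (ζ ^ k) * β₀ := by
  have h0 := kum_root_ne_zero hp hβ₀
  have hx : (β / β₀) ^ p = 1 := by
    rw [div_pow, hβ, hβ₀, div_self]
    rw [← hβ₀]
    exact pow_ne_zero _ h0
  obtain ⟨k, hk⟩ := kum_exists_pow_eq hp hζ hx
  exact ⟨k, by rw [← hk, div_mul_cancel₀ _ h0]⟩

theorem kum_exists_char (hp : p ≠ 0) (hζ : IsPrimitiveRoot ζ p) (σ : E ≃ₐ[K] E) (a : Kˣ) :
    ∃ c : Kˣ, ∀ β : E, β ^ p = algebraMap K E (a : K) → σ β = algebraMap K E (c : K) * β := by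
  by_cases h : ∃ β₀ : E, β₀ ^ p = algebraMap K E (a : K)
  · obtain ⟨β₀, hβ₀⟩ := h
    have hσ : (σ β₀) ^ p = algebraMap K E (a : K) := by
      rw [← map_pow, hβ₀, AlgEquiv.commutes]
    obtain ⟨k, hk⟩ := kum_root_eq_mul hp hζ hσ hβ₀
    have hu : IsUnit ζ := hζ.isUnit hp
    refine ⟨hu.unit ^ k, fun β hβ => ?_⟩
    obtain ⟨j, hj⟩ := kum_root_eq_mul hp hζ hβ hβ₀
    have hc : ((hu.unit ^ k : Kˣ) : K) = ζ ^ k := by
      rw [Units.val_pow_eq_pow_val, IsUnit.unit_spec]
    rw [hc, hj, map_mul, AlgEquiv.commutes, hk]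
    ring
  · exact ⟨1, fun β hβ => absurd ⟨β, hβ⟩ h⟩

end basic

/-- the Kummer character `⟨σ, a⟩`, defined by `σ β = ⟨σ, a⟩ β` for `βᵖ = a` -/
def kumChar (p : ℕ) (σ : E ≃ₐ[K] E) (a : Kˣ) : Kˣ :=
  Classical.epsilon fun c : Kˣ =>
    ∀ β : E, β ^ p = algebraMap K E (a : K) → σ β = algebraMap K E (c : K) * β

section char

variable {p : ℕ} {ζ : K}

theorem kumChar_spec (hp : p ≠ 0) (hζ : IsPrimitiveRoot ζ p) (σ : E ≃ₐ[K] E) (a : Kˣ) {β : E}
    (hβ : β ^ p = algebraMap K E (a : K)) :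
    σ β = algebraMap K E (kumChar p σ a : K) * β :=
  Classical.epsilon_spec (kum_exists_char hp hζ σ a) β hβ

theorem kumChar_eq (hp : p ≠ 0) (hζ : IsPrimitiveRoot ζ p) (σ : E ≃ₐ[K] E) (a : Kˣ) {β : E}
    (hβ : β ^ p = algebraMap K E (a : K)) {c : Kˣ} (hc : σ β = algebraMap K E (c : K) * β) :
    kumChar p σ a = c := by
  have h := kumChar_spec hp hζ σ a hβ
  rw [hc] at h
  have h0 := kum_root_ne_zero hp hβ
  have := mul_right_cancel₀ h0 h
  exact Units.ext ((algebraMap K E).injective this.symm)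

theorem kumChar_mul_left (hp : p ≠ 0) (hζ : IsPrimitiveRoot ζ p) (σ τ : E ≃ₐ[K] E) (a : Kˣ)
    (ha : ∃ β : E, β ^ p = algebraMap K E (a : K)) :
    kumChar p (σ * τ) a = kumChar p σ a * kumChar p τ a := by
  obtain ⟨β, hβ⟩ := ha
  apply kumChar_eq hp hζ _ a hβ
  rw [AlgEquiv.mul_apply, kumChar_spec hp hζ τ a hβ, map_mul, AlgEquiv.commutes,
    kumChar_spec hp hζ σ a hβ, Units.val_mul, map_mul]
  ring

theorem kumChar_one_left (hp : p ≠ 0) (hζ : IsPrimitiveRoot ζ p) (a : Kˣ)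
    (ha : ∃ β : E, β ^ p = algebraMap K E (a : K)) :
    kumChar p (1 : E ≃ₐ[K] E) a = 1 := by
  obtain ⟨β, hβ⟩ := ha
  apply kumChar_eq hp hζ _ a hβ
  simp

theorem kumChar_mul_right (hp : p ≠ 0) (hζ : IsPrimitiveRoot ζ p) (σ : E ≃ₐ[K] E) (a b : Kˣ)
    (ha : ∃ β : E, β ^ p = algebraMap K E (a : K))
    (hb : ∃ β : E, β ^ p = algebraMap K E (b : K)) :
    kumChar p σ (a * b) = kumChar p σ a * kumChar p σ b := by
  obtain ⟨β, hβ⟩ := ha
  obtain ⟨γ, hγ⟩ := hb
  have hβγ : (β * γ) ^ p = algebraMap K E ((a * b : Kˣ) : K) := by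
    rw [mul_pow, hβ, hγ, Units.val_mul, map_mul]
  apply kumChar_eq hp hζ _ _ hβγ
  rw [map_mul, kumChar_spec hp hζ σ a hβ, kumChar_spec hp hζ σ b hγ, Units.val_mul, map_mul]
  ring

theorem kumChar_pow_self (hp : p ≠ 0) (hζ : IsPrimitiveRoot ζ p) (σ : E ≃ₐ[K] E) (c : Kˣ) :
    kumChar p σ (c ^ p) = 1 := by
  have hβ : (algebraMap K E (c : K)) ^ p = algebraMap K E ((c ^ p : Kˣ) : K) := by
    rw [Units.val_pow_eq_pow_val, map_pow]
  apply kumChar_eq hp hζ _ _ hβ
  rw [AlgEquiv.commutes, Units.val_one, map_one, one_mul]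

theorem kumChar_one_right (hp : p ≠ 0) (hζ : IsPrimitiveRoot ζ p) (σ : E ≃ₐ[K] E) :
    kumChar p σ (1 : Kˣ) = 1 := by
  have := kumChar_pow_self hp hζ σ (1 : Kˣ)
  rwa [one_pow] at this

end char

section galois

variable {p : ℕ} {ζ : K} {W : Subgroup Kˣ}

theorem kum_natCast_ne_zero (hp : p ≠ 0) (hζ : IsPrimitiveRoot ζ p) : (p : K) ≠ 0 := by
  haveI : NeZero p := ⟨hp⟩
  exact (hζ.neZero').ne

theorem kum_isIntegral (hp : p ≠ 0) {β : E} (hβ : β ∈ kumRoots p W E) : IsIntegral K β := by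
  obtain ⟨a, _, ha⟩ := hβ
  refine ⟨X ^ p - C (a : K), monic_X_pow_sub_C _ hp, ?_⟩
  simp [ha]

theorem kum_minpoly_dvd {a : Kˣ} {β : E} (hβ : β ^ p = algebraMap K E (a : K)) :
    minpoly K β ∣ X ^ p - C (a : K) := by
  apply minpoly.dvd
  simp [hβ]

theorem kum_minpoly_splits (hp : p ≠ 0) (hζ : IsPrimitiveRoot ζ p) {β : E}
    (hβ : β ∈ kumRoots p W E) : ((minpoly K β).map (algebraMap K E)).Splits := by
  obtain ⟨a, _, ha⟩ := hβ
  have h1 : ((X ^ p - C (a : K) : K[X]).map (algebraMap K E)).Splits := by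
    have h2 : (X ^ p - C (a : K) : K[X]).map (algebraMap K E) =
        X ^ p - C (algebraMap K E (a : K)) := by
      simp
    rw [h2]
    exact X_pow_sub_C_splits_of_isPrimitiveRoot
      (hζ.map_of_injective (algebraMap K E).injective) ha
  exact Splits.of_dvd h1 (by
    intro h0
    have := congrArg Polynomial.natDegree h0
    have h2 : (X ^ p - C (a : K) : K[X]).map (algebraMap K E) =
        X ^ p - C (algebraMap K E (a : K)) := by
      simp
    rw [h2, natDegree_X_pow_sub_C, natDegree_zero] at this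
    exact hp this) (Polynomial.map_dvd _ (kum_minpoly_dvd ha))

theorem kum_isSeparable (hp : p ≠ 0) (hζ : IsPrimitiveRoot ζ p) {β : E}
    (hβ : β ∈ kumRoots p W E) : IsSeparable K β := by
  obtain ⟨a, _, ha⟩ := hβ
  exact (separable_X_pow_sub_C (a : K) (kum_natCast_ne_zero hp hζ) a.ne_zero).of_dvd
    (kum_minpoly_dvd ha)

theorem IsKummerExt.isAlgebraic (h : IsKummerExt p W E) (hp : p ≠ 0) :
    Algebra.IsAlgebraic K E := by
  have h1 : Algebra.IsAlgebraic K (adjoin K (kumRoots p W E)) :=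
    isAlgebraic_adjoin fun x hx => kum_isIntegral hp hx
  rw [h.gen] at h1
  exact (IntermediateField.topEquiv (F := K) (E := E)).isAlgebraic

theorem IsKummerExt.normal (h : IsKummerExt p W E) (hp : p ≠ 0) (hζ : IsPrimitiveRoot ζ p) :
    Normal K E := by
  haveI := h.isAlgebraic hp
  refine normal_iff.mpr fun x => ⟨Algebra.IsIntegral.isIntegral x, ?_⟩
  have hx : x ∈ adjoin K (kumRoots p W E) := by rw [h.gen]; trivial
  exact splits_of_mem_adjoin K E (fun y hy => ⟨kum_isIntegral hp hy, kum_minpoly_splits hp hζ hy⟩) hx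

theorem IsKummerExt.isSeparable (h : IsKummerExt p W E) (hp : p ≠ 0)
    (hζ : IsPrimitiveRoot ζ p) : Algebra.IsSeparable K E := by
  have h1 : Algebra.IsSeparable K (adjoin K (kumRoots p W E)) :=
    (isSeparable_adjoin_iff_isSeparable K E).mpr fun x hx => kum_isSeparable hp hζ hx
  rw [h.gen] at h1
  exact Algebra.IsSeparable.of_algHom K (⊤ : IntermediateField K E)
    (IntermediateField.topEquiv (F := K) (E := E)).symm.toAlgHom

theorem IsKummerExt.isGalois (h : IsKummerExt p W E) (hp : p ≠ 0)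
    (hζ : IsPrimitiveRoot ζ p) : IsGalois K E :=
  haveI := h.normal hp hζ
  haveI := h.isSeparable hp hζ
  ⟨⟩

end galois


section pairing

variable {p : ℕ} {ζ : K} {W : Subgroup Kˣ}

theorem kumChar_pow_eq_one (hp : p ≠ 0) (hζ : IsPrimitiveRoot ζ p) (σ : E ≃ₐ[K] E) (a : Kˣ)
    (ha : ∃ β : E, β ^ p = algebraMap K E (a : K)) : kumChar p σ a ^ p = 1 := by
  obtain ⟨β, hβ⟩ := ha
  have h1 : (σ β) ^ p = β ^ p := by rw [← map_pow, hβ, AlgEquiv.commutes]
  rw [kumChar_spec hp hζ σ a hβ, mul_pow] at h1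
  have h0 : β ^ p ≠ 0 := pow_ne_zero _ (kum_root_ne_zero hp hβ)
  have h2 : (algebraMap K E (kumChar p σ a : K)) ^ p = 1 := by
    have := mul_right_cancel₀ h0 (h1.trans (one_mul _).symm)
    exact this
  apply Units.ext
  apply (algebraMap K E).injective
  rw [Units.val_pow_eq_pow_val, map_pow, h2, Units.val_one, map_one]

theorem kumChar_pow_left (hp : p ≠ 0) (hζ : IsPrimitiveRoot ζ p) (σ : E ≃ₐ[K] E) (a : Kˣ)
    (ha : ∃ β : E, β ^ p = algebraMap K E (a : K)) (n : ℕ) :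
    kumChar p (σ ^ n) a = kumChar p σ a ^ n := by
  induction n with
  | zero => rw [pow_zero, pow_zero, kumChar_one_left hp hζ a ha]
  | succ n ih => rw [pow_succ, pow_succ, kumChar_mul_left hp hζ _ _ a ha, ih]

/-- the Kummer characters separate the points of the Galois group -/
theorem IsKummerExt.eq_of_kumChar_eq (h : IsKummerExt p W E) (hp : p ≠ 0)
    (hζ : IsPrimitiveRoot ζ p) {σ τ : E ≃ₐ[K] E}
    (hστ : ∀ a ∈ W, kumChar p σ a = kumChar p τ a) : σ = τ := by
  apply AlgEquiv.ext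
  intro x
  have hx : x ∈ adjoin K (kumRoots p W E) := by rw [h.gen]; trivial
  induction hx using adjoin_induction with
  | mem x hx =>
    obtain ⟨a, haW, ha⟩ := hx
    rw [kumChar_spec hp hζ σ a ha, kumChar_spec hp hζ τ a ha, hστ a haW]
  | algebraMap x => rw [AlgEquiv.commutes, AlgEquiv.commutes]
  | add x y _ _ hx hy => rw [map_add, map_add, hx, hy]
  | inv x _ hx => rw [map_inv₀, map_inv₀, hx]
  | mul x y _ _ hx hy => rw [map_mul, map_mul, hx, hy]

/-- the Galois group of a Kummer extension is abelian -/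
theorem IsKummerExt.gal_mul_comm (h : IsKummerExt p W E) (hp : p ≠ 0)
    (hζ : IsPrimitiveRoot ζ p) (σ τ : E ≃ₐ[K] E) : σ * τ = τ * σ :=
  h.eq_of_kumChar_eq hp hζ fun a ha => by
    rw [kumChar_mul_left hp hζ σ τ a (h.root a ha), kumChar_mul_left hp hζ τ σ a (h.root a ha),
      mul_comm]

/-- the Galois group of a Kummer extension has exponent `p` -/
theorem IsKummerExt.gal_pow_eq_one (h : IsKummerExt p W E) (hp : p ≠ 0)
    (hζ : IsPrimitiveRoot ζ p) (σ : E ≃ₐ[K] E) : σ ^ p = 1 :=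
  h.eq_of_kumChar_eq hp hζ fun a ha => by
    rw [kumChar_pow_left hp hζ σ a (h.root a ha), kumChar_pow_eq_one hp hζ σ a (h.root a ha),
      kumChar_one_left hp hζ a (h.root a ha)]

/-- the Kummer pairing as a homomorphism `W →* (Gal(E/K) →* Kˣ)` -/
def kumHom (h : IsKummerExt p W E) (hp : p ≠ 0) (hζ : IsPrimitiveRoot ζ p) :
    W →* ((E ≃ₐ[K] E) →* Kˣ) where
  toFun a :=
    { toFun := fun σ => kumChar p σ (a : Kˣ)
      map_one' := kumChar_one_left hp hζ (a : Kˣ) (h.root a a.2)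
      map_mul' := fun σ τ => kumChar_mul_left hp hζ σ τ (a : Kˣ) (h.root a a.2) }
  map_one' := by
    ext σ
    exact congrArg Units.val (kumChar_one_right hp hζ σ)
  map_mul' a b := by
    ext σ
    exact congrArg Units.val
      (kumChar_mul_right hp hζ σ (a : Kˣ) (b : Kˣ) (h.root a a.2) (h.root b b.2))

@[simp] theorem kumHom_apply (h : IsKummerExt p W E) (hp : p ≠ 0) (hζ : IsPrimitiveRoot ζ p)
    (a : W) (σ : E ≃ₐ[K] E) : kumHom h hp hζ a σ = kumChar p σ (a : Kˣ) := rfl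

/-- the kernel of the Kummer pairing is `W ∩ Kˣᵖ` -/
theorem ker_kumHom (h : IsKummerExt p W E) (hp : p ≠ 0) (hζ : IsPrimitiveRoot ζ p) :
    (kumHom h hp hζ).ker = (powMonoidHom p : Kˣ →* Kˣ).range.subgroupOf W := by
  haveI := h.isGalois hp hζ
  ext a
  rw [MonoidHom.mem_ker, Subgroup.mem_subgroupOf, MonoidHom.mem_range]
  constructor
  · intro ha
    obtain ⟨β, hβ⟩ := h.root a a.2
    have hfix : ∀ σ : E ≃ₐ[K] E, σ β = β := by
      intro σ
      have h1 : kumChar p σ (a : Kˣ) = 1 := by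
        have := congrArg (fun χ : (E ≃ₐ[K] E) →* Kˣ => χ σ) ha
        simpa using this
      rw [kumChar_spec hp hζ σ a hβ, h1, Units.val_one, map_one, one_mul]
    have hbot : β ∈ (⊥ : IntermediateField K E) := (InfiniteGalois.mem_bot_iff_fixed β).2 hfix
    rw [IntermediateField.mem_bot] at hbot
    obtain ⟨c, hc⟩ := hbot
    have hc0 : c ≠ 0 := by
      rintro rfl
      rw [map_zero] at hc
      exact kum_root_ne_zero hp hβ hc.symm
    refine ⟨Units.mk0 c hc0, ?_⟩
    apply Units.ext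
    apply (algebraMap K E).injective
    rw [powMonoidHom_apply, Units.val_pow_eq_pow_val, Units.val_mk0, map_pow, hc, hβ]
  · rintro ⟨c, hc⟩
    ext σ
    rw [kumHom_apply, ← hc, powMonoidHom_apply, kumChar_pow_self hp hζ σ c]
    rfl

theorem card_range_kumHom (h : IsKummerExt p W E) (hp : p ≠ 0) (hζ : IsPrimitiveRoot ζ p) :
    Nat.card (kumHom h hp hζ).range = (powMonoidHom p : Kˣ →* Kˣ).range.relIndex W := by
  rw [← Subgroup.index_ker, ker_kumHom, Subgroup.relIndex]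

end pairing


section count

variable {p : ℕ} {ζ : K} {W : Subgroup Kˣ}

theorem IsKummerExt.finiteDimensional (h : IsKummerExt p W E) (hp : p ≠ 0)
    (hζ : IsPrimitiveRoot ζ p)
    (hfin : (powMonoidHom p : Kˣ →* Kˣ).range.relIndex W ≠ 0) : FiniteDimensional K E := by
  have hR : Finite (kumHom h hp hζ).range :=
    Nat.finite_of_card_ne_zero (by rw [card_range_kumHom]; exact hfin)
  have hrep : ∀ χ : (kumHom h hp hζ).range, ∃ a : W, kumHom h hp hζ a = χ := fun χ => χ.2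
  choose rep hrep using hrep
  have hroot : ∀ χ, ∃ β : E, β ^ p = algebraMap K E ((rep χ : Kˣ) : K) :=
    fun χ => h.root _ (rep χ).2
  choose β hβ using hroot
  have hS : ∀ x ∈ Set.range β, IsIntegral K x := by
    rintro _ ⟨χ, rfl⟩
    exact kum_isIntegral hp ⟨_, (rep χ).2, hβ χ⟩
  haveI : FiniteDimensional K (adjoin K (Set.range β)) := finiteDimensional_adjoin hS
  have hle : adjoin K (kumRoots p W E) ≤ adjoin K (Set.range β) := by
    rw [adjoin_le_iff]
    rintro γ ⟨a, haW, ha⟩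
    let χ : (kumHom h hp hζ).range := ⟨kumHom h hp hζ ⟨a, haW⟩, ⟨_, rfl⟩⟩
    have hker : (rep χ)⁻¹ * ⟨a, haW⟩ ∈ (kumHom h hp hζ).ker := by
      rw [MonoidHom.mem_ker, map_mul, map_inv, hrep χ]
      exact inv_mul_cancel _
    rw [ker_kumHom, Subgroup.mem_subgroupOf, MonoidHom.mem_range] at hker
    obtain ⟨c, hc⟩ := hker
    have ha' : a = (rep χ : Kˣ) * c ^ p := by
      rw [powMonoidHom_apply] at hc
      rw [hc]
      simp
    have h2 : (β χ * algebraMap K E (c : K)) ^ p = algebraMap K E (a : K) := by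
      rw [mul_pow, hβ χ, ← map_pow, ← map_mul, ha', Units.val_mul, Units.val_pow_eq_pow_val]
    obtain ⟨k, hk⟩ := kum_root_eq_mul hp hζ ha h2
    rw [hk]
    exact mul_mem (IntermediateField.algebraMap_mem _ _)
      (mul_mem (subset_adjoin K _ ⟨χ, rfl⟩) (IntermediateField.algebraMap_mem _ _))
  rw [h.gen, top_le_iff] at hle
  have hfd : FiniteDimensional K (⊤ : IntermediateField K E) := hle ▸ inferInstance
  exact (IntermediateField.topEquiv (F := K) (E := E)).toLinearEquiv.finiteDimensional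

/-- Dedekind: a finite group has at most `|G|` characters with values in a field -/
theorem kum_card_le_of_injective_monoidHom {G : Type*} [Group G] [Finite G] {ι : Type*} [Finite ι]
    (f : ι → (G →* Kˣ)) (hf : Function.Injective f) : Nat.card ι ≤ Nat.card G := by
  classical
  haveI := Fintype.ofFinite ι
  haveI := Fintype.ofFinite G
  have hli := linearIndependent_monoidHom G K
  let g : ι → (G →* K) := fun i => (Units.coeHom K).comp (f i)
  have hg : Function.Injective g := by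
    intro i j hij
    apply hf
    ext x
    exact congrArg (fun φ : G →* K => φ x) hij
  have := (hli.comp g hg).fintype_card_le_finrank
  rw [Module.finrank_fintype_fun_eq_card] at this
  rwa [Nat.card_eq_fintype_card, Nat.card_eq_fintype_card]

/-- the order of the Galois group of a Kummer extension -/
theorem IsKummerExt.card_gal (h : IsKummerExt p W E) (hp : p.Prime) (hζ : IsPrimitiveRoot ζ p)
    (hfin : (powMonoidHom p : Kˣ →* Kˣ).range.relIndex W ≠ 0) :
    Nat.card (E ≃ₐ[K] E) = (powMonoidHom p : Kˣ →* Kˣ).range.relIndex W := by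
  have hp0 : p ≠ 0 := hp.ne_zero
  haveI := h.finiteDimensional hp0 hζ hfin
  haveI := h.isGalois hp0 hζ
  haveI hR : Finite (kumHom h hp0 hζ).range :=
    Nat.finite_of_card_ne_zero (by rw [card_range_kumHom]; exact hfin)
  rw [← card_range_kumHom h hp0 hζ]
  apply le_antisymm
  · have hexp : Monoid.exponent (kumHom h hp0 hζ).range ∣ p := by
      apply Monoid.exponent_dvd_of_forall_pow_eq_one
      rintro ⟨_, a, rfl⟩
      apply Subtype.ext
      ext σ
      have := kumChar_pow_eq_one hp0 hζ σ (a : Kˣ) (h.root a a.2)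
      simpa using congrArg Units.val this
    haveI : NeZero p := ⟨hp0⟩
    haveI : HasEnoughRootsOfUnity K p := ⟨⟨ζ, hζ⟩, inferInstance⟩
    haveI : HasEnoughRootsOfUnity K (Monoid.exponent (kumHom h hp0 hζ).range) :=
      HasEnoughRootsOfUnity.of_dvd K hexp
    have hcard := CommGroup.card_monoidHom_of_hasEnoughRootsOfUnity (kumHom h hp0 hζ).range K
    haveI : Finite ((kumHom h hp0 hζ).range →* Kˣ) :=
      Nat.finite_of_card_ne_zero (by rw [hcard]; exact Nat.card_pos.ne')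
    rw [← hcard]
    refine Nat.card_le_card_of_injective
      (fun σ : E ≃ₐ[K] E => (MonoidHom.eval σ).comp (kumHom h hp0 hζ).range.subtype) ?_
    intro σ τ hστ
    apply h.eq_of_kumChar_eq hp0 hζ
    intro a ha
    have := congrArg (fun f : (kumHom h hp0 hζ).range →* Kˣ =>
      f ⟨kumHom h hp0 hζ ⟨a, ha⟩, ⟨_, rfl⟩⟩) hστ
    simpa using this
  · exact kum_card_le_of_injective_monoidHom (fun χ : (kumHom h hp0 hζ).range => χ.1)
      Subtype.val_injective

/-- **Kummer degree**: `[K(W^{1/p}) : K] = [W : W ∩ Kˣᵖ]` -/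
theorem IsKummerExt.finrank_eq (h : IsKummerExt p W E) (hp : p.Prime) (hζ : IsPrimitiveRoot ζ p)
    (hfin : (powMonoidHom p : Kˣ →* Kˣ).range.relIndex W ≠ 0) :
    Module.finrank K E = (powMonoidHom p : Kˣ →* Kˣ).range.relIndex W := by
  haveI := h.finiteDimensional hp.ne_zero hζ hfin
  haveI := h.isGalois hp.ne_zero hζ
  rw [← IsGalois.card_aut_eq_finrank K E, h.card_gal hp hζ hfin]

end count


section ambient

variable {Ω : Type*} [Field Ω] [Algebra K Ω] {p : ℕ} {ζ : K} {W : Subgroup Kˣ}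

/-- `K(W^{1/p})` inside `Ω` -/
def kumField (p : ℕ) (W : Subgroup Kˣ) (Ω : Type*) [Field Ω] [Algebra K Ω] :
    IntermediateField K Ω :=
  IntermediateField.adjoin K (kumRoots p W Ω)

theorem isKummerExt_kumField (hroot : ∀ a ∈ W, ∃ β : Ω, β ^ p = algebraMap K Ω (a : K)) :
    IsKummerExt p W (kumField p W Ω) where
  gen := by
    apply IntermediateField.lift_injective
    rw [lift_top, lift_adjoin]
    have hS : Subtype.val '' (kumRoots p W (kumField p W Ω)) = kumRoots p W Ω := by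
      ext β
      constructor
      · rintro ⟨⟨β, hβL⟩, ⟨a, ha, hβ⟩, rfl⟩
        exact ⟨a, ha, congrArg Subtype.val hβ⟩
      · rintro ⟨a, ha, hβ⟩
        exact ⟨⟨β, subset_adjoin K _ ⟨a, ha, hβ⟩⟩, ⟨a, ha, Subtype.ext hβ⟩, rfl⟩
    rw [hS]
    rfl
  root := fun a ha => by
    obtain ⟨β, hβ⟩ := hroot a ha
    exact ⟨⟨β, subset_adjoin K _ ⟨a, ha, hβ⟩⟩, Subtype.ext hβ⟩

/-- `[W : W ∩ Kˣᵖ]` is the order of the image of `W` in `Kˣ / Kˣᵖ` -/
theorem kum_relIndex_eq_card_map (p : ℕ) (W : Subgroup Kˣ) :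
    (powMonoidHom p : Kˣ →* Kˣ).range.relIndex W =
      Nat.card (W.map (QuotientGroup.mk' (powMonoidHom p : Kˣ →* Kˣ).range)) := by
  have h1 : ((QuotientGroup.mk' (powMonoidHom p : Kˣ →* Kˣ).range).comp W.subtype).ker =
      (powMonoidHom p : Kˣ →* Kˣ).range.subgroupOf W := by
    ext a
    rw [MonoidHom.mem_ker, Subgroup.mem_subgroupOf, MonoidHom.comp_apply,
      QuotientGroup.mk'_apply, QuotientGroup.eq_one_iff]
    rfl
  have h2 : ((QuotientGroup.mk' (powMonoidHom p : Kˣ →* Kˣ).range).comp W.subtype).range =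
      W.map (QuotientGroup.mk' (powMonoidHom p : Kˣ →* Kˣ).range) := by
    rw [MonoidHom.range_comp, Subgroup.range_subtype]
  rw [Subgroup.relIndex, ← h1, Subgroup.index_ker, h2]

/-- **Kummer theory for a finite subgroup of `Kˣ / Kˣᵖ`** (`p` prime, `ζ_p ∈ K`): if every element
of `W` has a `p`-th root in `Ω` and `[W : W ∩ Kˣᵖ]` is finite, then `K(W^{1/p}) / K` is finite
Galois, abelian of exponent `p`, of degree `[W : W ∩ Kˣᵖ]`. -/
theorem kummer_degree (hp : p.Prime) (hζ : IsPrimitiveRoot ζ p)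
    (hroot : ∀ a ∈ W, ∃ β : Ω, β ^ p = algebraMap K Ω (a : K))
    (hfin : (powMonoidHom p : Kˣ →* Kˣ).range.relIndex W ≠ 0) :
    FiniteDimensional K (kumField p W Ω) ∧ IsGalois K (kumField p W Ω) ∧
      (∀ σ τ : kumField p W Ω ≃ₐ[K] kumField p W Ω, σ * τ = τ * σ) ∧
      (∀ σ : kumField p W Ω ≃ₐ[K] kumField p W Ω, σ ^ p = 1) ∧
      Module.finrank K (kumField p W Ω) = (powMonoidHom p : Kˣ →* Kˣ).range.relIndex W := by
  have h := isKummerExt_kumField (Ω := Ω) hroot
  exact ⟨h.finiteDimensional hp.ne_zero hζ hfin, h.isGalois hp.ne_zero hζ,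
    h.gal_mul_comm hp.ne_zero hζ, h.gal_pow_eq_one hp.ne_zero hζ, h.finrank_eq hp hζ hfin⟩

end ambient

end Fermat.Agent.PT.X

end
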