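/-
PT-X — piece **X-CAP** (helper32): `p`-capitulation in the tower `𝓕_S`.

`stmtCapCS_of : StmtKummerTower → B.StmtCapCS`: a class `c ∈ C_S(L)` with `p^k c` idelic becomes
idelic in a larger tower field.  Induction on `k`: `c = [(j, d)]`, `p^(k+1) d = div x`, `x ∈ Lˣ`;
`W` := the subgroup generated by the `Aut(L)`-orbit of `x` (`≤ selV`, stable, finitely generated);
`L₁ := L(W^{1/p})` is in the tower (X-KUM); `β^p = x` in `L₁` gives `div β = p^k · divMap d`.
-/
import Fermat.Agent.PT.X.PlanTower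
import Fermat.Agent.PT.B.Plan4
import Fermat.Agent.PT.B.NormalClosure
import Fermat.Agent.PT.B.CycloField
import Fermat.Agent.PT.G3.MapComp

set_option autoImplicit false
set_option linter.style.haveILetI false
set_option linter.unusedSectionVars false

noncomputable section

namespace Fermat.Agent.PT.X

open NumberField IsDedekindDomain Fermat.Agent.PT.G Fermat.Agent.PT.G1 Fermat.Agent.PT
open Fermat.Agent.PT.B Fermat.Agent.PT.G3 ExtCitation

/-! ### Type level: idelic classes and divisors -/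

section TypeLevel

variable (S : Finset Nat.Primes) (K L : Type) [Field K] [NumberField K] [Field L] [NumberField L]
  [Algebra K L]

/-- If `n • [(j, d)]` is idelic then `n • d` is principal. -/
lemma xcap_div_of_smul_mem (n : ℕ) (j : Additive (JL S K)) (d : DivS S K)
    (h : n • csMk S K (j, d) ∈ LinearMap.range (csOfJ S K)) :
    ∃ x : Additive Kˣ, divHom S K x = n • d := by
  obtain ⟨j₀, hj₀⟩ := h
  rw [csOfJ_apply, ← map_nsmul, eq_comm] at hj₀
  have h1 : csMk S K (n • (j, d) - (j₀, 0)) = 0 := by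
    rw [map_sub, hj₀, sub_self]
  rw [Submodule.mkQ_apply, Submodule.Quotient.mk_eq_zero] at h1
  obtain ⟨x, hx⟩ := h1
  refine ⟨x, ?_⟩
  have h2 := congrArg Prod.snd hx
  simpa [iotaHom] using h2

/-- If `n • d` is principal then `n • [(j, d)]` is idelic. -/
lemma xcap_smul_mem_of_div (n : ℕ) (j : Additive (JL S K)) (d : DivS S K) (y : Additive Kˣ)
    (h : divHom S K y = n • d) :
    n • csMk S K (j, d) ∈ LinearMap.range (csOfJ S K) := by
  refine ⟨n • j - (MonoidHom.toAdditive (jlDiag S K)).toIntLinearMap y, ?_⟩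
  rw [csOfJ_apply, ← map_nsmul, eq_comm]
  have h1 : n • (j, d) - (n • j - (MonoidHom.toAdditive (jlDiag S K)).toIntLinearMap y, 0) =
      iotaHom S K y := by
    apply Prod.ext
    · simp [iotaHom]
    · simp [iotaHom, h]
  have h2 : csMk S K (n • (j, d) -
      (n • j - (MonoidHom.toAdditive (jlDiag S K)).toIntLinearMap y, 0)) = 0 := by
    rw [h1, Submodule.mkQ_apply, Submodule.Quotient.mk_eq_zero]
    exact ⟨y, rfl⟩
  rw [map_sub, sub_eq_zero] at h2
  exact h2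

/-- `Div_S` has no `n`-torsion. -/
lemma xcap_divS_cancel {n : ℕ} (hn : n ≠ 0) {a b : DivS S L} (h : n • a = n • b) : a = b := by
  ext P
  have h1 := DFunLike.congr_fun h P
  simp only [Finsupp.smul_apply, nsmul_eq_mul] at h1
  exact mul_left_cancel₀ (Nat.cast_ne_zero.2 hn) h1

/-- The key computation: `p^(k+1) d = div x`, `β^p = x` in `L` ⟹ `div β = p^k · divMap d`. -/
lemma xcap_root_div (p : ℕ) (hp : p ≠ 0) (k : ℕ) (d : DivS S K) (x : Kˣ)
    (hx : divHom S K (Additive.ofMul x) = (p ^ (k + 1)) • d) (β : Lˣ)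
    (hβ : β ^ p = Units.map (algebraMap K L : K →* L) x) :
    divHom S L (Additive.ofMul β) = (p ^ k) • divMap S K L d := by
  apply xcap_divS_cancel S L hp
  have h1 : p • divHom S L (Additive.ofMul β) = divHom S L (Additive.ofMul (β ^ p)) := by
    rw [← map_nsmul]
    rfl
  rw [h1, hβ]
  have h2 := divMap_divHom S K L (Additive.ofMul x)
  rw [show Additive.toMul (Additive.ofMul x) = x from rfl] at h2
  rw [← h2, hx, map_nsmul, pow_succ, mul_comm, mul_smul]

end TypeLevel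

/-! ### The subgroup generated by the orbit of an element -/

section Orbit

variable (p : ℕ) (S : Finset Nat.Primes) (K : Type) [Field K] [NumberField K]

/-- the subgroup of `Kˣ` generated by the `Aut(K)`-orbit of `x` -/
def xcapOrbit (x : Kˣ) : Subgroup Kˣ :=
  Subgroup.closure (Set.range fun σ : K ≃ₐ[ℚ] K => Units.map ((σ : K ≃ₐ[ℚ] K) : K →* K) x)

variable {K}

lemma xcap_self_mem (x : Kˣ) : x ∈ xcapOrbit K x := by
  apply Subgroup.subset_closure
  refine ⟨1, ?_⟩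
  ext
  rfl

lemma xcap_selV_stable (σ : K ≃ₐ[ℚ] K) {a : Kˣ} (ha : a ∈ selV p S K) :
    Units.map ((σ : K ≃ₐ[ℚ] K) : K →* K) a ∈ selV p S K := by
  intro P
  obtain ⟨Q, rfl⟩ := (offEquiv S σ).surjective P
  have h := ordAt_primeMap σ Q.1 a
  have h2 : (offEquiv S σ Q).1 = primeMap σ Q.1 := rfl
  rw [h2, h]
  exact ha Q

lemma xcapOrbit_le_selV {x : Kˣ} (hx : x ∈ selV p S K) : xcapOrbit K x ≤ selV p S K := by
  rw [xcapOrbit, Subgroup.closure_le]
  rintro _ ⟨σ, rfl⟩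
  exact xcap_selV_stable p S σ hx

lemma xcapOrbit_stable (x : Kˣ) (σ : K ≃ₐ[ℚ] K) {a : Kˣ} (ha : a ∈ xcapOrbit K x) :
    Units.map ((σ : K ≃ₐ[ℚ] K) : K →* K) a ∈ xcapOrbit K x := by
  have h : xcapOrbit K x ≤ (xcapOrbit K x).comap (Units.map ((σ : K ≃ₐ[ℚ] K) : K →* K)) := by
    rw [xcapOrbit, Subgroup.closure_le]
    rintro _ ⟨τ, rfl⟩
    rw [SetLike.mem_coe, Subgroup.mem_comap]
    apply Subgroup.subset_closure
    refine ⟨σ * τ, ?_⟩
    ext
    rfl
  exact h ha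

lemma xcapOrbit_relIndex_ne_zero (hp : p ≠ 0) (x : Kˣ) :
    (powMonoidHom p : Kˣ →* Kˣ).range.relIndex (xcapOrbit K x) ≠ 0 := by
  rw [kum_relIndex_eq_card_map]
  set Q := (xcapOrbit K x).map (QuotientGroup.mk' (powMonoidHom p : Kˣ →* Kˣ).range) with hQ
  haveI : Finite (K ≃ₐ[ℚ] K) := inferInstance
  have hfg : Q.FG := by
    rw [hQ, xcapOrbit, MonoidHom.map_closure]
    exact (Subgroup.fg_iff _).2 ⟨_, rfl, (Set.finite_range _).image _⟩
  haveI : Group.FG Q := (Group.fg_iff_subgroup_fg Q).2 hfg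
  have htors : IsMulTorsion Q := by
    rintro ⟨q, hq⟩
    rw [isOfFinOrder_iff_pow_eq_one]
    refine ⟨p, Nat.pos_of_ne_zero hp, ?_⟩
    apply Subtype.ext
    obtain ⟨a, -, rfl⟩ := hq
    show (QuotientGroup.mk' (powMonoidHom p : Kˣ →* Kˣ).range a) ^ p = 1
    rw [← map_pow, QuotientGroup.mk'_apply, QuotientGroup.eq_one_iff]
    exact ⟨a, rfl⟩
  haveI : Finite Q := CommGroup.finite_of_fg_isMulTorsion Q htors
  exact Nat.card_pos.ne'

end Orbit

/-! ### Tower level -/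

section Tower

variable {S : Finset Nat.Primes}

/-- the inclusions of a tower `L₀ ≤ L₁ ≤ L₂` form a scalar tower -/
lemma xcap_isScalarTower {L₀ L₁ L₂ : QbarField} (h₀₁ : L₀ ≤ L₁) (h₁₂ : L₁ ≤ L₂) :
    @IsScalarTower ↥L₀ ↥L₁ ↥L₂ (algebraOfLe h₀₁).toSMul (algebraOfLe h₁₂).toSMul
      (algebraOfLe (h₀₁.trans h₁₂)).toSMul :=
  letI := algebraOfLe h₀₁
  letI := algebraOfLe h₁₂
  letI := algebraOfLe (h₀₁.trans h₁₂)
  IsScalarTower.of_algebraMap_eq (fun _ => rfl)

/-- transitivity of `csMap` along inclusions -/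
lemma xcap_csMap_trans {L₀ L₁ L₂ : QbarField} [NumberField ↥L₀] [NumberField ↥L₁]
    [NumberField ↥L₂] (h₀₁ : L₀ ≤ L₁) (h₁₂ : L₁ ≤ L₂) (c : CS S ↥L₀) :
    @csMap S ↥L₁ ↥L₂ _ _ _ _ (algebraOfLe h₁₂) (@csMap S ↥L₀ ↥L₁ _ _ _ _ (algebraOfLe h₀₁) c) =
      @csMap S ↥L₀ ↥L₂ _ _ _ _ (algebraOfLe (h₀₁.trans h₁₂)) c := by
  letI := algebraOfLe h₀₁
  letI := algebraOfLe h₁₂
  letI := algebraOfLe (h₀₁.trans h₁₂)
  haveI := xcap_isScalarTower h₀₁ h₁₂
  exact mcomp_csMap S ↥L₀ ↥L₁ ↥L₂ c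

/-- idelic classes stay idelic -/
lemma xcap_csMap_mem_range (K L : Type) [Field K] [NumberField K] [Field L] [NumberField L]
    [Algebra K L] (n : ℕ) (c : CS S K) (h : n • c ∈ LinearMap.range (csOfJ S K)) :
    n • csMap S K L c ∈ LinearMap.range (csOfJ S L) := by
  obtain ⟨j, hj⟩ := h
  exact ⟨jlMapLin S K L j, by rw [← csMap_csOfJ, hj, map_nsmul]⟩

/-- **The inductive step**: over a tower field containing `μ_p`, the exponent drops by one in
the Kummer extension generated by the orbit of `x`, `div x = p^(k+1) d`. -/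
lemma xcap_step (hKT : StmtKummerTower) (p : ℕ) [Fact p.Prime] (hpS : pPrime p ∈ S) (k : ℕ)
    (L₀ : QbarField) [NumberField ↥L₀] (hL₀ : IsTowerField S L₀) (ζ : ↥L₀)
    (hζ : IsPrimitiveRoot ζ p) (c₀ : CS S ↥L₀)
    (h : (p ^ (k + 1)) • c₀ ∈ LinearMap.range (csOfJ S ↥L₀)) :
    ∃ (L₁ : QbarField) (_ : NumberField ↥L₁) (_ : IsTowerField S L₁) (hle : L₀ ≤ L₁),
      (p ^ k) • @csMap S ↥L₀ ↥L₁ _ _ _ _ (algebraOfLe hle) c₀ ∈
        LinearMap.range (csOfJ S ↥L₁) := by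
  have hp : p ≠ 0 := (Fact.out : p.Prime).ne_zero
  obtain ⟨⟨j, d⟩, rfl⟩ := Submodule.mkQ_surjective _ c₀
  obtain ⟨x, hx⟩ := xcap_div_of_smul_mem S ↥L₀ (p ^ (k + 1)) j d h
  have hxV : Additive.toMul x ∈ selV p S ↥L₀ := by
    intro P
    have h1 := DFunLike.congr_fun hx P
    rw [divHom_apply] at h1
    rw [h1]
    simp only [Finsupp.smul_apply, nsmul_eq_mul, Nat.cast_pow]
    exact Dvd.intro ((p : ℤ) ^ k * d P) (by ring)
  set W : Subgroup (↥L₀)ˣ := xcapOrbit ↥L₀ (Additive.toMul x) with hW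
  have hT := hKT p S ⟨pPrime p, hpS, rfl⟩ L₀ hL₀ ζ hζ W (xcapOrbit_le_selV p S hxV)
    (fun σ a ha => xcapOrbit_stable (Additive.toMul x) σ ha)
    (xcapOrbit_relIndex_ne_zero p hp (Additive.toMul x))
  have hle : L₀ ≤ (kumField p W (AlgebraicClosure ℚ)).restrictScalars ℚ := by
    intro y hy
    exact (kumField p W (AlgebraicClosure ℚ)).algebraMap_mem (⟨y, hy⟩ : ↥L₀)
  haveI hN₁ : NumberField ↥((kumField p W (AlgebraicClosure ℚ)).restrictScalars ℚ) :=
    numberField_of_isTowerField hT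
  refine ⟨(kumField p W (AlgebraicClosure ℚ)).restrictScalars ℚ, hN₁, hT, hle, ?_⟩
  obtain ⟨b, hb⟩ := IsAlgClosed.exists_pow_nat_eq
    (((Additive.toMul x : (↥L₀)ˣ) : ↥L₀) : AlgebraicClosure ℚ) (Nat.pos_of_ne_zero hp)
  have hbmem : b ∈ (kumField p W (AlgebraicClosure ℚ)).restrictScalars ℚ := by
    apply IntermediateField.subset_adjoin
    exact ⟨Additive.toMul x, xcap_self_mem _, hb⟩
  have hb0 : (⟨b, hbmem⟩ : ↥((kumField p W (AlgebraicClosure ℚ)).restrictScalars ℚ)) ≠ 0 := by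
    intro h0
    have h1 : b = 0 := congrArg Subtype.val h0
    rw [h1, zero_pow hp] at hb
    have h2 : ((Additive.toMul x : (↥L₀)ˣ) : ↥L₀) = 0 := Subtype.ext hb.symm
    exact (Additive.toMul x).ne_zero h2
  letI := algebraOfLe hle
  have hβ : (Units.mk0 _ hb0) ^ p =
      Units.map (algebraMap ↥L₀ ↥((kumField p W (AlgebraicClosure ℚ)).restrictScalars ℚ) :
        ↥L₀ →* ↥((kumField p W (AlgebraicClosure ℚ)).restrictScalars ℚ)) (Additive.toMul x) := by
    apply Units.ext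
    apply Subtype.ext
    exact hb
  have hdiv := xcap_root_div S ↥L₀ ↥((kumField p W (AlgebraicClosure ℚ)).restrictScalars ℚ)
    p hp k d (Additive.toMul x) hx (Units.mk0 _ hb0) hβ
  exact xcap_smul_mem_of_div S _ (p ^ k) _ _ _ hdiv

/-- **`p`-capitulation**, by induction on the exponent. -/
theorem xcap_main (hKT : StmtKummerTower) (p : ℕ) [Fact p.Prime] (hpS : pPrime p ∈ S) (k : ℕ) :
    ∀ (L : QbarField) [NumberField ↥L] (_ : IsTowerField S L) (c : CS S ↥L),
      (p ^ k) • c ∈ LinearMap.range (csOfJ S ↥L) →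
      ∃ (L' : QbarField) (_ : NumberField ↥L') (_ : IsTowerField S L') (hle : L ≤ L'),
        @csMap S ↥L ↥L' _ _ _ _ (algebraOfLe hle) c ∈ LinearMap.range (csOfJ S ↥L') := by
  induction k with
  | zero =>
    intro L _ hL c h
    refine ⟨L, inferInstance, hL, le_rfl, ?_⟩
    have h1 := @xcap_csMap_mem_range S ↥L ↥L _ _ _ _ (algebraOfLe le_rfl) 1 c
      (by rw [one_smul]; rwa [pow_zero, one_smul] at h)
    rwa [one_smul] at h1
  | succ k ih =>
    intro L _ hL c h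
    have hp : p ≠ 0 := (Fact.out : p.Prime).ne_zero
    haveI : NeZero p := ⟨hp⟩
    -- adjoin `μ_p`
    have hL₀ : IsTowerField S (L ⊔ cycloField p) :=
      isTowerField_sup hL (cycloField_isTowerField p S hpS)
    haveI : NumberField ↥(L ⊔ cycloField p) := numberField_of_isTowerField hL₀
    have hle₀ : L ≤ L ⊔ cycloField p := le_sup_left
    obtain ⟨z, hz⟩ := cycloField_exists_primitiveRoot p
    have hzmem : z ∈ L ⊔ cycloField p :=
      (le_sup_right : cycloField p ≤ L ⊔ cycloField p)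
        (IntermediateField.subset_adjoin ℚ _ hz.pow_eq_one)
    have hζ : IsPrimitiveRoot (⟨z, hzmem⟩ : ↥(L ⊔ cycloField p)) p :=
      IsPrimitiveRoot.of_map_of_injective (f := (L ⊔ cycloField p).val)
        (by exact hz) (L ⊔ cycloField p).val.injective
    have h₀ := @xcap_csMap_mem_range S ↥L ↥(L ⊔ cycloField p) _ _ _ _ (algebraOfLe hle₀)
      (p ^ (k + 1)) c h
    obtain ⟨L₁, hN₁, hL₁, hle₁, h₁⟩ := xcap_step hKT p hpS k (L ⊔ cycloField p) hL₀ _ hζ _ h₀
    obtain ⟨L', hN', hL', hle', h'⟩ := ih L₁ hL₁ _ h₁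
    refine ⟨L', hN', hL', hle₀.trans (hle₁.trans hle'), ?_⟩
    rw [xcap_csMap_trans hle₁ hle', xcap_csMap_trans hle₀ (hle₁.trans hle')] at h'
    exact h'

end Tower

/-- **X-CAP**: `p`-capitulation in the tower, from X-KUM. -/
theorem stmtCapCS_of (hKT : StmtKummerTower) : B.StmtCapCS := by
  intro p _ S hpS L hL c hc
  obtain ⟨k, hk⟩ := hc
  haveI := numberField_of_isTowerField hL
  obtain ⟨L', _, hL', hle, h⟩ := xcap_main hKT p hpS k L hL c hk
  exact ⟨L', hL', hle, h⟩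

end Fermat.Agent.PT.X

end
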