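/-
PT-X, piece X-R (helper69): a Kummer root of an element which is locally `unit · p-th power`
outside `S` generates a field unramified outside `S` (prelude's `IsUnramifiedOutside`), `p ∈ S`.
-/
import Mathlib
import Fermat.Prelude.Def_GroupCohomology_ContinuousUnramified
import Fermat.Agent.S05.Inertia

set_option autoImplicit false

namespace Fermat.Agent.PT.X

open Fermat.Agent.S05

section general

variable {K L : Type*} [Field K] [Field L] [Algebra K L]

/-- Inertia fixes a `p`-th root of a unit `u` of `A` fixed by `σ`, when `p` is a unit of `A`. -/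
theorem inertia_fixes_root_of_unit {A : ValuationSubring L} {σ : L ≃ₐ[K] L}
    (hσ : σ ∈ A.inertiaSubgroupIn K) {p : ℕ} (hp : p.Prime) (hpA : (p : L) ∉ A.nonunits)
    {u w : L} (hu : u ∈ A) (hu' : u ∉ A.nonunits) (hw : w ^ p = u) (hσu : σ u = u) :
    σ w = w := by
  have hu0 : u ≠ 0 := by
    rintro rfl
    exact hu' (by rw [ValuationSubring.mem_nonunits_iff]; simp)
  have hw0 : w ≠ 0 := by
    rintro rfl
    rw [zero_pow hp.ne_zero] at hw
    exact hu0 hw.symm
  -- valuation of `w` is one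
  have hvu : A.valuation u = 1 := by
    have h1 : A.valuation u ≤ 1 := (ValuationSubring.valuation_le_one_iff A u).2 hu
    have h2 : ¬ A.valuation u < 1 := fun h => hu' ((ValuationSubring.mem_nonunits_iff A).2 h)
    exact le_antisymm h1 (not_lt.1 h2)
  have hvw : A.valuation w = 1 := by
    have h : (A.valuation w) ^ p = 1 := by rw [← map_pow, hw, hvu]
    exact (pow_eq_one_iff_of_nonneg zero_le hp.ne_zero).1 h
  have hwA : w ∈ A := (ValuationSubring.valuation_le_one_iff A w).1 hvw.le
  have hwinv : w⁻¹ ∈ A := by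
    rw [← ValuationSubring.valuation_le_one_iff, map_inv₀, hvw, inv_one]
  -- `ζ = σ w / w`
  set ζ : L := σ w * w⁻¹ with hζ
  have hζp : ζ ^ p = 1 := by
    rw [hζ, mul_pow, ← map_pow, hw, hσu, inv_pow, ← hw]
    exact mul_inv_cancel₀ (pow_ne_zero _ hw0)
  have hζ1 : ζ - 1 ∈ A.nonunits := by
    have h1 : σ w - w ∈ A.nonunits := inertia_apply_sub_mem_nonunits hσ hwA
    have h2 : ζ - 1 = (σ w - w) * w⁻¹ := by
      rw [hζ, sub_mul, mul_inv_cancel₀ hw0]
    rw [h2, ValuationSubring.mem_nonunits_iff, map_mul, map_inv₀, hvw, inv_one, mul_one]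
    exact (ValuationSubring.mem_nonunits_iff A).1 h1
  -- if `ζ ≠ 1` then `p ∈ 𝔪`
  by_contra hne
  have hζne : ζ ≠ 1 := by
    intro h1
    apply hne
    have : σ w * w⁻¹ = 1 := h1
    calc σ w = σ w * w⁻¹ * w := by rw [mul_assoc, inv_mul_cancel₀ hw0, mul_one]
      _ = w := by rw [this, one_mul]
  have hsum : ∑ i ∈ Finset.range p, ζ ^ i = 0 := by
    have := mul_neg_geom_sum ζ p
    have h2 : (1 - ζ) * ∑ i ∈ Finset.range p, ζ ^ i = 0 := by rw [this, hζp, sub_self]
    rcases mul_eq_zero.1 h2 with h | h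
    · exact absurd (sub_eq_zero.1 h).symm hζne
    · exact h
  have hζA : ζ ∈ A := by
    have : ζ = (ζ - 1) + 1 := by ring
    rw [this]
    exact A.add_mem _ _ (ValuationSubring.nonunits_subset hζ1) A.one_mem
  -- `ζ^i - 1 ∈ 𝔪`
  have hpow : ∀ i : ℕ, A.valuation (ζ ^ i - 1) < 1 := by
    intro i
    have hdiv : ζ ^ i - 1 = (ζ - 1) * ∑ j ∈ Finset.range i, ζ ^ j := by
      rw [mul_comm]; exact (geom_sum_mul ζ i).symm
    rw [hdiv, map_mul]
    have h1 : A.valuation (ζ - 1) < 1 := (ValuationSubring.mem_nonunits_iff A).1 hζ1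
    have h2 : A.valuation (∑ j ∈ Finset.range i, ζ ^ j) ≤ 1 := by
      rw [ValuationSubring.valuation_le_one_iff]
      exact A.toSubring.sum_mem (fun j _ => A.toSubring.pow_mem hζA j)
    calc A.valuation (ζ - 1) * A.valuation (∑ j ∈ Finset.range i, ζ ^ j)
        ≤ A.valuation (ζ - 1) * 1 := by gcongr
      _ < 1 := by rw [mul_one]; exact h1
  have hp' : (p : L) = - ∑ i ∈ Finset.range p, (ζ ^ i - 1) := by
    rw [Finset.sum_sub_distrib, hsum]
    simp
  apply hpA
  rw [ValuationSubring.mem_nonunits_iff, hp', Valuation.map_neg]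
  -- valuation of a sum of elements of valuation < 1
  have : ∀ s : Finset ℕ, A.valuation (∑ i ∈ s, (ζ ^ i - 1)) < 1 := by
    intro s
    induction s using Finset.induction_on with
    | empty => simp
    | insert a s ha ih =>
      rw [Finset.sum_insert ha]
      exact lt_of_le_of_lt (A.valuation.map_add _ _) (max_lt (hpow a) ih)
  exact this _

end general

/-- A prime `p ≠ q` is a unit in a valuation subring lying over `q`. -/
theorem natCast_not_mem_nonunits_of_liesOver {L : Type*} [Field L] (A : ValuationSubring L)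
    {p q : ℕ} (hp : p.Prime) (hq : q.Prime) (hpq : p ≠ q) (hA : A.LiesOverPrime q) :
    (p : L) ∉ A.nonunits := by
  intro hpA
  have hq' : (q : L) ∈ A.nonunits := hA
  have hcop : Nat.Coprime p q := (Nat.coprime_primes hp hq).2 hpq
  -- Bezout
  have h1 : IsCoprime (p : ℤ) (q : ℤ) := Nat.isCoprime_iff_coprime.2 hcop
  obtain ⟨a, b, hab⟩ := h1
  have h2 : ((a : L) * p + (b : L) * q) = 1 := by
    have := congrArg (fun z : ℤ => (z : L)) hab
    simpa using this
  have hmem : ∀ (n : ℤ), (n : L) ∈ A := fun n => by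
    have : (n : L) = ((n : A.toSubring) : L) := by simp
    rw [this]; exact (n : A.toSubring).2
  have h3 : A.valuation ((a : L) * p + (b : L) * q) < 1 := by
    refine lt_of_le_of_lt (A.valuation.map_add _ _) (max_lt ?_ ?_)
    · rw [map_mul]
      calc A.valuation (a : L) * A.valuation (p : L) ≤ 1 * A.valuation (p : L) := by
            gcongr; exact (ValuationSubring.valuation_le_one_iff A _).2 (hmem a)
        _ < 1 := by rw [one_mul]; exact (ValuationSubring.mem_nonunits_iff A).1 hpA
    · rw [map_mul]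
      calc A.valuation (b : L) * A.valuation (q : L) ≤ 1 * A.valuation (q : L) := by
            gcongr; exact (ValuationSubring.valuation_le_one_iff A _).2 (hmem b)
        _ < 1 := by rw [one_mul]; exact (ValuationSubring.mem_nonunits_iff A).1 hq'
  rw [h2, map_one] at h3
  exact lt_irrefl _ h3

/-- **X-R.** `F` unramified outside `S`, `p ∈ S`, `w ^ p = α ∈ F`, and at every valuation subring `A`
over a prime `q ∉ S` one can write `α = u · β ^ p` with `β, u ∈ F`, `u` a unit of `A`.
Then `F(w)` is unramified outside `S`. -/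
theorem isUnramifiedOutside_adjoin_root (S : Finset Nat.Primes) (p : Nat.Primes) (hpS : p ∈ S)
    (F : IntermediateField ℚ (AlgebraicClosure ℚ)) (hF : F.IsUnramifiedOutside S)
    (α w : AlgebraicClosure ℚ) (hw : w ^ (p : ℕ) = α)
    (hloc : ∀ q : Nat.Primes, q ∉ S → ∀ A : ValuationSubring (AlgebraicClosure ℚ),
      A.LiesOverPrime (q : ℕ) → ∃ β u : AlgebraicClosure ℚ, β ∈ F ∧ u ∈ F ∧ u ∈ A ∧
        u ∉ A.nonunits ∧ α = u * β ^ (p : ℕ)) :
    (F ⊔ IntermediateField.adjoin ℚ {w}).IsUnramifiedOutside S := by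
  have hfd := hF.1
  have halg : Algebra.IsAlgebraic ℚ (AlgebraicClosure ℚ) := isAlgebraic_rat_qbar_of _
  have hwalg : IsIntegral ℚ w := (halg.isAlgebraic w).isIntegral
  have hfd2 : FiniteDimensional ℚ (IntermediateField.adjoin ℚ {w}) :=
    IntermediateField.adjoin.finiteDimensional hwalg
  refine ⟨IntermediateField.finiteDimensional_sup F _, fun q hq A hA σ hσ => ?_⟩
  rw [IntermediateField.fixingSubgroup_sup]
  have hσF : σ ∈ F.fixingSubgroup := hF.2 q hq A hA hσ
  refine ⟨hσF, ?_⟩
  have hfix : ∀ x ∈ F, σ x = x := fun x hx =>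
    (IntermediateField.mem_fixingSubgroup_iff F σ).1 hσF x hx
  -- it suffices to show `σ w = w`
  suffices hσw : σ w = w by
    refine (IntermediateField.mem_fixingSubgroup_iff _ σ).2 ?_
    intro x hx
    have hle : IntermediateField.adjoin ℚ {w} ≤
        IntermediateField.fixedField (Subgroup.zpowers σ) := by
      rw [IntermediateField.adjoin_le_iff]
      intro y hy
      rw [Set.mem_singleton_iff.1 hy]
      rw [SetLike.mem_coe, IntermediateField.mem_fixedField_iff]
      intro τ hτ
      obtain ⟨n, rfl⟩ := Subgroup.mem_zpowers_iff.1 hτ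
      have hfix1 : σ ∈ MulAction.stabilizer (AlgebraicClosure ℚ ≃ₐ[ℚ] AlgebraicClosure ℚ) w := hσw
      exact Subgroup.zpow_mem _ hfix1 n
    have hx2 := hle hx
    rw [IntermediateField.mem_fixedField_iff] at hx2
    exact hx2 σ (Subgroup.mem_zpowers σ)
  obtain ⟨β, u, hβ, hu, huA, huA', hαu⟩ := hloc q hq A hA
  have hpq : (p : ℕ) ≠ (q : ℕ) := by
    intro h
    exact hq ((Subtype.ext h : p = q) ▸ hpS)
  have hpA : ((p : ℕ) : AlgebraicClosure ℚ) ∉ A.nonunits :=
    natCast_not_mem_nonunits_of_liesOver A p.2 q.2 hpq hA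
  have hu0 : u ≠ 0 := by
    rintro rfl
    exact huA' (by rw [ValuationSubring.mem_nonunits_iff]; simp)
  by_cases hβ0 : β = 0
  · -- then `α = 0`, `w = 0`
    have hα0 : α = 0 := by rw [hαu, hβ0, zero_pow p.2.ne_zero, mul_zero]
    have hw0 : w = 0 := by
      rw [hα0] at hw
      exact pow_eq_zero_iff p.2.ne_zero |>.1 hw
    rw [hw0, map_zero]
  · have hw' : (w * β⁻¹) ^ (p : ℕ) = u := by
      rw [mul_pow, hw, hαu, inv_pow, mul_assoc, mul_inv_cancel₀ (pow_ne_zero _ hβ0), mul_one]
    have h1 : σ (w * β⁻¹) = w * β⁻¹ :=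
      inertia_fixes_root_of_unit hσ p.2 hpA huA huA' hw' (hfix u hu)
    rw [map_mul, map_inv₀, hfix β hβ] at h1
    exact mul_right_cancel₀ (inv_ne_zero hβ0) h1

end Fermat.Agent.PT.X
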