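/-
PT-X, piece X1 (helper69): the ABSTRACT COUNT behind the existence theorem mod `p`.

Abstract data (all groups additive, commutative):
`Kx` (= `Kˣ`), `J` (= `∏_{v ∈ S} K_vˣ`), `D` (= divisors outside `S`, torsion-free),
`dv : Kx →+ D`, `lc : Kx →+ J`, `C` = cokernel of `(lc, dv) : Kx → J × D` (the `S`-idèle class group),
presented by a surjection `π : J × D →+ C` with kernel `range (lc, dv)`.

`E := ker dv` (the `S`-units), `V := dv⁻¹(pD)` (Kummer generators unramified outside `S`),
`Vloc := V ⊓ lc⁻¹(pJ)` (those which are locally `p`-th powers at `S`).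

Main result `existence_count`: if `N, N' ≤ C` contain `pC`, `[C:N] ≥ [V : pKx]`, `[C:N'] ≥ [Vloc : pKx]`,
`N'` contains the image of `J`, and `[J : pJ] ≤ [E : E ⊓ pKx]²`, then `N = pC`.
-/
import Mathlib

set_option autoImplicit false

namespace Fermat.Agent.PT.X

open AddSubgroup

/-- The subgroup `n·A` of an additive commutative group. -/
def nMul (n : ℕ) (A : Type*) [AddCommGroup A] : AddSubgroup A :=
  (nsmulAddMonoidHom n : A →+ A).range

theorem mem_nMul {n : ℕ} {A : Type*} [AddCommGroup A] {a : A} :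
    a ∈ nMul n A ↔ ∃ b : A, n • b = a := by
  simp [nMul, AddMonoidHom.mem_range]

theorem nsmul_mem_nMul {n : ℕ} {A : Type*} [AddCommGroup A] (a : A) : n • a ∈ nMul n A :=
  mem_nMul.2 ⟨a, rfl⟩

theorem map_nMul_le {n : ℕ} {A B : Type*} [AddCommGroup A] [AddCommGroup B] (f : A →+ B) :
    (nMul n A).map f ≤ nMul n B := by
  rintro _ ⟨a, ha, rfl⟩
  obtain ⟨b, rfl⟩ := mem_nMul.1 ha
  exact mem_nMul.2 ⟨f b, by simp⟩

theorem map_nMul_of_surjective {n : ℕ} {A B : Type*} [AddCommGroup A] [AddCommGroup B]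
    (f : A →+ B) (hf : Function.Surjective f) : (nMul n A).map f = nMul n B := by
  refine le_antisymm (map_nMul_le f) ?_
  intro b hb
  obtain ⟨b', rfl⟩ := mem_nMul.1 hb
  obtain ⟨a, rfl⟩ := hf b'
  exact ⟨n • a, nsmul_mem_nMul a, by simp⟩

/-- Two subgroups `H ≤ K` of the same finite index are equal. -/
theorem eq_of_le_of_index_eq {G : Type*} [AddCommGroup G] {H K : AddSubgroup G} (h : H ≤ K)
    (hi : H.index = K.index) (h0 : H.index ≠ 0) : H = K := by
  have := AddSubgroup.relIndex_mul_index h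
  rw [hi] at this
  have hK : K.index ≠ 0 := hi ▸ h0
  have h1 : H.relIndex K = 1 := (Nat.mul_eq_right hK).mp this
  exact le_antisymm h (AddSubgroup.relIndex_eq_one.mp h1)

/-- `|(A/B)/n| = |(A/B)[n]|` for a subgroup `B` of finite index, in terms of indices. -/
theorem index_nMul_sup_eq {n : ℕ} {A : Type*} [AddCommGroup A] (B : AddSubgroup A)
    (hB : B.index ≠ 0) :
    (nMul n A ⊔ B).index = B.relIndex (B.comap (nsmulAddMonoidHom n : A →+ A)) := by
  set f : A →+ A := nsmulAddMonoidHom n with hf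
  have hle : B ≤ B.comap f := by
    intro a ha
    simp only [mem_comap, hf, nsmulAddMonoidHom_apply]
    exact B.nsmul_mem ha n
  -- [A : f⁻¹ B] = [f A ⊔ B : B]
  have h1 : (B.comap f).index = B.relIndex (nMul n A ⊔ B) := by
    rw [index_comap, relIndex_sup_right]; rfl
  have h2 : B.relIndex (B.comap f) * (B.comap f).index = B.index := relIndex_mul_index hle
  have h3 : B.relIndex (nMul n A ⊔ B) * (nMul n A ⊔ B).index = B.index :=
    relIndex_mul_index le_sup_right
  rw [h1] at h2
  have hne : B.relIndex (nMul n A ⊔ B) ≠ 0 := by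
    intro h0
    rw [h0, zero_mul] at h3
    exact hB h3.symm
  have : B.relIndex (nMul n A ⊔ B) * (nMul n A ⊔ B).index =
      B.relIndex (nMul n A ⊔ B) * B.relIndex (B.comap f) := by
    rw [h3, mul_comm, h2]
  exact Nat.eq_of_mul_eq_mul_left (Nat.pos_of_ne_zero hne) this

section data

variable {Kx J D C : Type*} [AddCommGroup Kx] [AddCommGroup J] [AddCommGroup D] [AddCommGroup C]
variable (p : ℕ) (dv : Kx →+ D) (lc : Kx →+ J) (π : J × D →+ C)

/-- `V = dv⁻¹(pD)`. -/
def kummerV : AddSubgroup Kx := (nMul p D).comap dv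

/-- `Vloc = V ⊓ lc⁻¹(pJ)`. -/
def kummerVloc : AddSubgroup Kx := kummerV p dv ⊓ (nMul p J).comap lc

theorem mem_kummerV {a : Kx} : a ∈ kummerV p dv ↔ dv a ∈ nMul p D := Iff.rfl

theorem mem_kummerVloc {a : Kx} :
    a ∈ kummerVloc p dv lc ↔ dv a ∈ nMul p D ∧ lc a ∈ nMul p J := Iff.rfl

theorem nMul_le_kummerVloc : nMul p Kx ≤ kummerVloc p dv lc := by
  intro a ha
  obtain ⟨b, rfl⟩ := mem_nMul.1 ha
  rw [mem_kummerVloc, map_nsmul, map_nsmul]
  exact ⟨nsmul_mem_nMul _, nsmul_mem_nMul _⟩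

theorem kummerVloc_le : kummerVloc p dv lc ≤ kummerV p dv := inf_le_left

theorem nMul_le_kummerV : nMul p Kx ≤ kummerV p dv := by
  intro a ha
  obtain ⟨b, rfl⟩ := mem_nMul.1 ha
  rw [mem_kummerV, map_nsmul]
  exact nsmul_mem_nMul _

theorem ker_le_kummerV : dv.ker ≤ kummerV p dv := by
  intro a ha
  rw [mem_kummerV, AddMonoidHom.mem_ker.1 ha]
  exact zero_mem _

/-- `E ⊓ pKx = pE` when `D` has no `p`-torsion: `[E : E ⊓ pKx] = |E/pE|`. -/
theorem relIndex_nMul_ker (hD : ∀ d : D, p • d = 0 → d = 0) :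
    (nMul p Kx).relIndex dv.ker = (nMul p dv.ker).index := by
  rw [relIndex]
  congr 1
  ext x
  rw [mem_addSubgroupOf, mem_nMul, mem_nMul]
  constructor
  · rintro ⟨b, hb⟩
    have hb' : b ∈ dv.ker := by
      rw [AddMonoidHom.mem_ker]
      apply hD
      rw [← map_nsmul, hb]
      exact AddMonoidHom.mem_ker.1 x.2
    exact ⟨⟨b, hb'⟩, Subtype.ext hb⟩
  · rintro ⟨b, hb⟩
    exact ⟨b, by rw [← hb]; rfl⟩

/-- (I2) `[V : pKx] = |Cl[p]| · [E : E ⊓ pKx]`. -/
theorem relIndex_kummerV (hD : ∀ d : D, p • d = 0 → d = 0) :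
    (nMul p Kx).relIndex (kummerV p dv) =
      (nMul p Kx).relIndex dv.ker *
        dv.range.relIndex (dv.range.comap (nsmulAddMonoidHom p : D →+ D)) := by
  set m : D →+ D := nsmulAddMonoidHom p with hm
  have hminj : Function.Injective m := by
    rw [injective_iff_map_eq_zero]
    intro d hd
    exact hD d (by simpa [hm] using hd)
  have hle1 : nMul p Kx ≤ dv.ker ⊔ nMul p Kx := le_sup_right
  have hle2 : dv.ker ⊔ nMul p Kx ≤ kummerV p dv := sup_le (ker_le_kummerV p dv) (nMul_le_kummerV p dv)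
  rw [← relIndex_mul_relIndex _ _ _ hle1 hle2, relIndex_sup_right]
  congr 1
  -- second factor
  have e1 : dv.ker ⊔ nMul p Kx = ((nMul p Kx).map dv).comap dv := by
    rw [comap_map_eq, sup_comm]
  have e2 : (nMul p Kx).map dv = dv.range.map m := by
    ext d
    constructor
    · rintro ⟨a, ha, rfl⟩
      obtain ⟨b, rfl⟩ := mem_nMul.1 ha
      exact ⟨dv b, ⟨b, rfl⟩, by simp [hm]⟩
    · rintro ⟨d', ⟨b, rfl⟩, rfl⟩
      exact ⟨p • b, nsmul_mem_nMul b, by simp [hm]⟩
  have e3 : (kummerV p dv).map dv = (dv.range.comap m).map m := by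
    rw [kummerV, map_comap_eq, map_comap_eq]
    rw [inf_comm]
    rfl
  rw [e1, relIndex_comap, e3, e2, relIndex_map_map_of_injective _ _ hminj]

/-- The subgroup `R + pT` of `T = J × D` whose quotient is `C/pC`. -/
def bigA : AddSubgroup (J × D) := (lc.prod dv).range ⊔ nMul p (J × D)

theorem comap_inl_bigA :
    (bigA p dv lc).comap (AddMonoidHom.inl J D) = nMul p J ⊔ (kummerV p dv).map lc := by
  ext j
  simp only [mem_comap, AddMonoidHom.inl_apply, bigA]
  constructor
  · intro h
    obtain ⟨r, hr, t, ht, hrt⟩ := AddSubgroup.mem_sup.1 h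
    obtain ⟨a, rfl⟩ := hr
    obtain ⟨t', rfl⟩ := mem_nMul.1 ht
    have h1 : lc a + p • t'.1 = j := by simpa using congrArg Prod.fst hrt
    have h2 : dv a + p • t'.2 = 0 := by simpa using congrArg Prod.snd hrt
    rw [← h1, add_comm]
    refine AddSubgroup.add_mem_sup (nsmul_mem_nMul _) ⟨a, ?_, rfl⟩
    show dv a ∈ nMul p D
    rw [eq_neg_of_add_eq_zero_left h2]
    exact neg_mem (nsmul_mem_nMul _)
  · intro h
    obtain ⟨x, hx, y, hy, rfl⟩ := AddSubgroup.mem_sup.1 h
    obtain ⟨j', rfl⟩ := mem_nMul.1 hx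
    obtain ⟨a, ha, rfl⟩ := hy
    have ha' : dv a ∈ nMul p D := ha
    obtain ⟨d, hd⟩ := mem_nMul.1 ha'
    have : ((p • j' + lc a, 0) : J × D) = (lc.prod dv) a + p • ((j', -d) : J × D) := by
      ext
      · simp [add_comm]
      · simp [hd]
    rw [this]
    exact AddSubgroup.add_mem_sup ⟨a, rfl⟩ (nsmul_mem_nMul _)

theorem map_snd_bigA :
    (bigA p dv lc).map (AddMonoidHom.snd J D) = nMul p D ⊔ dv.range := by
  rw [bigA, AddSubgroup.map_sup, AddMonoidHom.map_range, sup_comm]
  congr 1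
  · exact map_nMul_of_surjective _ (fun d => ⟨(0, d), rfl⟩)

/-- `[T : A ⊔ J₀] = [D : pD + dv Kx]`. -/
theorem index_bigA_sup :
    (bigA p dv lc ⊔ (AddMonoidHom.snd J D).ker).index = (nMul p D ⊔ dv.range).index := by
  have hs : Function.Surjective (AddMonoidHom.snd J D) := fun d => ⟨(0, d), rfl⟩
  rw [← index_map_eq (bigA p dv lc ⊔ (AddMonoidHom.snd J D).ker) hs le_sup_right,
    AddSubgroup.map_sup, map_snd_bigA]
  congr 1
  have : (AddMonoidHom.snd J D).ker.map (AddMonoidHom.snd J D) = ⊥ := by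
    rw [eq_bot_iff]
    rintro _ ⟨x, hx, rfl⟩
    exact hx
  rw [this, sup_bot_eq]

/-- (I1) `[T : A] · [V : Vloc] = [D : pD + dv Kx] · [J : pJ]`. -/
theorem index_bigA_mul :
    (bigA p dv lc).index * (kummerVloc p dv lc).relIndex (kummerV p dv) =
      (nMul p D ⊔ dv.range).index * (nMul p J).index := by
  have hker : (AddMonoidHom.snd J D).ker = (⊤ : AddSubgroup J).map (AddMonoidHom.inl J D) := by
    ext x
    simp only [AddMonoidHom.mem_ker, AddMonoidHom.coe_snd, mem_map, mem_top, AddMonoidHom.inl_apply,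
      true_and]
    constructor
    · intro h; exact ⟨x.1, by ext <;> simp [h]⟩
    · rintro ⟨j, rfl⟩; rfl
  have h1 : (bigA p dv lc).relIndex (bigA p dv lc ⊔ (AddMonoidHom.snd J D).ker) =
      (nMul p J ⊔ (kummerV p dv).map lc).index := by
    rw [relIndex_sup_left, hker, ← relIndex_comap, relIndex_top_right, comap_inl_bigA]
  have h2 := relIndex_mul_index (H := bigA p dv lc)
    (K := bigA p dv lc ⊔ (AddMonoidHom.snd J D).ker) le_sup_left
  rw [h1, index_bigA_sup] at h2
  have h3 : (nMul p J).relIndex (nMul p J ⊔ (kummerV p dv).map lc) =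
      (kummerVloc p dv lc).relIndex (kummerV p dv) := by
    rw [relIndex_sup_left, ← relIndex_comap, kummerVloc, inf_comm, inf_relIndex_right]
  have h4 := relIndex_mul_index (H := nMul p J) (K := nMul p J ⊔ (kummerV p dv).map lc) le_sup_left
  rw [h3] at h4
  rw [← h2, ← h4]
  ring

variable {p dv lc π}

/-- **Abstract existence count.** -/
theorem existence_count
    (hD : ∀ d : D, p • d = 0 → d = 0)
    (hπ : Function.Surjective π) (hker : π.ker = (lc.prod dv).range)
    (hCl : dv.range.index ≠ 0) (hJ : (nMul p J).index ≠ 0)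
    (hE : (nMul p Kx).relIndex dv.ker ≠ 0)
    (hcount : (nMul p J).index ≤ ((nMul p Kx).relIndex dv.ker) ^ 2)
    (N N' : AddSubgroup C) (hN : nMul p C ≤ N) (hN' : nMul p C ≤ N')
    (hJN' : ∀ j : J, π (j, 0) ∈ N')
    (hNi : (nMul p Kx).relIndex (kummerV p dv) ≤ N.index)
    (hN'i : (nMul p Kx).relIndex (kummerVloc p dv lc) ≤ N'.index) :
    N = nMul p C := by
  -- notation
  set a := (bigA p dv lc).index with ha
  set v := (nMul p Kx).relIndex (kummerV p dv) with hv
  set w := (kummerVloc p dv lc).relIndex (kummerV p dv) with hw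
  set u := (nMul p Kx).relIndex (kummerVloc p dv lc) with hu
  set c := (nMul p D ⊔ dv.range).index with hc
  set e := (nMul p Kx).relIndex dv.ker with he
  set j := (nMul p J).index with hj
  have huw : u * w = v := relIndex_mul_relIndex _ _ _ (nMul_le_kummerVloc p dv lc) (kummerVloc_le p dv lc)
  have hI1 : a * w = c * j := index_bigA_mul p dv lc
  have hc' : c = dv.range.relIndex (dv.range.comap (nsmulAddMonoidHom p : D →+ D)) :=
    index_nMul_sup_eq dv.range hCl
  have hI2 : v = e * c := by rw [hc']; exact relIndex_kummerV p dv hD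
  have hc0 : c ≠ 0 := by
    intro h0
    have := index_dvd_of_le (le_sup_right : dv.range ≤ nMul p D ⊔ dv.range)
    rw [← hc, h0, zero_dvd_iff] at this
    exact hCl this
  have hv0 : v ≠ 0 := by rw [hI2]; exact mul_ne_zero hE hc0
  have hw0 : w ≠ 0 := by
    intro h0; rw [h0, mul_zero] at huw; exact hv0 huw.symm
  have ha0 : a ≠ 0 := by
    intro h0
    rw [h0, zero_mul] at hI1
    exact (mul_ne_zero hc0 hJ) hI1.symm
  -- comap of pC
  have hcomap : (nMul p C).comap π = bigA p dv lc := by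
    rw [← map_nMul_of_surjective π hπ, comap_map_eq, hker, bigA, sup_comm]
  have hpC : (nMul p C).index = a := by
    rw [← index_comap_of_surjective _ hπ, hcomap]
  -- u ≤ c
  have huc : u ≤ c := by
    have hle : bigA p dv lc ⊔ (AddMonoidHom.snd J D).ker ≤ N'.comap π := by
      refine sup_le ?_ ?_
      · rw [← hcomap]; exact comap_mono hN'
      · intro x hx
        have hx2 : x.2 = 0 := hx
        have : x = (x.1, 0) := by ext <;> simp [hx2]
        rw [mem_comap, this]
        exact hJN' x.1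
    have hdvd := index_dvd_of_le hle
    rw [index_comap_of_surjective _ hπ, index_bigA_sup] at hdvd
    exact hN'i.trans (Nat.le_of_dvd (Nat.pos_of_ne_zero hc0) hdvd)
  -- a ≤ v
  have hav : a ≤ v := by
    have h1 : a * v = c * j * u := by
      rw [← huw, ← hI1]; ring
    have h2 : c * j * u ≤ v * v := by
      calc c * j * u ≤ c * e ^ 2 * c := by
            exact Nat.mul_le_mul (Nat.mul_le_mul_left c hcount) huc
        _ = v * v := by rw [hI2]; ring
    have h3 : a * v ≤ v * v := h1 ▸ h2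
    exact Nat.le_of_mul_le_mul_right h3 (Nat.pos_of_ne_zero hv0)
  -- conclude
  have hdvd : N.index ∣ a := hpC ▸ index_dvd_of_le hN
  have hNa : N.index = a :=
    le_antisymm (Nat.le_of_dvd (Nat.pos_of_ne_zero ha0) hdvd) (hav.trans hNi)
  exact (eq_of_le_of_index_eq hN (by rw [hpC, hNa]) (by rw [hpC]; exact ha0)).symm

end data

end Fermat.Agent.PT.X
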