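/-
PT-X (existence theorem mod `p`) — INTERFACE FILE (definitions and statements only).
Sub-captain helper69; mathematics and piece table: NOTES/PT-X.md.

Type-level model of PT/G (`CS S L`, `csMap`, `jlMap`, …).  `K` is a number field containing `μ_p`,
`p ∈ S`.  `selV p S K` is the Selmer group `{a ∈ Kˣ | p ∣ ord_P a for all P ∤ S}` and
`selVloc p S K` its subgroup of elements which are `p`-th powers in `J_K = ∏_{q ∈ S} (ℚ_q ⊗ K)ˣ`.

Every `Stmt…` is a `Prop`; the piece `X` is DONE when `theorem stmtX : StmtX` (or the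
`stmtX_of : … → StmtX` of NOTES/PT-X.md) is landed, sorry-free.
-/
import Fermat.Agent.PT.G.Plan2
import Fermat.Agent.PT.G.Descent
import Fermat.Agent.PT.X.Count
import Fermat.Agent.PT.X.Tate
import Fermat.Agent.PT.X.Kummer
import Fermat.Agent.PT.L.Plan2
import Fermat.Agent.PT.G3.Plan2

set_option autoImplicit false

namespace Fermat.Agent.PT.X

open NumberField IsDedekindDomain Fermat.Agent.PT.G Fermat.Agent.PT.G1 Fermat.Agent.PT
open CategoryTheory groupCohomology Fermat.Agent.PT.G3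

/-! ### The Selmer groups -/

section Selmer

variable (p : ℕ) (S : Finset Nat.Primes) (K : Type) [Field K] [NumberField K]

/-- `V = {a ∈ Kˣ | p ∣ ord_P(a) for every prime P of K not over S}`. -/
def selV : Subgroup Kˣ where
  carrier := {a | ∀ P : OffS S K, (p : ℤ) ∣ ordAt P.1 a}
  mul_mem' := fun {a b} ha hb P => by
    rw [ordAt_mul]
    exact dvd_add (ha P) (hb P)
  one_mem' := fun P => by simp [ordAt_one]
  inv_mem' := fun {a} ha P => by
    rw [ordAt_inv]
    exact (dvd_neg).2 (ha P)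

/-- `V_loc = {a ∈ V | a is a p-th power in J_K}`. -/
def selVloc : Subgroup Kˣ where
  carrier := {a | a ∈ selV p S K ∧ ∃ j : JL S K, jlDiag S K a = j ^ p}
  mul_mem' := fun {a b} ha hb => by
    refine ⟨(selV p S K).mul_mem ha.1 hb.1, ?_⟩
    obtain ⟨j, hj⟩ := ha.2
    obtain ⟨j', hj'⟩ := hb.2
    exact ⟨j * j', by rw [map_mul, hj, hj', mul_pow]⟩
  one_mem' := ⟨(selV p S K).one_mem, 1, by simp⟩
  inv_mem' := fun {a} ha => by
    refine ⟨(selV p S K).inv_mem ha.1, ?_⟩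
    obtain ⟨j, hj⟩ := ha.2
    exact ⟨j⁻¹, by rw [map_inv, hj, inv_pow]⟩

lemma selVloc_le : selVloc p S K ≤ selV p S K := fun _ h => h.1

end Selmer

/-! ### The counts (pieces X-J, X-E) -/

/-- **X-J** (semilocal count): `[J_K : p J_K] ≤ p ^ (2 #{P | S} + [K : ℚ])` when `μ_p ⊂ K`, `p ∈ S`.
(Local input: `PT.L.StmtPowCard`; `ℚ_q ⊗ K = ∏ (A/𝔪)` (PT/G1/TensorHQ.lean), the number of
maximal ideals of `ℚ_q ⊗ K` is the number of primes of `K` over `q` (`G1.StmtMaxSpecCount`,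
`σ = 1`), `Σ_𝔪 [A/𝔪 : ℚ_q] = [K : ℚ]`.) -/
def StmtJCount : Prop :=
  ∀ (p : ℕ) [Fact p.Prime] (S : Finset Nat.Primes), (∃ q ∈ S, (q : ℕ) = p) →
    ∀ (K : Type) [Field K] [NumberField K] (ζ : K), IsPrimitiveRoot ζ p →
      (nMul p (Additive (JL S K))).index ≠ 0 ∧
      (nMul p (Additive (JL S K))).index ≤
        p ^ (2 * (primesAbove (sProd S) K).ncard + Module.finrank ℚ K)

/-- **X-E** (unit count): for `E = ker(div) = ` the `S`-units of `K ⊃ μ_p`, `p` odd:
`[E : E ∩ Kˣᵖ] = [E : Eᵖ] = p ^ (#{P | S} + [K : ℚ] / 2)`; we only need `≥` for the square.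
(`G1.stmtUnitRank`, `G.cse_divHom_eq_zero_iff`, `K` is totally complex.) -/
def StmtECount : Prop :=
  ∀ (p : ℕ) [Fact p.Prime], p ≠ 2 → ∀ (S : Finset Nat.Primes) (K : Type) [Field K]
    [NumberField K] (ζ : K), IsPrimitiveRoot ζ p →
      (nMul p (Additive Kˣ)).relIndex (LinearMap.ker (divHom S K)).toAddSubgroup ≠ 0 ∧
      p ^ (2 * (primesAbove (sProd S) K).ncard + Module.finrank ℚ K) ≤
        ((nMul p (Additive Kˣ)).relIndex (LinearMap.ker (divHom S K)).toAddSubgroup) ^ 2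

/-! ### Kummer extensions of `K` (pieces X-SPL, X-UNR)

`IsKummerExt p W L` (PT/X/Kummer.lean): `L = K(W^{1/p})` — `L` is generated over `K` by the
`p`-th roots of the elements of `W ≤ Kˣ`, and every element of `W` has a `p`-th root in `L`. -/

/-- **X-SPL** (split places): if `L = K(W^{1/p})` with `W ≤ V_loc` (every `a ∈ W` is a `p`-th
power in `J_K`), then every idèle of `K` is a norm from `L`: `J_K ⊂ N_{L/K} J_L`.
(`ℚ_q ⊗ L = (ℚ_q ⊗ K) ⊗_K L` is a product of copies of `ℚ_q ⊗ K` permuted simply transitively by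
`Gal(L/K)`: orthogonal idempotents `e_σ` from `θ = (1 ⊗ β)/b`, `θ^p = 1`; `j' = 1 + (j - 1) e_1`.) -/
def StmtSplitIdele : Prop :=
  ∀ (p : ℕ) [Fact p.Prime] (S : Finset Nat.Primes) (K L : Type) [Field K] [NumberField K]
    [Field L] [NumberField L] [Algebra K L] [IsGalois K L] (ζ : K), IsPrimitiveRoot ζ p →
    ∀ W : Subgroup Kˣ, W ≤ selVloc p S K → IsKummerExt p W L →
    ∀ j : JL S K, ∃ j' : JL S L, jlMap S K L j = ∏ σ : L ≃ₐ[K] L, jlHom S (galToAut σ) j'

/-- **X-UNR** (Kummer extensions by Selmer elements are unramified outside `S ∋ p`): if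
`L = K(W^{1/p})` with `W ≤ V`, then `e(P | P ∩ K) = 1` for all primes `P ∤ S` of `L`.
(For `1 ≠ σ ∈ Gal(L/K)` pick `β`, `β^p = a ∈ W`, `σ β = ζ^k β ≠ β`; scale `β` by an element of
`K` to a `P`-unit: `σ β - β = (ζ^k - 1) β ∉ P`, so `σ ∉ I_P`; `e = #I_P`, cf. PT-G/D-unram.) -/
def StmtKummerUnram : Prop :=
  ∀ (p : ℕ) [Fact p.Prime] (S : Finset Nat.Primes), (∃ q ∈ S, (q : ℕ) = p) →
    ∀ (K L : Type) [Field K] [NumberField K] [Field L] [NumberField L] [Algebra K L]
      [IsGalois K L] (ζ : K), IsPrimitiveRoot ζ p →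
      ∀ W : Subgroup Kˣ, W ≤ selV p S K → IsKummerExt p W L → UnramOffRel S K L

/-! ### The existence theorem mod `p`, type level (piece X-ASM) -/

/-- **X-ASM-TL** (existence theorem mod `p`, type level).  `K ⊃ μ_p`, `p ∈ S` odd,
`L = K(V^{1/p})`, `L' = K(V_loc^{1/p})`, and `C_S(L)`, `C_S(L')` have `p`-fundamental classes.
Then the norm subgroup of `L / K` (`G3.NormSub`: the `c ∈ C_S(K)` with `csMap c ∈ N_{L/K} C_S(L)`)
is contained in `p • C_S(K)`. -/
def StmtExistTL : Prop :=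
  ∀ (p : ℕ) [Fact p.Prime], p ≠ 2 → ∀ (S : Finset Nat.Primes), (∃ q ∈ S, (q : ℕ) = p) →
    ∀ (K L L' : Type) [Field K] [NumberField K] [Field L] [NumberField L] [Field L']
      [NumberField L'] [Algebra K L] [IsGalois K L] [Algebra K L'] [IsGalois K L'] (ζ : K),
      IsPrimitiveRoot ζ p →
      IsKummerExt p (selV p S K) L → IsKummerExt p (selVloc p S K) L' →
      (∃ u : H2 (csRep S L), IsPFundClass p (csRep S L) u) →
      (∃ u : H2 (csRep S L'), IsPFundClass p (csRep S L') u) →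
      ∀ c ∈ NormSub S K L, ∃ c₁ : CS S K, c = p • c₁

end Fermat.Agent.PT.X
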