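/-
PT-X — INTERFACE FILE 2: the Kummer extensions `K(W^{1/p}) ⊂ ℚ̄` stay in the tower `𝓕_S`
(fields unramified outside `S` in the prelude's sense, Galois over `ℚ`).
Sub-captain helper69; piece table: NOTES/PT-X.md.
-/
import Fermat.Agent.PT.X.Plan
import Fermat.Agent.PT.B.Plan

set_option autoImplicit false

namespace Fermat.Agent.PT.X

open NumberField IsDedekindDomain Fermat.Agent.PT.G Fermat.Agent.PT.G1 Fermat.Agent.PT
open Fermat.Agent.PT.B

/-- **X-KUM** (Kummer extensions in the tower): let `K ⊂ ℚ̄` be in the tower `𝓕_S` (`p ∈ S`),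
`μ_p ⊂ K`, and `W ≤ V = selV p S K` a subgroup stable under `Aut(K)` with `W / W ∩ Kˣᵖ` finite.
Then `K(W^{1/p}) ⊂ ℚ̄` (`kumField`, PT/X/Kummer.lean) is in the tower.

Proof: finite by `kummer_degree`; normal over `ℚ` since `W` and `K` are Galois-stable;
unramified outside `S`: for a valuation subring `A` of `ℚ̄` over `q ∉ S` and `a ∈ W`, the prime
`P = A.maximalIdeal ∩ 𝓞_K` is off `S`, `p ∣ ord_P a`, so `a = b^p u` with `b ∈ Kˣ`, `u ∈ Aˣ`
(`b = π^k`, `π` a uniformiser at `P`), and the inertia group `I_A` fixes `K` and the `p`-th roots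
of `u` (`Fermat.Agent.PT.X.inertia_fixes_root_of_unit`, KummerUnram.lean). -/
def StmtKummerTower : Prop :=
  ∀ (p : ℕ) [Fact p.Prime] (S : Finset Nat.Primes), (∃ q ∈ S, (q : ℕ) = p) →
    ∀ (K : QbarField) [NumberField ↥K], IsTowerField S K →
    ∀ (ζ : ↥K), IsPrimitiveRoot ζ p →
    ∀ W : Subgroup (↥K)ˣ, W ≤ selV p S ↥K →
      (∀ (σ : ↥K ≃ₐ[ℚ] ↥K), ∀ a ∈ W, Units.map ((σ : ↥K ≃ₐ[ℚ] ↥K) : ↥K →* ↥K) a ∈ W) →
      (powMonoidHom p : (↥K)ˣ →* (↥K)ˣ).range.relIndex W ≠ 0 →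
      IsTowerField S ((kumField p W (AlgebraicClosure ℚ)).restrictScalars ℚ)

end Fermat.Agent.PT.X
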