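/-
PT-X, piece X-KUM (helper61): `stmtKummerTower : StmtKummerTower` — the Kummer extensions
`K(W^{1/p}) ⊂ ℚ̄`, `W ≤ selV p S K` Galois-stable with `W / W ∩ Kˣᵖ` finite, stay in the tower
`𝓕_S` (finite Galois over `ℚ`, unramified outside `S` in the prelude's sense).
-/
import Fermat.Agent.PT.X.PlanTower
import Fermat.Agent.PT.X.KummerUnram

set_option autoImplicit false

noncomputable section

namespace Fermat.Agent.PT.X

open NumberField IsDedekindDomain Fermat.Agent.PT.G Fermat.Agent.PT.G1 Fermat.Agent.PT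
open Fermat.Agent.PT.B IntermediateField

/-! ### Valuation subrings of `ℚ̄` and primes of `𝓞 K` -/

section Place

/-- elements integral over `ℤ` lie in every valuation subring -/
theorem ktow_mem_of_isIntegral {L : Type*} [Field L] (A : ValuationSubring L) {x : L}
    (hx : IsIntegral ℤ x) : x ∈ A := by
  have hx' : IsIntegral A x := hx.tower_top
  obtain ⟨y, hy⟩ := IsIntegrallyClosed.isIntegral_iff.mp hx'
  rw [← hy]
  exact y.2

variable (K : QbarField) (A : ValuationSubring (AlgebraicClosure ℚ))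

/-- the embedding `𝓞 K → ℚ̄` -/
def ktowEmb : 𝓞 ↥K →+* AlgebraicClosure ℚ :=
  (algebraMap ↥K (AlgebraicClosure ℚ)).comp (algebraMap (𝓞 ↥K) ↥K)

theorem ktowEmb_apply (x : 𝓞 ↥K) : ktowEmb K x = ((x : ↥K) : AlgebraicClosure ℚ) := rfl

theorem ktowEmb_mem (x : 𝓞 ↥K) : ktowEmb K x ∈ A := by
  apply ktow_mem_of_isIntegral
  have h : IsIntegral ℤ (x : ↥K) := x.2
  exact h.map (IsScalarTower.toAlgHom ℤ ↥K (AlgebraicClosure ℚ))

theorem ktowEmb_val_le (x : 𝓞 ↥K) : A.valuation (ktowEmb K x) ≤ 1 :=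
  (ValuationSubring.valuation_le_one_iff A _).2 (ktowEmb_mem K A x)

/-- the prime of `𝓞 K` below `A` -/
def ktowIdeal : Ideal (𝓞 ↥K) where
  carrier := {x | A.valuation (ktowEmb K x) < 1}
  zero_mem' := by simp
  add_mem' := fun {x y} hx hy => by
    show A.valuation (ktowEmb K (x + y)) < 1
    rw [map_add]
    exact lt_of_le_of_lt (A.valuation.map_add _ _) (max_lt hx hy)
  smul_mem' := fun c x hx => by
    show A.valuation (ktowEmb K (c • x)) < 1
    rw [smul_eq_mul, map_mul, map_mul]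
    calc A.valuation (ktowEmb K c) * A.valuation (ktowEmb K x)
        ≤ 1 * A.valuation (ktowEmb K x) := by gcongr; exact ktowEmb_val_le K A c
      _ < 1 := by rw [one_mul]; exact hx

theorem mem_ktowIdeal (x : 𝓞 ↥K) : x ∈ ktowIdeal K A ↔ A.valuation (ktowEmb K x) < 1 := Iff.rfl

theorem not_mem_ktowIdeal (x : 𝓞 ↥K) : x ∉ ktowIdeal K A ↔ A.valuation (ktowEmb K x) = 1 := by
  rw [mem_ktowIdeal, not_lt]
  exact ⟨fun h => le_antisymm (ktowEmb_val_le K A x) h, fun h => h.ge⟩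

instance ktowIdeal_isPrime : (ktowIdeal K A).IsPrime where
  ne_top' := by
    rw [Ideal.ne_top_iff_one, not_mem_ktowIdeal, map_one, map_one]
  mem_or_mem' := fun {x y} hxy => by
    by_contra h
    rw [not_or, not_mem_ktowIdeal, not_mem_ktowIdeal] at h
    rw [mem_ktowIdeal, map_mul, map_mul, h.1, h.2, one_mul] at hxy
    exact lt_irrefl _ hxy

theorem ktow_natCast_mem {q : ℕ} (hA : A.LiesOverPrime q) : (q : 𝓞 ↥K) ∈ ktowIdeal K A := by
  rw [mem_ktowIdeal, map_natCast]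
  exact (ValuationSubring.mem_nonunits_iff A).1 hA

theorem ktowIdeal_ne_bot {q : ℕ} (hq : q.Prime) (hA : A.LiesOverPrime q) :
    ktowIdeal K A ≠ ⊥ := by
  intro h
  have h1 := ktow_natCast_mem K A hA
  rw [h, Ideal.mem_bot] at h1
  exact hq.ne_zero (by exact_mod_cast h1)

/-- the height one prime of `𝓞 K` below `A` -/
def ktowPrime {q : ℕ} (hq : q.Prime) (hA : A.LiesOverPrime q) : HeightOneSpectrum (𝓞 ↥K) :=
  ⟨ktowIdeal K A, ktowIdeal_isPrime K A, ktowIdeal_ne_bot K A hq hA⟩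

theorem ktow_natCast_val_eq_one {q : ℕ} (hq : q.Prime) (hA : A.LiesOverPrime q) {r : ℕ}
    (hr : r.Prime) (hrq : r ≠ q) : A.valuation (r : AlgebraicClosure ℚ) = 1 := by
  have h1 : (r : AlgebraicClosure ℚ) ∉ A.nonunits :=
    natCast_not_mem_nonunits_of_liesOver A hr hq hrq hA
  have h2 : A.valuation (r : AlgebraicClosure ℚ) ≤ 1 := by
    rw [ValuationSubring.valuation_le_one_iff]
    exact ktow_mem_of_isIntegral A (isIntegral_algebraMap (R := ℤ) (x := (r : ℤ)) |> fun h => by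
      simpa using h)
  rw [ValuationSubring.mem_nonunits_iff, not_lt] at h1
  exact le_antisymm h2 h1

theorem ktow_sProd_not_mem (S : Finset Nat.Primes) {q : Nat.Primes} (hqS : q ∉ S)
    (hA : A.LiesOverPrime (q : ℕ)) : ((sProd S : ℕ) : 𝓞 ↥K) ∉ ktowIdeal K A := by
  rw [not_mem_ktowIdeal, map_natCast, sProd, Nat.cast_prod, map_prod]
  refine Finset.prod_eq_one fun r hr => ?_
  refine ktow_natCast_val_eq_one A q.2 hA r.2 ?_
  intro h
  exact hqS ((Subtype.ext h : r = q) ▸ hr)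

/-- the prime of `𝓞 K` below `A`, as a prime off `S` -/
def ktowOff (S : Finset Nat.Primes) {q : Nat.Primes} (hqS : q ∉ S)
    (hA : A.LiesOverPrime (q : ℕ)) : OffS S ↥K :=
  ⟨ktowPrime K A q.2 hA, ktow_sProd_not_mem K A S hqS hA⟩

/-- elements of `K` which are integral at the prime below `A` lie in `A` -/
theorem ktow_val_le_one [NumberField ↥K] {q : ℕ} (hq : q.Prime) (hA : A.LiesOverPrime q) (x : ↥K)
    (hx : (ktowPrime K A hq hA).valuation ↥K x ≤ 1) :
    A.valuation (x : AlgebraicClosure ℚ) ≤ 1 := by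
  obtain ⟨n, d, hnd⟩ :=
    HeightOneSpectrum.exists_primeCompl_mul_eq_of_integer (ktowPrime K A hq hA) x hx
  have hd : A.valuation (ktowEmb K (d : 𝓞 ↥K)) = 1 := (not_mem_ktowIdeal K A _).1 d.2
  have hn : A.valuation (ktowEmb K n) ≤ 1 := ktowEmb_val_le K A n
  have h := congrArg (fun y : ↥K => A.valuation (y : AlgebraicClosure ℚ)) hnd
  simp only [MulMemClass.coe_mul, map_mul] at h
  rw [← ktowEmb_apply, ← ktowEmb_apply, hd, mul_one] at h
  rw [h]
  exact hn

/-- **Local decomposition**: if `p ∣ ord_P a` at the prime `P` of `K` below `A`, then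
`a = u · β ^ p` with `β, u ∈ K` and `u` a unit of `A`. -/
theorem ktow_decomp [NumberField ↥K] {q : ℕ} (hq : q.Prime) (hA : A.LiesOverPrime q) (p : ℕ)
    (a : (↥K)ˣ) (ha : (p : ℤ) ∣ ordAt (ktowPrime K A hq hA) a) :
    ∃ β u : AlgebraicClosure ℚ, β ∈ K ∧ u ∈ K ∧ u ∈ A ∧ u ∉ A.nonunits ∧
      ((a : ↥K) : AlgebraicClosure ℚ) = u * β ^ p := by
  set P := ktowPrime K A hq hA with hP
  obtain ⟨k, hk⟩ := ha
  obtain ⟨π, hπ⟩ := P.valuation_exists_uniformizer ↥K
  have hπ0 : π ≠ 0 := by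
    rintro rfl
    rw [map_zero] at hπ
    exact WithZero.zero_ne_coe hπ
  let πu : (↥K)ˣ := Units.mk0 π hπ0
  have hπu : P.valuationOfNeZero πu = Multiplicative.ofAdd (-1 : ℤ) := by
    rw [← WithZero.coe_inj, HeightOneSpectrum.valuationOfNeZero_eq]
    exact hπ
  let b : (↥K)ˣ := πu ^ k
  let u : (↥K)ˣ := a * (b ^ p)⁻¹
  have hu : P.valuationOfNeZero u = 1 := by
    show P.valuationOfNeZero (a * ((πu ^ k) ^ p)⁻¹) = 1
    rw [map_mul, map_inv, map_pow, map_zpow, valuationOfNeZero_eq_ordAt, hπu, hk]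
    rw [← ofAdd_zsmul, ← ofAdd_nsmul, ← ofAdd_neg, ← ofAdd_add, ← ofAdd_zero]
    congr 1
    simp only [smul_eq_mul, nsmul_eq_mul]
    ring
  have hu1 : P.valuation ↥K (u : ↥K) = 1 := by
    rw [← HeightOneSpectrum.valuationOfNeZero_eq, hu]
    rfl
  have hu2 : P.valuation ↥K ((u⁻¹ : (↥K)ˣ) : ↥K) = 1 := by
    rw [← HeightOneSpectrum.valuationOfNeZero_eq, map_inv, hu]
    rfl
  have h1 : A.valuation ((u : ↥K) : AlgebraicClosure ℚ) ≤ 1 :=
    ktow_val_le_one K A hq hA _ hu1.le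
  have h2 : A.valuation (((u⁻¹ : (↥K)ˣ) : ↥K) : AlgebraicClosure ℚ) ≤ 1 :=
    ktow_val_le_one K A hq hA _ hu2.le
  have hu0 : ((u : ↥K) : AlgebraicClosure ℚ) ≠ 0 := by
    have : (u : ↥K) ≠ 0 := u.ne_zero
    exact_mod_cast this
  have h3 : A.valuation ((u : ↥K) : AlgebraicClosure ℚ) = 1 := by
    refine le_antisymm h1 ?_
    have h4 : (((u⁻¹ : (↥K)ˣ) : ↥K) : AlgebraicClosure ℚ) =
        ((u : ↥K) : AlgebraicClosure ℚ)⁻¹ := by
      rw [Units.val_inv_eq_inv_val]
      push_cast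
      rfl
    rw [h4, map_inv₀] at h2
    have hne : A.valuation ((u : ↥K) : AlgebraicClosure ℚ) ≠ 0 :=
      (Valuation.ne_zero_iff _).2 hu0
    rwa [inv_le_one₀ (zero_lt_iff.2 hne)] at h2
  refine ⟨((b : ↥K) : AlgebraicClosure ℚ), ((u : ↥K) : AlgebraicClosure ℚ), (b : ↥K).2,
    (u : ↥K).2, (ValuationSubring.valuation_le_one_iff A _).1 h3.le, ?_, ?_⟩
  · rw [ValuationSubring.mem_nonunits_iff, h3]
    exact lt_irrefl _
  · have h5 : a = u * b ^ p := by
      show a = a * (b ^ p)⁻¹ * b ^ p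
      rw [inv_mul_cancel_right]
    conv_lhs => rw [h5]
    push_cast
    rfl

end Place

/-! ### The Kummer field over `ℚ` -/

section Tower

variable (p : ℕ) (K : QbarField) (W : Subgroup (↥K)ˣ)

/-- the generators of `K(W^{1/p})` over `ℚ` -/
def ktowGen : Set (AlgebraicClosure ℚ) := (K : Set (AlgebraicClosure ℚ)) ∪ kumRoots p W (AlgebraicClosure ℚ)

theorem ktow_restrictScalars_eq :
    (kumField p W (AlgebraicClosure ℚ)).restrictScalars ℚ = adjoin ℚ (ktowGen p K W) :=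
  restrictScalars_adjoin ℚ K _

/-- an automorphism fixing the generators lies in the fixing subgroup -/
theorem ktow_mem_fixingSubgroup (T : Set (AlgebraicClosure ℚ))
    (σ : AlgebraicClosure ℚ ≃ₐ[ℚ] AlgebraicClosure ℚ) (h : ∀ x ∈ T, σ x = x) :
    σ ∈ (adjoin ℚ T).fixingSubgroup := by
  have hle : adjoin ℚ T ≤ IntermediateField.fixedField (Subgroup.zpowers σ) := by
    apply IntermediateField.adjoin_le_iff.mpr
    intro x hx
    rw [SetLike.mem_coe, IntermediateField.mem_fixedField_iff]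
    intro g hg
    obtain ⟨n, rfl⟩ := Subgroup.mem_zpowers_iff.mp hg
    have hfix : σ • x = x := h x hx
    exact MulAction.mem_stabilizer_iff.mp
      (Subgroup.zpow_mem _ (MulAction.mem_stabilizer_iff.mpr hfix) n)
  have := (IntermediateField.le_iff_le (Subgroup.zpowers σ) (adjoin ℚ T)).mp hle
  exact this (Subgroup.mem_zpowers σ)

/-- Galois stability of the generators -/
theorem ktow_gen_stable [Normal ℚ ↥K]
    (hW : ∀ (σ : ↥K ≃ₐ[ℚ] ↥K), ∀ a ∈ W, Units.map ((σ : ↥K ≃ₐ[ℚ] ↥K) : ↥K →* ↥K) a ∈ W)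
    (σ : AlgebraicClosure ℚ ≃ₐ[ℚ] AlgebraicClosure ℚ) {x : AlgebraicClosure ℚ}
    (hx : x ∈ ktowGen p K W) : σ x ∈ ktowGen p K W := by
  rcases hx with hx | ⟨a, ha, hx⟩
  · left
    have h := AlgEquiv.restrictNormal_commutes σ ↥K ⟨x, hx⟩
    have h' : σ x = ((σ.restrictNormal ↥K ⟨x, hx⟩ : ↥K) : AlgebraicClosure ℚ) := h.symm
    rw [SetLike.mem_coe, h']
    exact (σ.restrictNormal ↥K ⟨x, hx⟩).2
  · right
    refine ⟨Units.map ((σ.restrictNormal ↥K : ↥K ≃ₐ[ℚ] ↥K) : ↥K →* ↥K) a, hW _ a ha, ?_⟩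
    rw [← map_pow, hx]
    exact (AlgEquiv.restrictNormal_commutes σ ↥K (a : ↥K)).symm

end Tower

/-- **X-KUM** -/
theorem stmtKummerTower : StmtKummerTower := by
  intro p hp S hpS K _ hK ζ hζ W hWV hWstab hfin
  obtain ⟨pS, hpS1, hpS2⟩ := hpS
  have : IsGalois ℚ ↥K := hK.2
  have : IsAlgClosure ℚ (AlgebraicClosure ℚ) := ⟨inferInstance, AlgebraicClosure.isAlgebraic ℚ⟩
  have : Normal ℚ (AlgebraicClosure ℚ) := IsAlgClosure.normal ℚ (AlgebraicClosure ℚ)
  have hroot : ∀ a ∈ W, ∃ β : AlgebraicClosure ℚ,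
      β ^ p = algebraMap ↥K (AlgebraicClosure ℚ) (a : ↥K) := fun a _ =>
    IsAlgClosed.exists_pow_nat_eq _ hp.out.pos
  obtain ⟨hfd, -, -, -, -⟩ := kummer_degree (Ω := AlgebraicClosure ℚ) hp.out hζ hroot hfin
  -- finite over `ℚ`
  have hfdQ : FiniteDimensional ℚ ((kumField p W (AlgebraicClosure ℚ)).restrictScalars ℚ) := by
    have := hfd
    have : FiniteDimensional ℚ (kumField p W (AlgebraicClosure ℚ)) :=
      Module.Finite.trans ↥K _
    exact this
  refine ⟨⟨hfdQ, ?_⟩, ?_⟩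
  · -- unramified outside `S`
    intro q hq A hA σ hσ
    rw [ktow_restrictScalars_eq]
    apply ktow_mem_fixingSubgroup
    have hσK : σ ∈ K.fixingSubgroup := hK.1.2 q hq A hA hσ
    rintro x (hx | ⟨a, ha, hx⟩)
    · exact (IntermediateField.mem_fixingSubgroup_iff K σ).1 hσK x hx
    · have hloc : ∀ q : Nat.Primes, q ∉ S → ∀ A : ValuationSubring (AlgebraicClosure ℚ),
          A.LiesOverPrime (q : ℕ) → ∃ β u : AlgebraicClosure ℚ, β ∈ K ∧ u ∈ K ∧ u ∈ A ∧
            u ∉ A.nonunits ∧ ((a : ↥K) : AlgebraicClosure ℚ) = u * β ^ ((pS : ℕ)) := by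
        intro q' hq' A' hA'
        rw [hpS2]
        exact ktow_decomp K A' q'.2 hA' p a (hWV ha (ktowOff K A' S hq' hA'))
      have hun := isUnramifiedOutside_adjoin_root S pS hpS1 K hK.1
        ((a : ↥K) : AlgebraicClosure ℚ) x (by rw [hpS2]; exact hx) hloc
      have hσ' := hun.2 q hq A hA hσ
      rw [IntermediateField.fixingSubgroup_sup] at hσ'
      exact (IntermediateField.mem_fixingSubgroup_iff _ σ).1 hσ'.2 x
        (mem_adjoin_simple_self ℚ x)
  · -- Galois over `ℚ`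
    have hN : ∀ σ : AlgebraicClosure ℚ ≃ₐ[ℚ] AlgebraicClosure ℚ,
        ((kumField p W (AlgebraicClosure ℚ)).restrictScalars ℚ).map
          (σ : AlgebraicClosure ℚ →ₐ[ℚ] AlgebraicClosure ℚ) ≤
          (kumField p W (AlgebraicClosure ℚ)).restrictScalars ℚ := by
      intro σ
      rw [ktow_restrictScalars_eq, adjoin_map]
      apply adjoin.mono
      rintro _ ⟨x, hx, rfl⟩
      exact ktow_gen_stable p K W hWstab σ hx
    have hN' := (IntermediateField.normal_iff_forall_map_le'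
      (K := (kumField p W (AlgebraicClosure ℚ)).restrictScalars ℚ)).2 hN
    exact { to_isSeparable := inferInstance, to_normal := hN' }

end Fermat.Agent.PT.X

end
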