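/-
PT-X — **X-CAP**, unconditional (helper30): `p`-capitulation for `C_S(·)` in the tower,
`stmtCapCS : B.StmtCapCS`, from `stmtCapCS_of` (Cap.lean) and `stmtKummerTower` (KummerTower.lean).
-/
import Fermat.Agent.PT.X.Cap
import Fermat.Agent.PT.X.KummerTower

set_option autoImplicit false

namespace Fermat.Agent.PT.X

/-- **X-CAP**, unconditional. -/
theorem stmtCapCS : Fermat.Agent.PT.B.StmtCapCS := stmtCapCS_of stmtKummerTower

end Fermat.Agent.PT.X
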