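/-
PT-X, sub-piece `kte` of X-FIN (helper61, for helper56): the Kummer field `K(W^{1/p}) ⊂ ℚ̄`,
restricted to `ℚ`, contains `K` and is a Kummer extension of `K` for the algebra structure
`B.algebraOfLe` (the one used by PT-B / PT-G for tower fields).
-/
import Fermat.Agent.PT.X.PlanTower
import Fermat.Agent.PT.B.Plan4

set_option autoImplicit false
set_option linter.style.haveILetI false

noncomputable section

namespace Fermat.Agent.PT.X

open IntermediateField Fermat.Agent.PT.B

/-- `IsKummerExt` is invariant under isomorphisms of `K`-algebras. -/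
theorem kte_of_algEquiv {K : Type*} [Field K] {E E' : Type*} [Field E] [Algebra K E] [Field E']
    [Algebra K E'] {p : ℕ} {W : Subgroup Kˣ} (e : E ≃ₐ[K] E') (h : IsKummerExt p W E) :
    IsKummerExt p W E' where
  gen := by
    have himg : (e : E →ₐ[K] E') '' kumRoots p W E = kumRoots p W E' := by
      ext x
      constructor
      · rintro ⟨y, ⟨a, ha, hy⟩, rfl⟩
        refine ⟨a, ha, ?_⟩
        show (e y) ^ p = _
        rw [← map_pow, hy, AlgEquiv.commutes]
      · rintro ⟨a, ha, hx⟩
        refine ⟨e.symm x, ⟨a, ha, ?_⟩, by simp⟩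
        rw [← map_pow, hx, AlgEquiv.commutes]
    rw [← himg, ← adjoin_map, h.gen]
    rw [← AlgHom.fieldRange_eq_map]
    exact AlgHom.fieldRange_eq_top.2 e.surjective
  root := fun a ha => by
    obtain ⟨β, hβ⟩ := h.root a ha
    exact ⟨e β, by rw [← map_pow, hβ, AlgEquiv.commutes]⟩

section

variable (p : ℕ) (K : QbarField) (W : Subgroup (↥K)ˣ)

/-- `K ≤ K(W^{1/p})` -/
theorem kte_le : K ≤ (kumField p W (AlgebraicClosure ℚ)).restrictScalars ℚ := fun x hx =>
  (kumField p W (AlgebraicClosure ℚ)).algebraMap_mem ⟨x, hx⟩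

/-- the identity of `K(W^{1/p})`, from the `IntermediateField` algebra structure over `K` to the
structure `B.algebraOfLe` -/
def kteEquiv :
    letI := algebraOfLe (kte_le p K W)
    ↥(kumField p W (AlgebraicClosure ℚ)) ≃ₐ[↥K]
      ↥((kumField p W (AlgebraicClosure ℚ)).restrictScalars ℚ) :=
  letI := algebraOfLe (kte_le p K W)
  { RingEquiv.refl ↥(kumField p W (AlgebraicClosure ℚ)) with
    commutes' := fun _ => rfl }

/-- `K(W^{1/p}) ⊂ ℚ̄` is a Kummer extension of `K` for the algebra structure `B.algebraOfLe`. -/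
theorem kte_isKummerExt (hp : p ≠ 0) :
    letI := algebraOfLe (kte_le p K W)
    IsKummerExt p W ↥((kumField p W (AlgebraicClosure ℚ)).restrictScalars ℚ) := by
  letI := algebraOfLe (kte_le p K W)
  have hroot : ∀ a ∈ W, ∃ β : AlgebraicClosure ℚ,
      β ^ p = algebraMap ↥K (AlgebraicClosure ℚ) (a : ↥K) := fun a _ =>
    IsAlgClosed.exists_pow_nat_eq _ (Nat.pos_of_ne_zero hp)
  exact kte_of_algEquiv (kteEquiv p K W) (isKummerExt_kumField (Ω := AlgebraicClosure ℚ) hroot)

end

end Fermat.Agent.PT.X

end
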