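/-
PT-X / X-U (helper74): Dirichlet's `S`-unit theorem in counting form.

`K` a number field, `S` a finite set of primes of `𝓞 K`, `E_S = (S : Set _).unit K`. For `n ≠ 0`:
* `card_sunit_powQuot`:
    `|E_S / E_Sⁿ| = n ^ (rank K + |S|) * |μ(K)[n]|`   (`rank K = r₁ + r₂ - 1`);
* `finite_sunit_powQuot`: `E_S / E_Sⁿ` is finite                                  (X-U (a));
* `le_card_sunit_powQuot`: if `K` contains a primitive `p`-th root of unity (`p` prime) then
    `p ^ (|S| + [K:ℚ]/2) ≤ |E_S / E_S^p|`                                          (X-U (b)).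
Generic Dedekind part: `sunitOrd`, `sunitOrd_range_finiteIndex`, `unitsEquivKer`,
`card_sunit_powQuot_dedekind`.
-/
import Mathlib
import Fermat.Agent.PT.X.DivS

set_option autoImplicit false
set_option linter.unusedSectionVars false

open IsDedekindDomain IsDedekindDomain.HeightOneSpectrum FractionalIdeal
open scoped nonZeroDivisors

namespace Fermat.Agent.PT.X

section dedekind

variable {R : Type*} [CommRing R] [IsDedekindDomain R] {K : Type*} [Field K] [Algebra R K]
  [IsFractionRing R K] (S : Finset (HeightOneSpectrum R))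

/-- The vector of orders at the primes of `S` of an `S`-unit. -/
noncomputable def sunitOrd :
    (S : Set (HeightOneSpectrum R)).unit K →* Multiplicative (↥S →₀ ℤ) where
  toFun x := Multiplicative.ofAdd
    (Finsupp.equivFunOnFinite.symm (fun v : ↥S => ordAt v.1 (x : Kˣ)))
  map_one' := by
    rw [← ofAdd_zero]
    congr 1
    ext v
    simp [ordAt_one]
  map_mul' x y := by
    rw [← ofAdd_add]
    congr 1
    ext v
    simp [ordAt_mul]

@[simp] lemma sunitOrd_apply (x : (S : Set (HeightOneSpectrum R)).unit K) (v : ↥S) :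
    Multiplicative.toAdd (sunitOrd S x) v = ordAt v.1 (x : Kˣ) := rfl

/-- If the class group is finite, the orders of the `S`-units at `S` form a subgroup of finite
index of `ℤ^S`. -/
theorem sunitOrd_range_finiteIndex [Finite (ClassGroup R)] :
    (sunitOrd (K := K) S).range.FiniteIndex := by
  have hinj : Function.Injective (Subtype.val : ↥S → HeightOneSpectrum R) :=
    Subtype.val_injective
  have : (classHom K (Subtype.val : ↥S → HeightOneSpectrum R)).ker.FiniteIndex :=
    Subgroup.finiteIndex_ker _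
  refine Subgroup.finiteIndex_of_le
    (H := (classHom K (Subtype.val : ↥S → HeightOneSpectrum R)).ker) ?_
  intro d hd
  obtain ⟨x, hx, hx'⟩ := exists_ordAt_eq_of_mem_ker _ hinj d hd
  have hxS : x ∈ (S : Set (HeightOneSpectrum R)).unit K := by
    rw [mem_unit_iff_ordAt]
    intro w hw
    apply hx'
    rintro ⟨i, hi⟩ rfl
    exact hw hi
  refine ⟨⟨x, hxS⟩, ?_⟩
  rw [← ofAdd_toAdd (sunitOrd S ⟨x, hxS⟩), ← ofAdd_toAdd d]
  congr 1
  ext v
  simpa using hx v

/-- An element of `Kˣ` all of whose orders vanish comes from a unit of `R`. -/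
lemma exists_unit_of_ordAt_eq_zero (x : Kˣ) (hx : ∀ v : HeightOneSpectrum R, ordAt v x = 0) :
    ∃ u : Rˣ, Units.map (algebraMap R K : R →* K) u = x := by
  have hval : ∀ (y : Kˣ), (∀ v : HeightOneSpectrum R, ordAt v y = 0) →
      ∃ a : R, algebraMap R K a = (y : K) := by
    intro y hy
    have := HeightOneSpectrum.mem_integers_of_valuation_le_one (R := R) K (y : K) (fun v => by
      rw [← valuationOfNeZero_eq, valuationOfNeZero_eq_ordAt, hy v]
      simp)
    obtain ⟨a, ha⟩ := this
    exact ⟨a, ha⟩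
  obtain ⟨a, ha⟩ := hval x hx
  obtain ⟨b, hb⟩ := hval x⁻¹ (fun v => by rw [ordAt_inv, hx v, neg_zero])
  have hab : a * b = 1 := by
    apply IsFractionRing.injective R K
    rw [map_mul, ha, hb, map_one]
    simp
  refine ⟨⟨a, b, hab, by rw [mul_comm]; exact hab⟩, ?_⟩
  apply Units.ext
  simpa using ha

lemma ordAt_units_map (v : HeightOneSpectrum R) (u : Rˣ) :
    ordAt v (Units.map (algebraMap R K : R →* K) u) = 0 := by
  have h := valuationOfNeZero_eq_ordAt (K := K) v (Units.map (algebraMap R K : R →* K) u)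
  rw [valuation_of_unit_eq] at h
  have h2 : -(ordAt v (Units.map (algebraMap R K : R →* K) u)) = 0 := by
    have := congrArg Multiplicative.toAdd h
    simpa using this.symm
  linarith

lemma units_map_mem_unit (u : Rˣ) :
    Units.map (algebraMap R K : R →* K) u ∈ (S : Set (HeightOneSpectrum R)).unit K := by
  rw [mem_unit_iff_ordAt]
  intro v _
  exact ordAt_units_map v u

lemma units_map_mem_ker (u : Rˣ) :
    (⟨Units.map (algebraMap R K : R →* K) u, units_map_mem_unit S u⟩ :
      (S : Set (HeightOneSpectrum R)).unit K) ∈ (sunitOrd (K := K) S).ker := by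
  rw [MonoidHom.mem_ker, ← ofAdd_toAdd (sunitOrd S _), ← ofAdd_zero]
  congr 1
  ext v
  rw [sunitOrd_apply]
  exact ordAt_units_map v.1 u

/-- The kernel of `sunitOrd` is the image of `Rˣ`. -/
noncomputable def unitsToKer : Rˣ →* (sunitOrd (K := K) S).ker where
  toFun u := ⟨⟨Units.map (algebraMap R K : R →* K) u, units_map_mem_unit S u⟩,
    units_map_mem_ker S u⟩
  map_one' := by
    apply Subtype.ext
    apply Subtype.ext
    simp
  map_mul' u u' := by
    apply Subtype.ext
    apply Subtype.ext
    simp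

lemma unitsToKer_bijective : Function.Bijective (unitsToKer (K := K) S) := by
  constructor
  · intro u u' h
    have h1 : Units.map (algebraMap R K : R →* K) u = Units.map (algebraMap R K : R →* K) u' :=
      congrArg (fun z : (sunitOrd (K := K) S).ker => (z.1.1 : Kˣ)) h
    apply Units.ext
    apply IsFractionRing.injective R K
    have := congrArg (fun z : Kˣ => (z : K)) h1
    simpa using this
  · rintro ⟨⟨x, hxS⟩, hxk⟩
    have hall : ∀ v : HeightOneSpectrum R, ordAt v x = 0 := by
      intro v
      by_cases hv : v ∈ S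
      · rw [MonoidHom.mem_ker] at hxk
        have := congrArg (fun d : Multiplicative (↥S →₀ ℤ) => Multiplicative.toAdd d ⟨v, hv⟩) hxk
        simpa using this
      · exact (mem_unit_iff_ordAt _ x).mp hxS v (by simpa using hv)
    obtain ⟨u, hu⟩ := exists_unit_of_ordAt_eq_zero x hall
    refine ⟨u, ?_⟩
    apply Subtype.ext
    apply Subtype.ext
    exact hu

/-- `Rˣ ≃* ker (sunitOrd)`. -/
noncomputable def unitsEquivKer : Rˣ ≃* (sunitOrd (K := K) S).ker :=
  MulEquiv.ofBijective (unitsToKer S) (unitsToKer_bijective S)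

/-- **`S`-unit count, Dedekind form**: `|E_S/E_Sⁿ| = |Rˣ/(Rˣ)ⁿ| · n ^ |S|` if the class group is
finite and `n ≠ 0`. -/
theorem card_sunit_powQuot_dedekind [Finite (ClassGroup R)] (n : ℕ) (hn : n ≠ 0) :
    Nat.card ((S : Set (HeightOneSpectrum R)).unit K ⧸
        powRange ((S : Set (HeightOneSpectrum R)).unit K) n) =
      Nat.card (Rˣ ⧸ powRange Rˣ n) * n ^ S.card := by
  have htf : ∀ c : Multiplicative (↥S →₀ ℤ), c ^ n = 1 → c = 1 := by
    intro c hc
    have h1 : n • Multiplicative.toAdd c = 0 := by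
      have := congrArg Multiplicative.toAdd hc
      simpa using this
    have h2 : Multiplicative.toAdd c = 0 := by
      rcases smul_eq_zero.mp h1 with h | h
      · exact absurd h hn
      · exact h
    rw [← ofAdd_toAdd c, h2, ofAdd_zero]
  rw [card_powQuot_eq_mul_range n (sunitOrd (K := K) S) htf,
    ← card_powQuot_congr (unitsEquivKer (K := K) S) n]
  congr 1
  have := sunitOrd_range_finiteIndex (K := K) S
  rw [card_powQuot_of_finiteIndex (↥S →₀ ℤ) (sunitOrd (K := K) S).range n]
  congr 1
  rw [Module.finrank_finsupp_self, Fintype.card_coe]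

end dedekind

section numberField

open NumberField NumberField.Units

variable (K : Type*) [Field K] [NumberField K]

/-- `|𝓞ˣ/(𝓞ˣ)ⁿ| = n ^ rank · |μ(K)[n]|`. -/
theorem card_units_powQuot (n : ℕ) (hn : n ≠ 0) :
    Nat.card ((𝓞 K)ˣ ⧸ powRange (𝓞 K)ˣ n) =
      n ^ Units.rank K * Nat.card (powMonoidHom n : torsion K →* torsion K).ker := by
  have htf : ∀ c : (𝓞 K)ˣ ⧸ torsion K, c ^ n = 1 → c = 1 := by
    intro c hc
    induction c using QuotientGroup.induction_on with
    | H g =>
      rw [← QuotientGroup.mk_pow, QuotientGroup.eq_one_iff] at hc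
      rw [QuotientGroup.eq_one_iff]
      rw [torsion, CommGroup.mem_torsion] at hc ⊢
      exact hc.of_pow hn
  have h := card_powQuot_eq_mul (B := (𝓞 K)ˣ) (C := (𝓞 K)ˣ ⧸ torsion K) n
    (f := QuotientGroup.mk' (torsion K)) (QuotientGroup.mk'_surjective _) htf
  rw [h, card_powQuot_of_free ((𝓞 K)ˣ ⧸ torsion K) n, finrank_modTorsion,
    card_powQuot_subgroup_congr (QuotientGroup.ker_mk' (torsion K)) n,
    card_powQuot_of_finite, mul_comm]

variable (S : Finset (HeightOneSpectrum (𝓞 K)))

/-- **Dirichlet's `S`-unit theorem, counting form**: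
`|E_S/E_Sⁿ| = n ^ (rank K + |S|) · |μ(K)[n]|` for `n ≠ 0`. -/
theorem card_sunit_powQuot (n : ℕ) (hn : n ≠ 0) :
    Nat.card ((S : Set (HeightOneSpectrum (𝓞 K))).unit K ⧸
        powRange ((S : Set (HeightOneSpectrum (𝓞 K))).unit K) n) =
      n ^ (Units.rank K + S.card) * Nat.card (powMonoidHom n : torsion K →* torsion K).ker := by
  rw [card_sunit_powQuot_dedekind S n hn, card_units_powQuot K n hn, pow_add]
  ring

/-- **X-U (a)**: `E_S/E_Sⁿ` is finite (`n ≠ 0`). -/
theorem finite_sunit_powQuot (n : ℕ) (hn : n ≠ 0) :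
    Finite ((S : Set (HeightOneSpectrum (𝓞 K))).unit K ⧸
      (powMonoidHom n : (S : Set (HeightOneSpectrum (𝓞 K))).unit K →* _).range) := by
  apply Nat.finite_of_card_ne_zero
  have h := card_sunit_powQuot K S n hn
  change Nat.card ((S : Set (HeightOneSpectrum (𝓞 K))).unit K ⧸
        powRange ((S : Set (HeightOneSpectrum (𝓞 K))).unit K) n) ≠ 0
  rw [h]
  exact mul_ne_zero (pow_ne_zero _ hn) Nat.card_pos.ne'

/-- The number of `p`-torsion elements of `μ(K)` is at least `p` if `K` contains a primitive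
`p`-th root of unity. -/
lemma le_card_torsion_ker (p : ℕ) (hp : p ≠ 0) {ζ : K} (hζ : IsPrimitiveRoot ζ p) :
    p ≤ Nat.card (powMonoidHom p : torsion K →* torsion K).ker := by
  have : NeZero p := ⟨hp⟩
  -- `ζ` as a unit of `𝓞 K`
  have hz : IsPrimitiveRoot hζ.toInteger p := hζ.toInteger_isPrimitiveRoot
  have hu : IsPrimitiveRoot (hz.isUnit hp).unit p := hz.isUnit_unit hp
  have hup : (hz.isUnit hp).unit ^ p = 1 := hu.pow_eq_one
  have hut : (hz.isUnit hp).unit ∈ torsion K := by
    rw [torsion, CommGroup.mem_torsion, isOfFinOrder_iff_pow_eq_one]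
    exact ⟨p, Nat.pos_of_ne_zero hp, hup⟩
  have htk : (⟨(hz.isUnit hp).unit, hut⟩ : torsion K) ∈
      (powMonoidHom p : torsion K →* torsion K).ker := by
    rw [MonoidHom.mem_ker]
    apply Subtype.ext
    simpa using hup
  have hord : orderOf (⟨(hz.isUnit hp).unit, hut⟩ : torsion K) = p := by
    rw [← Subgroup.orderOf_coe]
    exact hu.eq_orderOf.symm
  have h1 : Nat.card (Subgroup.zpowers (⟨(hz.isUnit hp).unit, hut⟩ : torsion K)) = p := by
    rw [Nat.card_zpowers, hord]
  have h2 : Subgroup.zpowers (⟨(hz.isUnit hp).unit, hut⟩ : torsion K) ≤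
      (powMonoidHom p : torsion K →* torsion K).ker := by
    rw [Subgroup.zpowers_le]
    exact htk
  have h3 := Subgroup.card_le_of_le h2
  rw [h1] at h3
  exact h3

/-- **X-U (b)**: if `K` contains a primitive `p`-th root of unity, `p ≠ 0`, then
`p ^ (|S| + [K:ℚ]/2) ≤ |E_S/E_S^p|`. -/
theorem le_card_sunit_powQuot (p : ℕ) (hp : p ≠ 0) {ζ : K} (hζ : IsPrimitiveRoot ζ p) :
    p ^ (S.card + Module.finrank ℚ K / 2) ≤
      Nat.card ((S : Set (HeightOneSpectrum (𝓞 K))).unit K ⧸
        (powMonoidHom p : (S : Set (HeightOneSpectrum (𝓞 K))).unit K →* _).range) := by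
  change _ ≤ Nat.card ((S : Set (HeightOneSpectrum (𝓞 K))).unit K ⧸
        powRange ((S : Set (HeightOneSpectrum (𝓞 K))).unit K) p)
  rw [card_sunit_powQuot K S p hp]
  have h1 : Module.finrank ℚ K / 2 ≤ Units.rank K + 1 := by
    have h2 := InfinitePlace.card_add_two_mul_card_eq_rank K
    have h3 := InfinitePlace.card_eq_nrRealPlaces_add_nrComplexPlaces K
    have h4 : 0 < Fintype.card (InfinitePlace K) := Fintype.card_pos
    have h5 : Units.rank K = Fintype.card (InfinitePlace K) - 1 := rfl
    omega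
  calc p ^ (S.card + Module.finrank ℚ K / 2)
      ≤ p ^ (Units.rank K + S.card + 1) := by
        apply Nat.pow_le_pow_right (Nat.pos_of_ne_zero hp)
        omega
    _ = p ^ (Units.rank K + S.card) * p := by rw [pow_succ]
    _ ≤ p ^ (Units.rank K + S.card) *
          Nat.card (powMonoidHom p : torsion K →* torsion K).ker :=
        Nat.mul_le_mul_left _ (le_card_torsion_ker K p hp hζ)

end numberField

end Fermat.Agent.PT.X
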