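/-
Project PT — PT-X / X-E (helper56): the unit count.  For `E = ker(div_S)` (the `S`-units of a
number field `K ⊃ μ_p`): `[E : E ∩ Kˣᵖ] = [E : Eᵖ] ≥ p ^ (#{P | S} + r₁ + r₂)`, hence its square
is at least `p ^ (2 #{P | S} + [K : ℚ])`.
-/
import Fermat.Agent.PT.X.Plan
import Fermat.Agent.PT.X.SUnit
import Fermat.Agent.PT.G1.UnitRank
import Fermat.Agent.PT.G.Exact

set_option autoImplicit false

namespace Fermat.Agent.PT.X

open NumberField NumberField.Units IsDedekindDomain
open Fermat.Agent.PT.G Fermat.Agent.PT.G1 Fermat.Agent.PT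

section

variable (S : Finset Nat.Primes) (K : Type) [Field K] [NumberField K]

lemma ecount_finite :
    {P : HeightOneSpectrum (𝓞 K) | ((sProd S : ℕ) : 𝓞 K) ∈ P.asIdeal}.Finite := by
  have h : Finite (UrS K (sProd S)) := ur_finite (sProd_ne_zero S)
  exact Set.finite_coe_iff.mp h

/-- The finite set of primes of `K` over `S`. -/
noncomputable def ecountT : Finset (HeightOneSpectrum (𝓞 K)) := (ecount_finite S K).toFinset

lemma mem_ecountT (P : HeightOneSpectrum (𝓞 K)) :
    P ∈ ecountT S K ↔ ((sProd S : ℕ) : 𝓞 K) ∈ P.asIdeal := by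
  rw [ecountT, Set.Finite.mem_toFinset]
  rfl

lemma card_ecountT : (ecountT S K).card = (primesAbove (sProd S) K).ncard := by
  rw [ur_ncard_primesAbove (sProd_ne_zero S), ecountT,
    ← Set.ncard_eq_toFinset_card _ (ecount_finite S K), ← _root_.Nat.card_coe_set_eq]
  rfl

/-- `ker(div_S)` is the group of `S`-units. -/
lemma ecount_ker_eq :
    (LinearMap.ker (divHom S K)).toAddSubgroup =
      Subgroup.toAddSubgroup ((ecountT S K : Set (HeightOneSpectrum (𝓞 K))).unit K) := by
  ext x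
  show x ∈ LinearMap.ker (divHom S K) ↔
    Additive.toMul x ∈ (ecountT S K : Set (HeightOneSpectrum (𝓞 K))).unit K
  rw [LinearMap.mem_ker, mem_unit_iff_ordAt]
  constructor
  · intro h v hv
    have hv' : ((sProd S : ℕ) : 𝓞 K) ∉ v.asIdeal := fun hh =>
      hv (Finset.mem_coe.2 ((mem_ecountT S K v).2 hh))
    have h1 : divHom S K x (⟨v, hv'⟩ : OffS S K) = (0 : DivS S K) (⟨v, hv'⟩ : OffS S K) := by
      rw [h]
    exact h1
  · intro h
    ext P
    exact h P.1 (fun hh => P.2 ((mem_ecountT S K P.1).1 (Finset.mem_coe.1 hh)))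

lemma ecount_nMul_eq (p : ℕ) :
    nMul p (Additive Kˣ) = Subgroup.toAddSubgroup (powRange Kˣ p) := by
  ext x
  show x ∈ nMul p (Additive Kˣ) ↔ Additive.toMul x ∈ powRange Kˣ p
  rw [mem_nMul, mem_powRange]
  constructor
  · rintro ⟨b, rfl⟩
    exact ⟨Additive.toMul b, rfl⟩
  · rintro ⟨c, hc⟩
    exact ⟨Additive.ofMul c, Additive.toMul.injective hc⟩

variable {K} in
/-- A `p`-th root of an `S`-unit is an `S`-unit. -/
lemma ecount_root_mem (T : Set (HeightOneSpectrum (𝓞 K))) (p : ℕ) (hp : p ≠ 0) (c : Kˣ)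
    (hc : c ^ p ∈ T.unit K) : c ∈ T.unit K := by
  rw [mem_unit_iff_ordAt] at hc ⊢
  intro v hv
  have h := hc v hv
  rw [cse_ordAt_pow] at h
  rcases mul_eq_zero.1 h with h | h
  · exact absurd (by exact_mod_cast h) hp
  · exact h

lemma ecount_subgroupOf_eq (T : Set (HeightOneSpectrum (𝓞 K))) (p : ℕ) (hp : p ≠ 0) :
    (powRange Kˣ p).subgroupOf (T.unit K) = powRange (T.unit K) p := by
  ext x
  rw [Subgroup.mem_subgroupOf, mem_powRange, mem_powRange]
  constructor
  · rintro ⟨c, hc⟩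
    have hcm : c ∈ T.unit K := ecount_root_mem T p hp c (by rw [hc]; exact x.2)
    exact ⟨⟨c, hcm⟩, Subtype.ext hc⟩
  · rintro ⟨c, rfl⟩
    exact ⟨(c : Kˣ), rfl⟩

/-- The index `[E : E ∩ Kˣᵖ]` is the order of `E_S / E_Sᵖ`. -/
lemma ecount_relIndex_eq (p : ℕ) (hp : p ≠ 0) :
    (nMul p (Additive Kˣ)).relIndex (LinearMap.ker (divHom S K)).toAddSubgroup =
      Nat.card ((ecountT S K : Set (HeightOneSpectrum (𝓞 K))).unit K ⧸
        powRange ((ecountT S K : Set (HeightOneSpectrum (𝓞 K))).unit K) p) := by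
  rw [ecount_ker_eq, ecount_nMul_eq, Subgroup.relIndex_toAddSubgroup, Subgroup.relIndex,
    ecount_subgroupOf_eq _ _ p hp, Subgroup.index_eq_card]

lemma ecount_finrank_le : Module.finrank ℚ K ≤ 2 * (Units.rank K + 1) := by
  have h2 := InfinitePlace.card_add_two_mul_card_eq_rank K
  have h3 := InfinitePlace.card_eq_nrRealPlaces_add_nrComplexPlaces K
  have h4 : 0 < Fintype.card (InfinitePlace K) := Fintype.card_pos
  have h5 : Units.rank K = Fintype.card (InfinitePlace K) - 1 := rfl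
  omega

end

/-- **X-E.** -/
theorem stmtECount : StmtECount := by
  intro p _ _ S K _ _ ζ hζ
  have hp0 : p ≠ 0 := (Fact.out : p.Prime).ne_zero
  have h1 := ecount_relIndex_eq S K p hp0
  rw [card_sunit_powQuot K (ecountT S K) p hp0] at h1
  have hc := le_card_torsion_ker K p hp0 hζ
  have hc0 : Nat.card (powMonoidHom p : torsion K →* torsion K).ker ≠ 0 := by
    have := Nat.pos_of_ne_zero hp0
    omega
  rw [h1]
  refine ⟨mul_ne_zero (pow_ne_zero _ hp0) hc0, ?_⟩
  calc p ^ (2 * (primesAbove (sProd S) K).ncard + Module.finrank ℚ K)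
      ≤ p ^ (2 * (Units.rank K + (ecountT S K).card + 1)) := by
        apply Nat.pow_le_pow_right (Nat.pos_of_ne_zero hp0)
        have := ecount_finrank_le K
        rw [← card_ecountT]
        omega
    _ = (p ^ (Units.rank K + (ecountT S K).card) * p) ^ 2 := by
        rw [← pow_succ, ← pow_mul, mul_comm]
    _ ≤ (p ^ (Units.rank K + (ecountT S K).card) *
          Nat.card (powMonoidHom p : torsion K →* torsion K).ker) ^ 2 :=
        Nat.pow_le_pow_left (Nat.mul_le_mul_left _ hc) 2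

end Fermat.Agent.PT.X
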