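/-
Project PT — PT-X / X-FIN, part 1 (helper56): the Selmer groups `selV`, `selVloc` of a number
field are stable under automorphisms and finite modulo `p`-th powers.
-/
import Fermat.Agent.PT.X.Plan
import Fermat.Agent.PT.X.ECount

set_option autoImplicit false

namespace Fermat.Agent.PT.X

open NumberField IsDedekindDomain
open Fermat.Agent.PT.G Fermat.Agent.PT.G1 Fermat.Agent.PT

section

variable (p : ℕ) (S : Finset Nat.Primes) (K : Type) [Field K] [NumberField K]

/-- `V` is stable under `Aut(K)`. -/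
lemma xfin_selV_stable (σ : K ≃ₐ[ℚ] K) (a : Kˣ) (ha : a ∈ selV p S K) :
    Units.map ((σ : K ≃ₐ[ℚ] K) : K →* K) a ∈ selV p S K := by
  intro P
  obtain ⟨Q, rfl⟩ := (offEquiv S σ).surjective P
  have h := ordAt_primeMap σ Q.1 a
  have h2 : (offEquiv S σ Q).1 = primeMap σ Q.1 := rfl
  rw [h2, h]
  exact ha Q

/-- `V_loc` is stable under `Aut(K)`. -/
lemma xfin_selVloc_stable (σ : K ≃ₐ[ℚ] K) (a : Kˣ) (ha : a ∈ selVloc p S K) :
    Units.map ((σ : K ≃ₐ[ℚ] K) : K →* K) a ∈ selVloc p S K := by
  refine ⟨xfin_selV_stable p S K σ a ha.1, ?_⟩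
  obtain ⟨j, hj⟩ := ha.2
  refine ⟨jlHom S σ j, ?_⟩
  rw [jlDiag_equivariant, hj, map_pow]

/-- The divisor classes: `Div_S(K) → Cl(K)`, additively. -/
noncomputable def xfinClass : DivS S K →+ Additive (ClassGroup (𝓞 K)) :=
  MonoidHom.toAdditiveRight (cseClass S K)

lemma xfin_ker_le_range :
    (xfinClass S K).ker ≤ (divHom S K).toAddMonoidHom.range := by
  intro d hd
  have hker : Multiplicative.ofAdd d ∈ (cseClass S K).ker := by
    rw [MonoidHom.mem_ker]
    exact Additive.ofMul.injective (AddMonoidHom.mem_ker.1 hd)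
  obtain ⟨x, hx, -⟩ := exists_ordAt_eq_of_mem_ker (K := K) (fun P : OffS S K => P.1)
    Subtype.val_injective _ hker
  refine ⟨Additive.ofMul x, ?_⟩
  ext P
  exact hx P

/-- The principal divisors have finite index in `Div_S(K)`. -/
lemma xfin_range_divHom_index : (divHom S K).toAddMonoidHom.range.index ≠ 0 := by
  haveI : (xfinClass S K).ker.FiniteIndex := AddSubgroup.finiteIndex_ker _
  haveI := AddSubgroup.finiteIndex_of_le (xfin_ker_le_range S K)
  exact AddSubgroup.FiniteIndex.index_ne_zero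

lemma xfin_divS_torsionFree (hp : p ≠ 0) (d : DivS S K) (h : p • d = 0) : d = 0 := by
  rcases smul_eq_zero.1 h with h | h
  · exact absurd h hp
  · exact h

/-- `V` in the abstract form of Count.lean. -/
lemma xfin_kummerV_eq (hp : p ≠ 0) :
    kummerV p (divHom S K).toAddMonoidHom = Subgroup.toAddSubgroup (selV p S K) := by
  ext a
  show (divHom S K) a ∈ nMul p (DivS S K) ↔ Additive.toMul a ∈ selV p S K
  rw [mem_nMul]
  constructor
  · rintro ⟨d, hd⟩ P
    have h1 : (p • d) P = divHom S K a P := by rw [hd]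
    rw [divHom_apply] at h1
    rw [← h1]
    exact ⟨d P, by simp⟩
  · intro h
    refine ⟨(divHom S K a).mapRange (fun n => n / (p : ℤ)) (by simp), ?_⟩
    ext P
    have h1 : (p : ℤ) ∣ divHom S K a P := h P
    simp only [Finsupp.coe_smul, Pi.smul_apply, Finsupp.mapRange_apply, nsmul_eq_mul]
    exact Int.mul_ediv_cancel' h1

/-- **`V` is finite modulo `p`-th powers.** -/
theorem xfin_selV_relIndex (hp : p ≠ 0) :
    (powMonoidHom p : Kˣ →* Kˣ).range.relIndex (selV p S K) ≠ 0 := by
  have h1 := relIndex_kummerV (p := p) (dv := (divHom S K).toAddMonoidHom)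
    (xfin_divS_torsionFree p S K hp)
  have h2 : (nMul p (Additive Kˣ)).relIndex (divHom S K).toAddMonoidHom.ker ≠ 0 := by
    rw [← LinearMap.ker_toAddSubgroup, ecount_relIndex_eq S K p hp,
      card_sunit_powQuot K (ecountT S K) p hp]
    exact mul_ne_zero (pow_ne_zero _ hp) Nat.card_pos.ne'
  have h3 : (divHom S K).toAddMonoidHom.range.relIndex
      ((divHom S K).toAddMonoidHom.range.comap (nsmulAddMonoidHom p : DivS S K →+ DivS S K)) ≠
      0 := by
    intro h0
    have h4 := AddSubgroup.relIndex_dvd_index_of_normal (divHom S K).toAddMonoidHom.range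
      ((divHom S K).toAddMonoidHom.range.comap (nsmulAddMonoidHom p : DivS S K →+ DivS S K))
    rw [h0, zero_dvd_iff] at h4
    exact xfin_range_divHom_index S K h4
  have h5 : (nMul p (Additive Kˣ)).relIndex (kummerV p (divHom S K).toAddMonoidHom) ≠ 0 := by
    rw [h1]
    exact mul_ne_zero h2 h3
  rw [xfin_kummerV_eq p S K hp, ecount_nMul_eq, Subgroup.relIndex_toAddSubgroup] at h5
  exact h5

/-- **`V_loc` is finite modulo `p`-th powers.** -/
theorem xfin_selVloc_relIndex (hp : p ≠ 0) :
    (powMonoidHom p : Kˣ →* Kˣ).range.relIndex (selVloc p S K) ≠ 0 := fun h0 =>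
  xfin_selV_relIndex p S K hp (Subgroup.relIndex_eq_zero_of_le_right (selVloc_le p S K) h0)

end

end Fermat.Agent.PT.X
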