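/-
Project PT — PT-X / X-FIN (helper56): the existence theorem mod `p` in the shape consumed by PT-B
(`B.StmtExistCS`): above every tower field there are tower fields `L₁ ≤ L'` with
`N_{L'/L₁} C_S(L') ⊆ p · C_S(L₁)`.
-/
import Fermat.Agent.PT.X.SelFinite
import Fermat.Agent.PT.X.KumTowerExt
import Fermat.Agent.PT.G3.NormSub
import Fermat.Agent.PT.B.CycloField
import Fermat.Agent.PT.B.NormalClosure

set_option autoImplicit false

namespace Fermat.Agent.PT.X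

open NumberField IsDedekindDomain IntermediateField
open Fermat.Agent.PT.G Fermat.Agent.PT.G1 Fermat.Agent.PT Fermat.Agent.PT.B Fermat.Agent.PT.G3
open ExtCitation

/-- `K(W^{1/p}) ⊂ ℚ̄` as a subfield of `ℚ̄`. -/
noncomputable abbrev xfinKum (p : ℕ) (K : QbarField) (W : Subgroup (↥K)ˣ) : QbarField :=
  (kumField p W (AlgebraicClosure ℚ)).restrictScalars ℚ

/-- Above every tower field there is a tower field containing `μ_p`. -/
lemma xfin_exists_L1 (p : ℕ) [Fact p.Prime] (S : Finset Nat.Primes) (hpS : pPrime p ∈ S)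
    (L : QbarField) (hL : IsTowerField S L) :
    ∃ L₁ : QbarField, IsTowerField S L₁ ∧ L ≤ L₁ ∧ ∃ ζ : ↥L₁, IsPrimitiveRoot ζ p := by
  haveI : NeZero p := ⟨(Fact.out : p.Prime).ne_zero⟩
  obtain ⟨ζ, hζ⟩ := cycloField_exists_primitiveRoot p
  have hζm : ζ ∈ cycloField p := IntermediateField.subset_adjoin ℚ _ hζ.pow_eq_one
  refine ⟨L ⊔ cycloField p, isTowerField_sup hL (cycloField_isTowerField p S hpS), le_sup_left,
    ⟨ζ, (le_sup_right : cycloField p ≤ L ⊔ cycloField p) hζm⟩, ?_⟩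
  exact IsPrimitiveRoot.of_map_of_injective (f := (L ⊔ cycloField p).val) hζ
    Subtype.val_injective

/-- The norm `Σ_{τ ∈ Gal(M/F)} τ c` is `Gal(M/F)`-invariant. -/
lemma xfin_galNorm_inv (S : Finset Nat.Primes) (F M : Type) [Field F] [NumberField F] [Field M]
    [NumberField M] [Algebra F M] (c : CS S M) (σ : M ≃ₐ[ℚ] M)
    (hσ : ∀ x : F, σ (algebraMap F M x) = algebraMap F M x) :
    csEnd S σ (galNorm S F M c) = galNorm S F M c := by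
  classical
  letI : Fintype ↥(relAut F M) := Fintype.ofFinite _
  rw [nsub_galNorm_eq_sum, map_sum]
  refine Fintype.sum_equiv (Equiv.mulLeft (⟨σ, hσ⟩ : ↥(relAut F M))) _ _ (fun τ => ?_)
  have h := map_mul (csRho S M) σ (τ : M ≃ₐ[ℚ] M)
  exact (LinearMap.congr_fun h c).symm

/-- **X-FIN**: the existence theorem mod `p` in the tower. -/
theorem stmtExistCS_of (hTL : StmtExistTL) (hKT : StmtKummerTower) (hGA : B.StmtGA)
    (hRam : B.StmtRamRel) (hDesc : G.StmtCSDescent) (hKU : StmtKummerUnram) : B.StmtExistCS := by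
  intro p _ hp2 S hpS L hL
  have hp0 : p ≠ 0 := (Fact.out : p.Prime).ne_zero
  obtain ⟨L₁, hL₁, hLL₁, ζ, hζ⟩ := xfin_exists_L1 p S hpS L hL
  haveI hNF₁ : NumberField ↥L₁ := numberField_of_isTowerField hL₁
  have hq : ∃ q ∈ S, (q : ℕ) = p := ⟨pPrime p, hpS, rfl⟩
  have hV : IsTowerField S (xfinKum p L₁ (selV p S ↥L₁)) :=
    hKT p S hq L₁ hL₁ ζ hζ (selV p S ↥L₁) le_rfl
      (fun σ a ha => xfin_selV_stable p S ↥L₁ σ a ha) (xfin_selV_relIndex p S ↥L₁ hp0)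
  have hVloc : IsTowerField S (xfinKum p L₁ (selVloc p S ↥L₁)) :=
    hKT p S hq L₁ hL₁ ζ hζ (selVloc p S ↥L₁) (selVloc_le p S ↥L₁)
      (fun σ a ha => xfin_selVloc_stable p S ↥L₁ σ a ha) (xfin_selVloc_relIndex p S ↥L₁ hp0)
  refine ⟨L₁, xfinKum p L₁ (selV p S ↥L₁), hL₁, hV, hLL₁, kte_le p L₁ _, ?_⟩
  haveI hNF' : NumberField ↥(xfinKum p L₁ (selV p S ↥L₁)) := numberField_of_isTowerField hV
  haveI hNF'' : NumberField ↥(xfinKum p L₁ (selVloc p S ↥L₁)) :=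
    numberField_of_isTowerField hVloc
  letI alg' : Algebra ↥L₁ ↥(xfinKum p L₁ (selV p S ↥L₁)) :=
    algebraOfLe (kte_le p L₁ (selV p S ↥L₁))
  letI alg'' : Algebra ↥L₁ ↥(xfinKum p L₁ (selVloc p S ↥L₁)) :=
    algebraOfLe (kte_le p L₁ (selVloc p S ↥L₁))
  have hK' : IsKummerExt p (selV p S ↥L₁) ↥(xfinKum p L₁ (selV p S ↥L₁)) :=
    kte_isKummerExt p L₁ (selV p S ↥L₁) hp0
  have hK'' : IsKummerExt p (selVloc p S ↥L₁) ↥(xfinKum p L₁ (selVloc p S ↥L₁)) :=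
    kte_isKummerExt p L₁ (selVloc p S ↥L₁) hp0
  haveI hG' : IsGalois ↥L₁ ↥(xfinKum p L₁ (selV p S ↥L₁)) := hK'.isGalois hp0 hζ
  haveI hG'' : IsGalois ↥L₁ ↥(xfinKum p L₁ (selVloc p S ↥L₁)) := hK''.isGalois hp0 hζ
  haveI hGQ' : IsGalois ℚ ↥(xfinKum p L₁ (selV p S ↥L₁)) := hV.2
  haveI hGQ'' : IsGalois ℚ ↥(xfinKum p L₁ (selVloc p S ↥L₁)) := hVloc.2
  have hu' := hGA p hp2 S hpS ↥(xfinKum p L₁ (selV p S ↥L₁)) (hRam S _ hV.1)
  have hu'' := hGA p hp2 S hpS ↥(xfinKum p L₁ (selVloc p S ↥L₁)) (hRam S _ hVloc.1)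
  have hmain := hTL p hp2 S hq ↥L₁ ↥(xfinKum p L₁ (selV p S ↥L₁))
    ↥(xfinKum p L₁ (selVloc p S ↥L₁)) ζ hζ hK' hK'' hu' hu''
  have hun : UnramOffRel S ↥L₁ ↥(xfinKum p L₁ (selV p S ↥L₁)) :=
    hKU p S hq ↥L₁ ↥(xfinKum p L₁ (selV p S ↥L₁)) ζ hζ (selV p S ↥L₁) le_rfl hK'
  intro c
  obtain ⟨c₀, hc₀⟩ := hDesc S ↥L₁ ↥(xfinKum p L₁ (selV p S ↥L₁)) ⟨pPrime p, hpS⟩ hun
    (galNorm S ↥L₁ ↥(xfinKum p L₁ (selV p S ↥L₁)) c)
    (fun σ hσ => xfin_galNorm_inv S ↥L₁ ↥(xfinKum p L₁ (selV p S ↥L₁)) c σ hσ)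
  obtain ⟨c₁, hc₁⟩ := hmain c₀ ⟨c, hc₀⟩
  exact ⟨c₁, by rw [← hc₁, hc₀]⟩

end Fermat.Agent.PT.X
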