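/-
PT-X, piece X-ASM (helper69), part 1: the dictionary between the type-level model (`CS S K`,
`divHom`, `jlDiag`, `selV`, `selVloc`) and the abstract count of PT/X/Count.lean, the norm
subgroup, the two consequences (T1), (T2) of Tate-Nakayama for `C_S(L)`, and the finiteness of the
Selmer groups modulo `p`-th powers.
-/
import Fermat.Agent.PT.X.Plan
import Fermat.Agent.PT.X.ECount
import Fermat.Agent.PT.A.Final
import Fermat.Agent.PT.G.Exact

set_option autoImplicit false
set_option linter.style.haveILetI false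
set_option linter.unusedSectionVars false

namespace Fermat.Agent.PT.X

open NumberField IsDedekindDomain Fermat.Agent.PT.G Fermat.Agent.PT.G1 Fermat.Agent.PT
open CategoryTheory groupCohomology Fermat.Agent.PT.G3 AddSubgroup

namespace ExistTL

section maps

variable (S : Finset Nat.Primes) (K : Type) [Field K] [NumberField K]

/-- `div : Kˣ → Div_S(K)`, additive. -/
noncomputable def xDv : Additive Kˣ →+ DivS S K := (divHom S K).toAddMonoidHom

/-- `diag : Kˣ → J_K`, additive. -/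
noncomputable def xLc : Additive Kˣ →+ Additive (JL S K) := MonoidHom.toAdditive (jlDiag S K)

/-- `J_K × Div_S(K) → C_S(K)`, additive. -/
noncomputable def xPi : Additive (JL S K) × DivS S K →+ CS S K := (csMk S K).toAddMonoidHom

lemma xPi_surjective : Function.Surjective (xPi S K) := Submodule.mkQ_surjective _

lemma xPi_ker : (xPi S K).ker = ((xLc S K).prod (xDv S K)).range := by
  ext y
  rw [AddMonoidHom.mem_ker]
  show csMk S K y = 0 ↔ _
  rw [Submodule.mkQ_apply, Submodule.Quotient.mk_eq_zero]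
  constructor
  · rintro ⟨x, rfl⟩
    exact ⟨x, rfl⟩
  · rintro ⟨x, rfl⟩
    exact ⟨x, rfl⟩

lemma xD_torsionFree (p : ℕ) (hp : p ≠ 0) (d : DivS S K) (h : p • d = 0) : d = 0 := by
  ext P
  have := DFunLike.congr_fun h P
  simp only [Finsupp.smul_apply, Finsupp.zero_apply, nsmul_eq_mul] at this
  rcases mul_eq_zero.1 this with h1 | h1
  · exact absurd (by exact_mod_cast h1) hp
  · simpa using h1

/-- the class group is finite: `div(Kˣ)` has finite index in `Div_S(K)`. -/
lemma xDv_range_index_ne_zero : (xDv S K).range.index ≠ 0 := by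
  classical
  let f : DivS S K →+ Additive (ClassGroup (𝓞 K)) := MonoidHom.toAdditiveRight (cseClass S K)
  have hle : f.ker ≤ (xDv S K).range := by
    intro d hd
    have hker : Multiplicative.ofAdd d ∈ (cseClass S K).ker := by
      rw [MonoidHom.mem_ker]
      exact congrArg Additive.toMul hd
    obtain ⟨x, hx, -⟩ := exists_ordAt_eq_of_mem_ker (K := K) (fun P : OffS S K => P.1)
      Subtype.val_injective _ hker
    refine ⟨Additive.ofMul x, ?_⟩
    ext P
    show divHom S K (Additive.ofMul x) P = d P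
    rw [divHom_apply]
    exact hx P
  have h1 : f.ker.index ≠ 0 := by
    rw [AddSubgroup.index_ker]
    exact Nat.card_pos.ne'
  exact fun h0 => h1 (Nat.eq_zero_of_zero_dvd (h0 ▸ AddSubgroup.index_dvd_of_le hle))

lemma nMul_units_eq (p : ℕ) :
    nMul p (Additive Kˣ) = Subgroup.toAddSubgroup (powMonoidHom p : Kˣ →* Kˣ).range := by
  ext a
  rw [mem_nMul]
  constructor
  · rintro ⟨b, rfl⟩
    exact ⟨Additive.toMul b, rfl⟩
  · rintro ⟨b, hb⟩
    exact ⟨Additive.ofMul b, hb⟩

lemma kummerV_eq (p : ℕ) (hp : p ≠ 0) :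
    kummerV p (xDv S K) = Subgroup.toAddSubgroup (selV p S K) := by
  ext a
  rw [mem_kummerV, mem_nMul]
  constructor
  · rintro ⟨d, hd⟩ P
    have := DFunLike.congr_fun hd P
    simp only [Finsupp.smul_apply, nsmul_eq_mul] at this
    refine ⟨d P, ?_⟩
    show ordAt P.1 (Additive.toMul a) = _
    have h2 : xDv S K a P = ordAt P.1 (Additive.toMul a) := rfl
    rw [← h2, ← this]
  · intro h
    have hp' : (p : ℤ) ≠ 0 := by exact_mod_cast hp
    have hsupp : (Function.support fun P : OffS S K => ordAt P.1 (Additive.toMul a) / (p : ℤ)).Finite := by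
      refine (ordAt_finite_support S K (Additive.toMul a)).subset ?_
      intro P hP
      simp only [Function.mem_support, ne_eq] at hP ⊢
      intro h0
      rw [h0] at hP
      simp at hP
    refine ⟨Finsupp.ofSupportFinite _ hsupp, ?_⟩
    ext P
    simp only [Finsupp.smul_apply, nsmul_eq_mul]
    show (p : ℤ) * (ordAt P.1 (Additive.toMul a) / (p : ℤ)) = ordAt P.1 (Additive.toMul a)
    exact Int.mul_ediv_cancel' (h P)

lemma kummerVloc_eq (p : ℕ) (hp : p ≠ 0) :
    kummerVloc p (xDv S K) (xLc S K) = Subgroup.toAddSubgroup (selVloc p S K) := by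
  ext a
  rw [mem_kummerVloc]
  have h1 : xDv S K a ∈ nMul p (DivS S K) ↔ Additive.toMul a ∈ selV p S K := by
    have := kummerV_eq S K p hp
    have h2 : a ∈ kummerV p (xDv S K) ↔ a ∈ Subgroup.toAddSubgroup (selV p S K) := by rw [this]
    exact h2
  rw [h1, mem_nMul]
  constructor
  · rintro ⟨hv, j, hj⟩
    exact ⟨hv, Additive.toMul j, by
      have := congrArg Additive.toMul hj
      exact this.symm⟩
  · rintro ⟨hv, j, hj⟩
    exact ⟨hv, Additive.ofMul j, congrArg Additive.ofMul hj.symm⟩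

end maps

section norm

variable (S : Finset Nat.Primes) (K L : Type) [Field K] [NumberField K] [Field L] [NumberField L]
  [Algebra K L]

noncomputable instance fintypeRelAut : Fintype ↥(relAut K L) := Fintype.ofFinite _

/-- `N_{L/K}` on `C_S(L)` as an additive map. -/
noncomputable def xNorm : CS S L →+ CS S L :=
  ∑ σ : ↥(relAut K L), (csEnd S (σ : L ≃ₐ[ℚ] L)).toAddMonoidHom

lemma xNorm_apply (c : CS S L) :
    xNorm S K L c = ∑ σ : ↥(relAut K L), csEnd S (σ : L ≃ₐ[ℚ] L) c := by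
  simp [xNorm]

lemma galNorm_eq_xNorm (c : CS S L) : galNorm S K L c = xNorm S K L c := by
  rw [xNorm_apply, galNorm, finsum_eq_sum_of_fintype]

/-- the invariants of `Gal(L/K)` in `C_S(L)` -/
def xInv : AddSubgroup (CS S L) where
  carrier := {c | ∀ σ ∈ relAut K L, csEnd S σ c = c}
  add_mem' := fun {a b} ha hb σ hσ => by rw [map_add, ha σ hσ, hb σ hσ]
  zero_mem' := fun σ _ => map_zero _
  neg_mem' := fun {a} ha σ hσ => by rw [map_neg, ha σ hσ]

/-- the norm subgroup of `C_S(K)` -/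
noncomputable def xN : AddSubgroup (CS S K) :=
  (xNorm S K L).range.comap (csMap S K L).toAddMonoidHom

lemma mem_xN_iff (c : CS S K) : c ∈ xN S K L ↔ c ∈ NormSub S K L := by
  constructor
  · rintro ⟨d, hd⟩
    exact ⟨d, by rw [galNorm_eq_xNorm]; exact hd.symm⟩
  · rintro ⟨d, hd⟩
    exact ⟨d, by rw [← galNorm_eq_xNorm]; exact hd.symm⟩

lemma csMap_mem_xInv (c : CS S K) : csMap S K L c ∈ xInv S K L :=
  fun _ hσ => csEnd_csMap_of_fixes S hσ c

lemma range_csMap_eq_xInv [IsGalois K L] (hDesc : StmtCSDescent) (hS : S.Nonempty)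
    (hun : UnramOffRel S K L) :
    (csMap S K L).toAddMonoidHom.range = xInv S K L := by
  apply le_antisymm
  · rintro _ ⟨c, rfl⟩
    exact csMap_mem_xInv S K L c
  · intro c hc
    obtain ⟨c₀, hc₀⟩ := hDesc S K L hS hun c hc
    exact ⟨c₀, hc₀⟩

lemma xN_index [IsGalois K L] (hDesc : StmtCSDescent) (hS : S.Nonempty)
    (hun : UnramOffRel S K L) :
    (xN S K L).index = (xNorm S K L).range.relIndex (xInv S K L) := by
  rw [xN, AddSubgroup.index_comap, range_csMap_eq_xInv S K L hDesc hS hun]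

end norm

section tate

variable (p : ℕ) [Fact p.Prime] (S : Finset Nat.Primes) (K L : Type) [Field K] [NumberField K]
  [Field L] [NumberField L] [Algebra K L]

/-- `Gal(L/K) ≃ relAut K L`. -/
noncomputable def relAutEquiv : (L ≃ₐ[K] L) ≃* ↥(relAut K L) where
  toFun τ := ⟨galToAut τ, galToAut_fixes τ⟩
  invFun σ := autToGal σ.1 σ.2
  left_inv τ := by ext x; rfl
  right_inv σ := Subtype.ext (galToAut_autToGal σ.1 σ.2)
  map_mul' τ τ' := rfl

lemma relAut_pow (hexp : ∀ τ : L ≃ₐ[K] L, τ ^ p = 1) (σ : ↥(relAut K L)) : σ ^ p = 1 := by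
  obtain ⟨τ, rfl⟩ := (relAutEquiv K L).surjective σ
  rw [← map_pow, hexp, map_one]

lemma relAut_comm (hcomm : ∀ σ τ : L ≃ₐ[K] L, σ * τ = τ * σ) (σ τ : ↥(relAut K L)) :
    σ * τ = τ * σ := by
  obtain ⟨σ, rfl⟩ := (relAutEquiv K L).surjective σ
  obtain ⟨τ, rfl⟩ := (relAutEquiv K L).surjective τ
  rw [← map_mul, hcomm, map_mul]

lemma card_relAut [IsGalois K L] : Nat.card ↥(relAut K L) = Module.finrank K L := by
  rw [← Nat.card_congr (relAutEquiv K L).toEquiv, IsGalois.card_aut_eq_finrank]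

lemma isFundClass_res (hexp : ∀ τ : L ≃ₐ[K] L, τ ^ p = 1) (u : H2 (csRep S L))
    (hu : IsPFundClass p (csRep S L) u) :
    IsFundClass (Rep.res (relAut K L).subtype (csRep S L))
      ((resSub (csRep S L) (relAut K L) 2).hom u) := by
  have hpH : IsPGroup p ↥(relAut K L) := fun σ => ⟨1, by simpa using relAut_pow p K L hexp σ⟩
  exact ⟨hu.h1 _ hpH, hu.h2_card _ hpH, hu.h2_gen _ hpH⟩

/-- (T1) for `L / K`: `p • C_S(L)^{Gal} ⊂ N C_S(L)`. -/
lemma nsmul_mem_range_xNorm (hexp : ∀ τ : L ≃ₐ[K] L, τ ^ p = 1) (u : H2 (csRep S L))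
    (hu : IsPFundClass p (csRep S L) u) (x : CS S L) (hx : x ∈ xInv S K L) :
    p • x ∈ (xNorm S K L).range := by
  obtain ⟨a, ha⟩ := tateExp stmtTNp p ↥(relAut K L) (relAut_pow p K L hexp) _ _
    (isFundClass_res p S K L hexp u hu) x (fun g => hx g.1 g.2)
  have ha' : p • x = ∑ σ : ↥(relAut K L), csEnd S (σ : L ≃ₐ[ℚ] L) (a : CS S L) := ha
  exact ⟨a, (xNorm_apply S K L a).trans ha'.symm⟩

/-- (T2) for `L / K`: `[L : K] ≤ [C_S(L)^{Gal} : N C_S(L)]`. -/
lemma finrank_le_relIndex [IsGalois K L] (hexp : ∀ τ : L ≃ₐ[K] L, τ ^ p = 1)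
    (hcomm : ∀ σ τ : L ≃ₐ[K] L, σ * τ = τ * σ) (u : H2 (csRep S L))
    (hu : IsPFundClass p (csRep S L) u)
    (hfin : (xNorm S K L).range.relIndex (xInv S K L) ≠ 0) :
    Module.finrank K L ≤ (xNorm S K L).range.relIndex (xInv S K L) := by
  rw [← card_relAut K L]
  refine tateIdx stmtTNp stmtNormZero p ↥(relAut K L) (relAut_comm K L hcomm)
    (relAut_pow p K L hexp) _ _ (isFundClass_res p S K L hexp u hu)
    (xInv S K L) (xNorm S K L).range (fun c => ?_) (fun c => ?_) hfin
  · constructor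
    · intro h g
      exact h g.1 g.2
    · intro h σ hσ
      exact h ⟨σ, hσ⟩
  · constructor
    · rintro ⟨a, ha⟩
      have ha' : ∑ σ : ↥(relAut K L), csEnd S (σ : L ≃ₐ[ℚ] L) (a : CS S L) = c :=
        (xNorm_apply S K L a).symm.trans ha
      exact ⟨a, ha'.symm⟩
    · rintro ⟨a, ha⟩
      have ha' : c = ∑ σ : ↥(relAut K L), csEnd S (σ : L ≃ₐ[ℚ] L) (a : CS S L) := ha
      exact ⟨a, (xNorm_apply S K L a).trans ha'.symm⟩

end tate

section selfin

variable (p : ℕ) [Fact p.Prime] (S : Finset Nat.Primes) (K : Type) [Field K] [NumberField K]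

lemma xDv_ker_eq : (xDv S K).ker = (LinearMap.ker (divHom S K)).toAddSubgroup := by
  ext a
  exact Iff.rfl

/-- `Cl_S(K)[p]` is finite. -/
lemma relIndex_comap_range_ne_zero :
    (xDv S K).range.relIndex
      ((xDv S K).range.comap (nsmulAddMonoidHom p : DivS S K →+ DivS S K)) ≠ 0 := by
  intro h0
  have h := AddSubgroup.relIndex_dvd_index_of_normal (H := (xDv S K).range)
    (K := (xDv S K).range.comap (nsmulAddMonoidHom p : DivS S K →+ DivS S K))
  rw [h0] at h
  exact xDv_range_index_ne_zero S K (Nat.eq_zero_of_zero_dvd h)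

/-- `E / E ∩ Kˣᵖ` is finite (`E` the `S`-units), from X-E. -/
lemma relIndex_ker_ne_zero (hp2 : p ≠ 2) (ζ : K) (hζ : IsPrimitiveRoot ζ p) :
    (nMul p (Additive Kˣ)).relIndex (xDv S K).ker ≠ 0 := by
  rw [xDv_ker_eq]
  exact (stmtECount p hp2 S K ζ hζ).1

lemma kummerV_relIndex_ne_zero (hp2 : p ≠ 2) (ζ : K) (hζ : IsPrimitiveRoot ζ p) :
    (nMul p (Additive Kˣ)).relIndex (kummerV p (xDv S K)) ≠ 0 := by
  rw [relIndex_kummerV p (xDv S K) (xD_torsionFree S K p (Fact.out : p.Prime).ne_zero)]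
  exact mul_ne_zero (relIndex_ker_ne_zero p S K hp2 ζ hζ) (relIndex_comap_range_ne_zero p S K)

/-- The Selmer group `V = selV p S K` is finite modulo `p`-th powers (`p` odd, `μ_p ⊂ K`). -/
theorem selV_relIndex_ne_zero (hp2 : p ≠ 2) (ζ : K) (hζ : IsPrimitiveRoot ζ p) :
    (powMonoidHom p : Kˣ →* Kˣ).range.relIndex (selV p S K) ≠ 0 := by
  have h := kummerV_relIndex_ne_zero p S K hp2 ζ hζ
  rwa [kummerV_eq S K p (Fact.out : p.Prime).ne_zero, nMul_units_eq,
    Subgroup.relIndex_toAddSubgroup] at h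

/-- Every subgroup of the Selmer group is finite modulo `p`-th powers. -/
theorem relIndex_ne_zero_of_le_selV (hp2 : p ≠ 2) (ζ : K) (hζ : IsPrimitiveRoot ζ p)
    (W : Subgroup Kˣ) (hW : W ≤ selV p S K) :
    (powMonoidHom p : Kˣ →* Kˣ).range.relIndex W ≠ 0 := by
  intro h0
  exact selV_relIndex_ne_zero p S K hp2 ζ hζ (Subgroup.relIndex_eq_zero_of_le_right hW h0)

theorem selVloc_relIndex_ne_zero (hp2 : p ≠ 2) (ζ : K) (hζ : IsPrimitiveRoot ζ p) :
    (powMonoidHom p : Kˣ →* Kˣ).range.relIndex (selVloc p S K) ≠ 0 :=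
  relIndex_ne_zero_of_le_selV p S K hp2 ζ hζ _ (selVloc_le p S K)

end selfin

end ExistTL

end Fermat.Agent.PT.X
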