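/-
PT-X, piece X-ASM (helper69), part 2: the existence theorem mod `p`, type level (`StmtExistTL`),
from the pieces X-J, X-E, X-SPL, X-UNR, C-descent, and the landed results `existence_count`
(Count.lean), `tateExp`/`tateIdx` (Tate.lean), Kummer theory (Kummer.lean), CS-exact
(PT/G/Exact.lean), Tate–Nakayama (PT/A/Final.lean).
-/
import Fermat.Agent.PT.X.ExistTLBase

set_option autoImplicit false
set_option linter.style.haveILetI false
set_option linter.unusedSectionVars false

namespace Fermat.Agent.PT.X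

open NumberField IsDedekindDomain Fermat.Agent.PT.G Fermat.Agent.PT.G1 Fermat.Agent.PT
open CategoryTheory groupCohomology Fermat.Agent.PT.G3 AddSubgroup

namespace ExistTL

section abstract

variable {Kx J D C : Type*} [AddCommGroup Kx] [AddCommGroup J] [AddCommGroup D] [AddCommGroup C]
variable {p : ℕ} {dv : Kx →+ D} {lc : Kx →+ J} {π : J × D →+ C}

/-- `C / pC` is finite. -/
theorem index_nMul_ne_zero_of_data
    (hD : ∀ d : D, p • d = 0 → d = 0)
    (hπ : Function.Surjective π) (hker : π.ker = (lc.prod dv).range)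
    (hCl : dv.range.index ≠ 0) (hJ : (nMul p J).index ≠ 0)
    (hE : (nMul p Kx).relIndex dv.ker ≠ 0) :
    (nMul p C).index ≠ 0 := by
  have huw : (nMul p Kx).relIndex (kummerVloc p dv lc) *
      (kummerVloc p dv lc).relIndex (kummerV p dv) = (nMul p Kx).relIndex (kummerV p dv) :=
    relIndex_mul_relIndex _ _ _ (nMul_le_kummerVloc p dv lc) (kummerVloc_le p dv lc)
  have hI1 := index_bigA_mul p dv lc
  have hc' : (nMul p D ⊔ dv.range).index =
      dv.range.relIndex (dv.range.comap (nsmulAddMonoidHom p : D →+ D)) :=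
    index_nMul_sup_eq dv.range hCl
  have hI2 := relIndex_kummerV p dv hD
  rw [← hc'] at hI2
  have hc0 : (nMul p D ⊔ dv.range).index ≠ 0 := by
    intro h0
    have := index_dvd_of_le (le_sup_right : dv.range ≤ nMul p D ⊔ dv.range)
    rw [h0, zero_dvd_iff] at this
    exact hCl this
  have hv0 : (nMul p Kx).relIndex (kummerV p dv) ≠ 0 := by
    rw [hI2]; exact mul_ne_zero hE hc0
  have hw0 : (kummerVloc p dv lc).relIndex (kummerV p dv) ≠ 0 := by
    intro h0; rw [h0, mul_zero] at huw; exact hv0 huw.symm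
  have ha0 : (bigA p dv lc).index ≠ 0 := by
    intro h0
    rw [h0, zero_mul] at hI1
    exact (mul_ne_zero hc0 hJ) hI1.symm
  have hcomap : (nMul p C).comap π = bigA p dv lc := by
    rw [← map_nMul_of_surjective π hπ, comap_map_eq, hker, bigA, sup_comm]
  rw [← index_comap_of_surjective _ hπ, hcomap]
  exact ha0

end abstract

section main

variable (p : ℕ) [Fact p.Prime] (S : Finset Nat.Primes) (K L : Type) [Field K] [NumberField K]
  [Field L] [NumberField L] [Algebra K L]

/-- `p • C_S(K) ⊂ N_{L/K}`-subgroup, from (T1). -/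
lemma nMul_le_xN (hexp : ∀ τ : L ≃ₐ[K] L, τ ^ p = 1) (u : H2 (csRep S L))
    (hu : IsPFundClass p (csRep S L) u) : nMul p (CS S K) ≤ xN S K L := by
  intro c hc
  obtain ⟨c₁, rfl⟩ := mem_nMul.1 hc
  show (csMap S K L).toAddMonoidHom (p • c₁) ∈ (xNorm S K L).range
  rw [map_nsmul]
  exact nsmul_mem_range_xNorm p S K L hexp u hu _ (csMap_mem_xInv S K L c₁)

lemma csEnd_csOfJ (σ : L ≃ₐ[ℚ] L) (j : JL S L) :
    csEnd S σ (csOfJ S L (Additive.ofMul j)) = csOfJ S L (Additive.ofMul (jlHom S σ j)) := by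
  rw [csOfJ_apply, csEnd_mk, csOfJ_apply]
  congr 1

/-- idèles of `K` which are norms from `J_L` give norms in `C_S`. -/
lemma xPi_inl_mem_xN [Fintype (L ≃ₐ[K] L)] (j : Additive (JL S K))
    (h : ∃ j' : JL S L, jlMap S K L (Additive.toMul j) =
      ∏ σ : L ≃ₐ[K] L, jlHom S (galToAut σ) j') :
    xPi S K (j, 0) ∈ xN S K L := by
  obtain ⟨j', hj'⟩ := h
  refine ⟨csOfJ S L (Additive.ofMul j'), ?_⟩
  show xNorm S K L (csOfJ S L (Additive.ofMul j')) = csMap S K L (csOfJ S K j)
  rw [csMap_csOfJ, xNorm_apply]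
  simp only [csEnd_csOfJ]
  rw [← map_sum]
  congr 1
  show _ = Additive.ofMul (jlMap S K L (Additive.toMul j))
  rw [hj', ofMul_prod]
  exact (Fintype.sum_equiv (relAutEquiv K L).toEquiv _ _ (fun τ => rfl)).symm

end main

/-- **X-ASM**: the existence theorem mod `p`, type level, from the pieces. -/
theorem stmtExistTL_of (hJ : StmtJCount) (hSpl : StmtSplitIdele) (hUnr : StmtKummerUnram)
    (hDesc : StmtCSDescent) : StmtExistTL := by
  intro p _ hp2 S hpS K L L' _ _ _ _ _ _ _ _ _ _ ζ hζ hL hL' hu hu' c hc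
  obtain ⟨u, hu⟩ := hu
  obtain ⟨u', hu'⟩ := hu'
  have hp : p.Prime := Fact.out
  have hp0 : p ≠ 0 := hp.ne_zero
  have hS : S.Nonempty := by
    obtain ⟨q, hq, -⟩ := hpS
    exact ⟨q, hq⟩
  -- the data of the abstract count
  have hD := xD_torsionFree S K p hp0
  have hπ := xPi_surjective S K
  have hker := xPi_ker S K
  have hCl := xDv_range_index_ne_zero S K
  obtain ⟨hJ0, hJle⟩ := hJ p S hpS K ζ hζ
  obtain ⟨-, hEle⟩ := stmtECount p hp2 S K ζ hζ
  have hE0 : (nMul p (Additive Kˣ)).relIndex (xDv S K).ker ≠ 0 :=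
    relIndex_ker_ne_zero p S K hp2 ζ hζ
  have hcount : (nMul p (Additive (JL S K))).index ≤
      ((nMul p (Additive Kˣ)).relIndex (xDv S K).ker) ^ 2 := by
    rw [xDv_ker_eq]
    exact hJle.trans hEle
  -- Kummer theory
  have hexp := hL.gal_pow_eq_one hp0 hζ
  have hcomm := hL.gal_mul_comm hp0 hζ
  have hexp' := hL'.gal_pow_eq_one hp0 hζ
  have hcomm' := hL'.gal_mul_comm hp0 hζ
  have hun := hUnr p S hpS K L ζ hζ (selV p S K) le_rfl hL
  have hun' := hUnr p S hpS K L' ζ hζ (selVloc p S K) (selVloc_le p S K) hL'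
  -- the norm subgroups
  have hN : nMul p (CS S K) ≤ xN S K L := nMul_le_xN p S K L hexp u hu
  have hN' : nMul p (CS S K) ≤ xN S K L' := nMul_le_xN p S K L' hexp' u' hu'
  have hJN' : ∀ j : Additive (JL S K), xPi S K (j, 0) ∈ xN S K L' := fun j =>
    xPi_inl_mem_xN S K L' j (hSpl p S K L' ζ hζ (selVloc p S K) le_rfl hL' (Additive.toMul j))
  have hC0 : (nMul p (CS S K)).index ≠ 0 :=
    index_nMul_ne_zero_of_data hD hπ hker hCl hJ0 hE0
  have hN0 : (xN S K L).index ≠ 0 := by
    intro h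
    have := index_dvd_of_le hN
    rw [h, zero_dvd_iff] at this
    exact hC0 this
  have hN'0 : (xN S K L').index ≠ 0 := by
    intro h
    have := index_dvd_of_le hN'
    rw [h, zero_dvd_iff] at this
    exact hC0 this
  have hNi : (nMul p (Additive Kˣ)).relIndex (kummerV p (xDv S K)) ≤ (xN S K L).index := by
    rw [xN_index S K L hDesc hS hun] at hN0 ⊢
    rw [kummerV_eq S K p hp0, nMul_units_eq, Subgroup.relIndex_toAddSubgroup,
      ← hL.finrank_eq hp hζ (selV_relIndex_ne_zero p S K hp2 ζ hζ)]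
    exact finrank_le_relIndex p S K L hexp hcomm u hu hN0
  have hN'i : (nMul p (Additive Kˣ)).relIndex (kummerVloc p (xDv S K) (xLc S K)) ≤
      (xN S K L').index := by
    rw [xN_index S K L' hDesc hS hun'] at hN'0 ⊢
    rw [kummerVloc_eq S K p hp0, nMul_units_eq, Subgroup.relIndex_toAddSubgroup,
      ← hL'.finrank_eq hp hζ (selVloc_relIndex_ne_zero p S K hp2 ζ hζ)]
    exact finrank_le_relIndex p S K L' hexp' hcomm' u' hu' hN'0
  have hfin := existence_count hD hπ hker hCl hJ0 hE0 hcount (xN S K L) (xN S K L') hN hN' hJN'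
    hNi hN'i
  have hc' : c ∈ xN S K L := (mem_xN_iff S K L c).2 hc
  rw [hfin] at hc'
  obtain ⟨c₁, hc₁⟩ := mem_nMul.1 hc'
  exact ⟨c₁, hc₁.symm⟩

end ExistTL

end Fermat.Agent.PT.X
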