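/-
PT-X piece X-J (helper74): the semilocal count
`[J_K : p J_K] ≤ p ^ (2 #{P | S} + [K : ℚ])` for `μ_p ⊂ K`, `p ∈ S`.

`J_K = ∏_{q ∈ S} (ℚ_q ⊗ K)ˣ`, `(ℚ_q ⊗ K)ˣ ≅ ∏_𝔪 (A/𝔪)ˣ` (`G1.tensAddEquiv`), the local count
`[Fˣ : Fˣᵖ] ≤ p ^ (2 + [F : ℚ_q]·[q = p])` (`L.stmtPowCard`), `Σ_𝔪 [A/𝔪 : ℚ_q] = [K : ℚ]`,
`#MaxSpec (ℚ_q ⊗ K) = #{P | q}` (`G1.stmtMaxSpecCount`), `Σ_q #{P | q} = #{P | S}`
(`G1.stmtPrimeSplit`).
-/
import Fermat.Agent.PT.X.Plan
import Fermat.Agent.PT.X.JCountAux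
import Fermat.Agent.PT.G1.MaxSpecCount
import Fermat.Agent.PT.G1.PrimeSplit
import Fermat.Agent.PT.G1.JMain
import Fermat.Agent.PT.L.PowCard

set_option autoImplicit false

namespace Fermat.Agent.PT.X

open NumberField IsDedekindDomain Fermat.Agent.PT.G Fermat.Agent.PT.G1 Fermat.Agent.PT
open TensorProduct

section local_

variable (q : ℕ) [Fact q.Prime] (p : ℕ) [Fact p.Prime] (K : Type) [Field K] [NumberField K]

/-- the local count at a maximal ideal of `ℚ_q ⊗ K` -/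
theorem jc_local (ζ : K) (hζ : IsPrimitiveRoot ζ p) (t : MaximalSpectrum (semiAlg q K)) :
    (nMul p (Additive (semiAlg q K ⧸ t.asIdeal)ˣ)).index ≠ 0 ∧
    (nMul p (Additive (semiAlg q K ⧸ t.asIdeal)ˣ)).index ≤
      p ^ (2 + if q = p then Module.finrank ℚ_[q] (semiAlg q K ⧸ t.asIdeal) else 0) := by
  have := t.isMaximal
  let _ : Field (semiAlg q K ⧸ t.asIdeal) := Ideal.Quotient.field _
  let ι : K →+* (semiAlg q K ⧸ t.asIdeal) :=
    (Ideal.Quotient.mk t.asIdeal).comp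
      (Algebra.TensorProduct.includeRight : K →ₐ[ℚ] semiAlg q K).toRingHom
  have hζ' : IsPrimitiveRoot (ι ζ) p := hζ.map_of_injective ι.injective
  rw [jc_index_nMul_additive]
  refine ⟨?_, L.stmtPowCard q p (semiAlg q K ⧸ t.asIdeal) (ι ζ) hζ'⟩
  have := L.stmtPowFinite q p (semiAlg q K ⧸ t.asIdeal)
  exact this.index_ne_zero

/-- `Σ_𝔪 [A/𝔪 : ℚ_q] = [K : ℚ]` for `A = ℚ_q ⊗ K`. -/
theorem jc_sum_finrank [Fintype (MaximalSpectrum (semiAlg q K))] :
    ∑ t : MaximalSpectrum (semiAlg q K), Module.finrank ℚ_[q] (semiAlg q K ⧸ t.asIdeal) =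
      Module.finrank ℚ K := by
  have hred : IsReduced (semiAlg q K) := tens_semiAlg_isReduced q K
  have hart : IsArtinianRing (semiAlg q K) := tens_semiAlg_isArtinian q K
  have e : semiAlg q K ≃ₗ[ℚ_[q]] (∀ t : MaximalSpectrum (semiAlg q K), semiAlg q K ⧸ t.asIdeal) :=
    ((IsArtinianRing.equivPi (semiAlg q K)).restrictScalars ℚ_[q]).toLinearEquiv
  have h1 := e.finrank_eq
  have hfree : ∀ t : MaximalSpectrum (semiAlg q K),
      Module.Free ℚ_[q] (semiAlg q K ⧸ t.asIdeal) := fun t => Module.Free.of_divisionRing _ _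
  have hfin : ∀ t : MaximalSpectrum (semiAlg q K),
      Module.Finite ℚ_[q] (semiAlg q K ⧸ t.asIdeal) := fun t => Module.Finite.quotient _ _
  rw [Module.finrank_pi_fintype ℚ_[q]] at h1
  rw [← h1]
  exact Module.finrank_baseChange

/-- `#MaxSpec(ℚ_q ⊗ K) = #{P | q}`. -/
theorem jc_card_maxSpec :
    Nat.card (MaximalSpectrum (semiAlg q K)) = (primesAbove q K).ncard := by
  have h := stmtMaxSpecCount q K (1 : K ≃ₐ[ℚ] K)
  have h1 : fixedMax q (1 : K ≃ₐ[ℚ] K) = {𝔪 : Ideal (semiAlg q K) | 𝔪.IsMaximal} := by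
    ext 𝔪
    constructor
    · rintro ⟨hm, -⟩
      exact hm
    · intro hm
      exact ⟨hm, fun x hx => by rw [tens_semiMap_one]; exact hx⟩
  have h2 : fixedPrimesAbove q ((1 : K ≃ₐ[ℚ] K) : K ≃+* K) = primesAbove q K := by
    ext P
    constructor
    · rintro ⟨hP, hq, -⟩
      exact ⟨hP, hq⟩
    · rintro ⟨hP, hq⟩
      refine ⟨hP, hq, fun x hx => ?_⟩
      have : RingOfIntegers.mapRingEquiv ((1 : K ≃ₐ[ℚ] K) : K ≃+* K) x = x := by
        apply RingOfIntegers.ext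
        rfl
      rw [this]
      exact hx
  rw [h1, h2] at h
  rw [← h, ← Nat.card_coe_set_eq]
  exact Nat.card_congr
    { toFun := fun t => ⟨t.asIdeal, t.isMaximal⟩
      invFun := fun 𝔪 => ⟨𝔪.1, 𝔪.2⟩
      left_inv := fun _ => rfl
      right_inv := fun _ => rfl }

/-- the count for `(ℚ_q ⊗ K)ˣ` -/
theorem jc_semi (ζ : K) (hζ : IsPrimitiveRoot ζ p) :
    (nMul p (Additive (semiAlg q K)ˣ)).index ≠ 0 ∧
    (nMul p (Additive (semiAlg q K)ˣ)).index ≤
      p ^ (2 * (primesAbove q K).ncard + if q = p then Module.finrank ℚ K else 0) := by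
  classical
  have hred : IsReduced (semiAlg q K) := tens_semiAlg_isReduced q K
  have hart : IsArtinianRing (semiAlg q K) := tens_semiAlg_isArtinian q K
  let _ : Fintype (MaximalSpectrum (semiAlg q K)) := Fintype.ofFinite _
  have hidx : (nMul p (Additive (semiAlg q K)ˣ)).index =
      ∏ t : MaximalSpectrum (semiAlg q K),
        (nMul p (Additive (semiAlg q K ⧸ t.asIdeal)ˣ)).index := by
    rw [jc_index_nMul_congr (tensAddEquiv (semiAlg q K)) p, jc_index_nMul_pi]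
  rw [hidx]
  refine ⟨Finset.prod_ne_zero_iff.2 fun t _ => (jc_local q p K ζ hζ t).1, ?_⟩
  refine (Finset.prod_le_prod' fun t _ => (jc_local q p K ζ hζ t).2).trans ?_
  rw [Finset.prod_pow_eq_pow_sum]
  apply Nat.pow_le_pow_right (Fact.out : p.Prime).pos
  rw [Finset.sum_add_distrib, Finset.sum_const, Finset.card_univ, smul_eq_mul,
    ← Nat.card_eq_fintype_card, jc_card_maxSpec, mul_comm]
  apply Nat.add_le_add_left
  split_ifs with h
  · exact (jc_sum_finrank q K).le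
  · simp

end local_

/-! ### The product over `S` -/

section global_

variable (p : ℕ) [Fact p.Prime] (S : Finset Nat.Primes) (K : Type) [Field K] [NumberField K]

/-- `Σ_{q ∈ S} #{P | q} = #{P | ∏ S}` -/
theorem jc_sum_primes :
    ∑ q : ↥S, (primesAbove ((q : Nat.Primes) : ℕ) K).ncard = (primesAbove (sProd S) K).ncard := by
  have h := stmtPrimeSplit K (RingEquiv.refl K) S
  have h2 : ∀ N : ℕ, fixedPrimesAbove N (RingEquiv.refl K) = primesAbove N K := by
    intro N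
    ext P
    constructor
    · rintro ⟨hP, hq, -⟩
      exact ⟨hP, hq⟩
    · rintro ⟨hP, hq⟩
      refine ⟨hP, hq, fun x hx => ?_⟩
      have : RingOfIntegers.mapRingEquiv (RingEquiv.refl K) x = x := by
        apply RingOfIntegers.ext
        rfl
      rw [this]
      exact hx
  simp only [h2] at h
  rw [sProd, h]
  exact Finset.sum_coe_sort S fun q => (primesAbove (q : ℕ) K).ncard

/-- **X-J**. -/
theorem stmtJCount : StmtJCount := by
  classical
  intro p _ S hpS K _ _ ζ hζ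
  obtain ⟨q₀, hq₀S, hq₀⟩ := hpS
  have hidx : (nMul p (Additive (JL S K))).index =
      ∏ q : ↥S, (nMul p (Additive (semiAlg ((q : Nat.Primes) : ℕ) K)ˣ)).index := by
    rw [jc_index_nMul_congr (jmAddEquiv S K) p, jc_index_nMul_pi]
  rw [hidx]
  refine ⟨Finset.prod_ne_zero_iff.2 fun q _ => (jc_semi _ p K ζ hζ).1, ?_⟩
  refine (Finset.prod_le_prod' fun q _ => (jc_semi _ p K ζ hζ).2).trans ?_
  rw [Finset.prod_pow_eq_pow_sum]
  apply Nat.pow_le_pow_right (Fact.out : p.Prime).pos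
  rw [Finset.sum_add_distrib, ← Finset.mul_sum, jc_sum_primes]
  apply Nat.add_le_add_left
  have h1 : ∀ q : ↥S, (if ((q : Nat.Primes) : ℕ) = p then Module.finrank ℚ K else 0) =
      if q = ⟨q₀, hq₀S⟩ then Module.finrank ℚ K else 0 := by
    intro q
    have : (((q : Nat.Primes) : ℕ) = p) ↔ q = ⟨q₀, hq₀S⟩ := by
      constructor
      · intro h
        apply Subtype.ext
        apply Subtype.ext
        rw [h, hq₀]
      · rintro rfl
        exact hq₀
    simp only [this]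
  simp only [h1]
  rw [Finset.sum_ite_eq' Finset.univ (⟨q₀, hq₀S⟩ : ↥S)]
  simp

end global_

end Fermat.Agent.PT.X
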