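/-
PT-X, piece X-UNR (helper81): Kummer extensions by Selmer elements are unramified outside
`S ∋ p`.  `stmtKummerUnram : StmtKummerUnram`.

Proof.  `e(P | 𝔭) = #I_P` (`G.uo_card_inertia`).  Let `σ ∈ I_P` and `β^p = a ∈ W`.  Then
`σ β = ξ β` with `ξ^p = 1`.  As `p ∣ ord_𝔭(a)` there is `c ∈ Kˣ` with `w(c β) = 1`
(`w` the valuation of `P`).  The congruence `σ x ≡ x mod P` extends from `𝓞 L` to the valuation
ring of `w`, so `w((ξ - 1) c β) < 1`, i.e. `w(ξ - 1) < 1`.  If `ξ ≠ 1` then
`p = ∑_{i<p} (1 - ξ^i)` has `w(p) < 1`, but `p ∉ P`.  Hence `σ β = β` for all generators, `σ = 1`.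
-/
import Fermat.Agent.PT.X.Plan
import Fermat.Agent.PT.G.UnramOff

set_option autoImplicit false
set_option linter.unusedSectionVars false
set_option linter.style.haveILetI false

noncomputable section

namespace Fermat.Agent.PT.X

open NumberField IsDedekindDomain Fermat.Agent.PT.G Fermat.Agent.PT.G1

section General

variable {K L : Type} [Field K] [NumberField K] [Field L] [NumberField L] [Algebra K L]

/-- The action of `Gal(L/K)` on `𝓞 L` is the restriction of the action on `L`. -/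
theorem kram_coe_smul (σ : L ≃ₐ[K] L) (x : 𝓞 L) : ((σ • x : 𝓞 L) : L) = σ (x : L) := rfl

/-- An element of the inertia group of `P` moves no element of the valuation ring of `P`
modulo the maximal ideal. -/
theorem kram_val_sub_lt_one (P : HeightOneSpectrum (𝓞 L)) (σ : L ≃ₐ[K] L)
    (hσ : σ ∈ P.asIdeal.inertia (L ≃ₐ[K] L)) (y : L) (hy : P.valuation L y ≤ 1) :
    P.valuation L (σ y - y) < 1 := by
  obtain ⟨n, d, h⟩ := P.exists_primeCompl_mul_eq_of_integer y hy
  have hd : (d : 𝓞 L) ∉ P.asIdeal := d.2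
  have hσd : σ • (d : 𝓞 L) ∉ P.asIdeal := fun hmem => hd (by
    have h1 := hσ (d : 𝓞 L)
    have h2 := P.asIdeal.sub_mem hmem h1
    simpa using h2)
  have h1 : σ y * algebraMap (𝓞 L) L (σ • (d : 𝓞 L)) = algebraMap (𝓞 L) L (σ • n) := by
    have := congrArg σ h
    rw [map_mul] at this
    exact this
  have key : (σ y - y) * (algebraMap (𝓞 L) L (d : 𝓞 L) * algebraMap (𝓞 L) L (σ • (d : 𝓞 L))) =
      algebraMap (𝓞 L) L ((σ • n - n) * d - n * (σ • (d : 𝓞 L) - d)) := by
    simp only [map_sub, map_mul]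
    linear_combination (algebraMap (𝓞 L) L (d : 𝓞 L)) * h1 -
      (algebraMap (𝓞 L) L (σ • (d : 𝓞 L))) * h
  have hmem : (σ • n - n) * d - n * (σ • (d : 𝓞 L) - d) ∈ P.asIdeal :=
    P.asIdeal.sub_mem (P.asIdeal.mul_mem_right _ (hσ n)) (P.asIdeal.mul_mem_left _ (hσ d))
  have hlt : P.valuation L
      (algebraMap (𝓞 L) L ((σ • n - n) * d - n * (σ • (d : 𝓞 L) - d))) < 1 :=
    (HeightOneSpectrum.valuation_lt_one_iff_mem (K := L) P _).2 hmem
  rw [← key, map_mul, map_mul,
    (HeightOneSpectrum.valuation_eq_one_iff_notMem (K := L) P).2 hd,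
    (HeightOneSpectrum.valuation_eq_one_iff_notMem (K := L) P).2 hσd, mul_one, mul_one] at hlt
  exact hlt

/-- If `ξ ≠ 1` is a `p`-th root of unity with `w(ξ - 1) < 1` then `w(p) < 1`. -/
theorem kram_val_natCast_lt_one {Γ₀ : Type*} [LinearOrderedCommGroupWithZero Γ₀]
    (w : Valuation L Γ₀) (p : ℕ) (ξ : L) (hξ : ξ ^ p = 1) (hξ1 : ξ ≠ 1)
    (hw : w (ξ - 1) < 1) : w (p : L) < 1 := by
  have hsum : ∑ i ∈ Finset.range p, ξ ^ i = 0 := by
    have h := geom_sum_mul ξ p
    rw [hξ, sub_self] at h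
    rcases mul_eq_zero.1 h with h | h
    · exact h
    · exact absurd (sub_eq_zero.1 h) hξ1
  have hpow : ∀ i : ℕ, w (ξ ^ i - 1) < 1 := by
    intro i
    induction i with
    | zero => simp
    | succ i ih =>
      have e : ξ ^ (i + 1) - 1 = ξ * (ξ ^ i - 1) + (ξ - 1) := by ring
      rw [e]
      refine Valuation.map_add_lt w ?_ hw
      rw [map_mul]
      have hξw : w ξ ≤ 1 := by
        have h0 : w (ξ - 1 + 1) ≤ max (w (ξ - 1)) (w 1) := w.map_add _ _
        rw [sub_add_cancel, map_one] at h0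
        exact h0.trans (max_le hw.le le_rfl)
      calc w ξ * w (ξ ^ i - 1) ≤ 1 * w (ξ ^ i - 1) := by gcongr
        _ = w (ξ ^ i - 1) := one_mul _
        _ < 1 := ih
  have hp : (p : L) = - ∑ i ∈ Finset.range p, (ξ ^ i - 1) := by
    rw [Finset.sum_sub_distrib, hsum, Finset.sum_const, Finset.card_range, nsmul_one]
    ring
  rw [hp, Valuation.map_neg]
  exact Valuation.map_sum_lt w one_ne_zero fun i _ => hpow i

end General

section Main

variable {K L : Type} [Field K] [NumberField K] [Field L] [NumberField L] [Algebra K L]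

/-- Scaling a `p`-th root of a Selmer element to a unit at `P`. -/
theorem kram_exists_scale (p : ℕ) (hp : p ≠ 0) (P : HeightOneSpectrum (𝓞 L)) (a : Kˣ)
    (ha : (p : ℤ) ∣ ordAt (primeUnder K P) a) (β : L) (hβ : β ^ p = algebraMap K L (a : K)) :
    ∃ c : Kˣ, P.valuation L (algebraMap K L (c : K) * β) = 1 := by
  obtain ⟨m, hm⟩ := ha
  obtain ⟨π, hπ⟩ := (primeUnder K P).valuation_exists_uniformizer K
  have hπ0 : π ≠ 0 := by
    rintro rfl
    rw [map_zero] at hπ
    exact WithZero.exp_ne_zero hπ.symm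
  let πu : Kˣ := Units.mk0 π hπ0
  have hπu : (primeUnder K P).valuationOfNeZero πu = Multiplicative.ofAdd (-1 : ℤ) := by
    rw [← WithZero.coe_inj, HeightOneSpectrum.valuationOfNeZero_eq]
    exact hπ
  let c : Kˣ := πu ^ (-m)
  have hc : (primeUnder K P).valuationOfNeZero (c ^ p * a) = 1 := by
    rw [map_mul, map_pow, map_zpow, hπu, valuationOfNeZero_eq_ordAt, hm]
    apply Multiplicative.toAdd.injective
    simp only [toAdd_mul, toAdd_pow, toAdd_zpow, toAdd_ofAdd, toAdd_one]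
    simp only [smul_eq_mul, nsmul_eq_mul]
    ring
  refine ⟨c, ?_⟩
  have h1 : (algebraMap K L (c : K) * β) ^ p = algebraMap K L ((c ^ p * a : Kˣ) : K) := by
    rw [mul_pow, hβ, ← map_pow, ← map_mul]
    simp
  have h2 : P.valuation L (algebraMap K L (c : K) * β) ^ p = 1 := by
    rw [← map_pow, h1, valuation_algebraMap_eq_pow, ← HeightOneSpectrum.valuationOfNeZero_eq,
      hc]
    simp
  exact (pow_eq_one_iff_of_nonneg zero_le hp).1 h2

/-- An element of the inertia group of `P` (off `p`) fixes every `p`-th root of an element of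
`K` whose order at `P ∩ K` is divisible by `p`. -/
theorem kram_inertia_fixes_root (p : ℕ) (hp : p ≠ 0) (P : HeightOneSpectrum (𝓞 L))
    (hpP : (p : 𝓞 L) ∉ P.asIdeal) (σ : L ≃ₐ[K] L)
    (hσ : σ ∈ P.asIdeal.inertia (L ≃ₐ[K] L)) (a : Kˣ)
    (ha : (p : ℤ) ∣ ordAt (primeUnder K P) a) (β : L) (hβ : β ^ p = algebraMap K L (a : K)) :
    σ β = β := by
  by_contra hne
  have hβ0 : β ≠ 0 := kum_root_ne_zero hp hβ
  obtain ⟨c, hc⟩ := kram_exists_scale p hp P a ha β hβ
  set ξ : L := σ β / β with hξdef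
  have hξβ : σ β = ξ * β := by rw [hξdef, div_mul_cancel₀ _ hβ0]
  have hξp : ξ ^ p = 1 := by
    rw [hξdef, div_pow, ← map_pow, hβ, AlgEquiv.commutes, div_self]
    rw [← hβ]
    exact pow_ne_zero _ hβ0
  have hξ1 : ξ ≠ 1 := by
    intro h
    apply hne
    rw [hξβ, h, one_mul]
  have hlt := kram_val_sub_lt_one P σ hσ (algebraMap K L (c : K) * β) hc.le
  have e : σ (algebraMap K L (c : K) * β) - algebraMap K L (c : K) * β =
      (ξ - 1) * (algebraMap K L (c : K) * β) := by
    rw [map_mul, AlgEquiv.commutes, hξβ]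
    ring
  rw [e, map_mul, hc, mul_one] at hlt
  have hp1 := kram_val_natCast_lt_one (P.valuation L) p ξ hξp hξ1 hlt
  have hp2 : P.valuation L (algebraMap (𝓞 L) L (p : 𝓞 L)) = 1 :=
    (HeightOneSpectrum.valuation_eq_one_iff_notMem (K := L) P).2 hpP
  rw [map_natCast] at hp2
  rw [hp2] at hp1
  exact lt_irrefl _ hp1

end Main

/-- **X-UNR**: Kummer extensions by Selmer elements are unramified outside `S ∋ p`. -/
theorem stmtKummerUnram : StmtKummerUnram := by
  intro p _ S hpS K L _ _ _ _ _ _ ζ hζ W hW hKum P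
  have hp : p.Prime := Fact.out
  have hp0 : p ≠ 0 := hp.ne_zero
  obtain ⟨P, hP⟩ := P
  show ramIdx K P = 1
  have hpP : (p : 𝓞 L) ∉ P.asIdeal := by
    intro hmem
    apply hP
    obtain ⟨q, hqS, hqp⟩ := hpS
    have hdvd : (q : ℕ) ∣ sProd S := Finset.dvd_prod_of_mem (fun q : Nat.Primes => (q : ℕ)) hqS
    rw [hqp] at hdvd
    obtain ⟨c, hc⟩ := hdvd
    rw [hc, Nat.cast_mul]
    exact Ideal.mul_mem_right _ _ hmem
  rw [← uo_card_inertia (K := K) P]
  have hbot : P.asIdeal.inertia (L ≃ₐ[K] L) = ⊥ := by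
    rw [Subgroup.eq_bot_iff_forall]
    intro σ hσ
    apply AlgEquiv.ext
    intro x
    have hx : x ∈ IntermediateField.adjoin K (kumRoots p W L) := by rw [hKum.gen]; trivial
    show σ x = x
    induction hx using IntermediateField.adjoin_induction with
    | mem x hx =>
      obtain ⟨a, haW, ha⟩ := hx
      exact kram_inertia_fixes_root p hp0 P hpP σ hσ a
        (hW haW (⟨primeUnder K P, fun h => hP ((natCast_mem_primeUnder_iff K L P _).1 h)⟩ :
          OffS S K)) x ha
    | algebraMap x => rw [AlgEquiv.commutes]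
    | add x y _ _ hx hy => rw [map_add, hx, hy]
    | inv x _ hx => rw [map_inv₀, hx]
    | mul x y _ _ hx hy => rw [map_mul, hx, hy]
  rw [hbot]
  exact Subgroup.card_bot

end Fermat.Agent.PT.X

end
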