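import Fermat.Agent.PT.X.Plan
import Fermat.Agent.PT.X.SplitIdeleAlg

/-!
# PT-X / X-SPL (helper79): every idèle of `K` is a norm from `L = K(W^{1/p})`, `W ≤ V_loc`

`theorem stmtSplitIdele : StmtSplitIdele`.

For `q ∈ S` the algebra `B = ℚ_q ⊗ L` contains `θ_i = (1 ⊗ β_i) / b_i` (`β_i^p = a_i ∈ W`,
`a_i = b_i^p` in `ℚ_q ⊗ K`) with `θ_i^p = 1`, `σ θ_i = ⟨σ, a_i⟩ θ_i`; for `a_1, …, a_r ∈ W` with
`σ ↦ (⟨σ, a_i⟩)_i` bijective onto `μ_p^r` (SplitIdeleAlg.lean: `spl_exists_bijective`) these give an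
idempotent `e` with orthogonal conjugates of sum `1`, and `j' = 1 + (j - 1) e` has norm `j`.
-/

set_option autoImplicit false
set_option linter.unusedSectionVars false

namespace Fermat.Agent.PT.X

open NumberField Fermat.Agent.PT.G Fermat.Agent.PT.G1 TensorProduct

section expo

variable {p : ℕ} [Fact p.Prime] {K : Type*} [Field K] {ζ : K}

lemma spl_exists_exp (hζ : IsPrimitiveRoot ζ p) {c : K} (hc : c ^ p = 1) :
    ∃ x : ZMod p, ζ ^ x.val = c := by
  obtain ⟨i, hi, h⟩ := hζ.eq_pow_of_pow_eq_one hc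
  refine ⟨(i : ZMod p), ?_⟩
  rw [ZMod.val_natCast, Nat.mod_eq_of_lt hi, h]

lemma spl_exp_inj (hζ : IsPrimitiveRoot ζ p) {x y : ZMod p} (h : ζ ^ x.val = ζ ^ y.val) :
    x = y :=
  ZMod.val_injective p (hζ.pow_inj (ZMod.val_lt x) (ZMod.val_lt y) h)

lemma spl_exp_add (hζ : IsPrimitiveRoot ζ p) (x y : ZMod p) :
    ζ ^ (x + y).val = ζ ^ x.val * ζ ^ y.val := by
  rw [ZMod.val_add, ← pow_add, ← pow_eq_pow_mod _ hζ.pow_eq_one]

open Classical in
/-- the exponent of a `p`-th root of unity with respect to `ζ` -/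
noncomputable def splExp (hζ : IsPrimitiveRoot ζ p) (c : K) : ZMod p :=
  if hc : c ^ p = 1 then Classical.choose (spl_exists_exp hζ hc) else 0

lemma splExp_spec (hζ : IsPrimitiveRoot ζ p) {c : K} (hc : c ^ p = 1) :
    ζ ^ (splExp hζ c).val = c := by
  rw [splExp, dif_pos hc]
  exact Classical.choose_spec (spl_exists_exp hζ hc)

lemma splExp_one (hζ : IsPrimitiveRoot ζ p) : splExp hζ (1 : K) = 0 := by
  apply spl_exp_inj hζ
  rw [splExp_spec hζ (one_pow p), ZMod.val_zero, pow_zero]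

lemma splExp_mul (hζ : IsPrimitiveRoot ζ p) {c d : K} (hc : c ^ p = 1) (hd : d ^ p = 1) :
    splExp hζ (c * d) = splExp hζ c + splExp hζ d := by
  apply spl_exp_inj hζ
  rw [splExp_spec hζ (by rw [mul_pow, hc, hd, one_mul]), spl_exp_add hζ, splExp_spec hζ hc,
    splExp_spec hζ hd]

end expo

section char

variable {p : ℕ} [Fact p.Prime] {K L : Type} [Field K] [Field L] [Algebra K L] {ζ : K}

lemma spl_kumChar_pow (hζ : IsPrimitiveRoot ζ p) (a : Kˣ)
    (ha : ∃ β : L, β ^ p = algebraMap K L (a : K)) (σ : L ≃ₐ[K] L) :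
    ((kumChar p σ a : Kˣ) : K) ^ p = 1 := by
  rw [← Units.val_pow_eq_pow_val, kumChar_pow_eq_one (Fact.out : p.Prime).ne_zero hζ σ a ha,
    Units.val_one]

/-- the Kummer character of `a` with values in `ℤ/p` -/
noncomputable def splChar (hζ : IsPrimitiveRoot ζ p) (a : Kˣ)
    (ha : ∃ β : L, β ^ p = algebraMap K L (a : K)) :
    (L ≃ₐ[K] L) →* Multiplicative (ZMod p) where
  toFun σ := Multiplicative.ofAdd (splExp hζ ((kumChar p σ a : Kˣ) : K))
  map_one' := by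
    rw [kumChar_one_left (Fact.out : p.Prime).ne_zero hζ a ha, Units.val_one, splExp_one]
    rfl
  map_mul' σ τ := by
    rw [kumChar_mul_left (Fact.out : p.Prime).ne_zero hζ σ τ a ha, Units.val_mul,
      splExp_mul hζ (spl_kumChar_pow hζ a ha σ) (spl_kumChar_pow hζ a ha τ)]
    rfl

lemma splChar_spec (hζ : IsPrimitiveRoot ζ p) (a : Kˣ)
    (ha : ∃ β : L, β ^ p = algebraMap K L (a : K)) (σ : L ≃ₐ[K] L) :
    ζ ^ (Multiplicative.toAdd (splChar hζ a ha σ)).val = ((kumChar p σ a : Kˣ) : K) :=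
  splExp_spec hζ (spl_kumChar_pow hζ a ha σ)

/-- Kummer generators with bijective character matrix. -/
theorem spl_exists_gens [Finite (L ≃ₐ[K] L)] (hζ : IsPrimitiveRoot ζ p) (W : Subgroup Kˣ)
    (hW : IsKummerExt p W L) :
    ∃ (r : ℕ) (a : Fin r → Kˣ) (k : (L ≃ₐ[K] L) → Fin r → ZMod p), (∀ i, a i ∈ W) ∧
      Function.Bijective k ∧ ∀ σ i, ((kumChar p σ (a i) : Kˣ) : K) = ζ ^ (k σ i).val := by
  have hp0 := (Fact.out : p.Prime).ne_zero
  obtain ⟨r, φ, hφ, hbij⟩ := spl_exists_bijective (p := p) (G := L ≃ₐ[K] L)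
    {f | ∃ (a : Kˣ) (haW : a ∈ W), f = splChar hζ a (hW.root a haW)} (by
      intro σ hσ
      apply hW.eq_of_kumChar_eq hp0 hζ
      intro a haW
      have h1 := hσ (splChar hζ a (hW.root a haW)) ⟨a, haW, rfl⟩
      have h2 := splChar_spec hζ a (hW.root a haW) σ
      rw [h1] at h2
      apply Units.ext
      rw [← h2, kumChar_one_left hp0 hζ a (hW.root a haW), Units.val_one]
      show ζ ^ (0 : ZMod p).val = 1
      rw [ZMod.val_zero, pow_zero])
  choose a haW ha using hφ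
  refine ⟨r, a, fun σ i => Multiplicative.toAdd (φ i σ), haW, ?_, ?_⟩
  · exact hbij
  · intro σ i
    show _ = ζ ^ (Multiplicative.toAdd ((φ i) σ)).val
    rw [ha i]
    exact (splChar_spec hζ (a i) (hW.root (a i) (haW i)) σ).symm

end char

section loc

variable {p : ℕ} [Fact p.Prime] {K L : Type} [Field K] [NumberField K] [Field L] [NumberField L]
  [Algebra K L] (q : ℕ) [Fact q.Prime]

variable (K L) in
/-- `K → ℚ_q ⊗ L` -/
noncomputable def splIota : K →+* semiAlg q L :=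
  ((Algebra.TensorProduct.includeRight : L →ₐ[ℚ] semiAlg q L) : L →+* semiAlg q L).comp
    (algebraMap K L)

lemma splIota_apply (x : K) : splIota K L q x = (1 : ℚ_[q]) ⊗ₜ[ℚ] algebraMap K L x := rfl

/-- the action of `Gal(L/K)` on `ℚ_q ⊗ L` -/
noncomputable def splAct (σ : L ≃ₐ[K] L) : semiAlg q L →+* semiAlg q L :=
  (semiMap q (galToAut σ) : semiAlg q L →+* semiAlg q L)

lemma splAct_tmul (σ : L ≃ₐ[K] L) (y : ℚ_[q]) (x : L) :
    splAct q σ (y ⊗ₜ[ℚ] x) = y ⊗ₜ[ℚ] σ x := by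
  simp [splAct, semiMap]

lemma splAct_semiIncl (σ : L ≃ₐ[K] L) (x : semiAlg q K) :
    splAct q σ (semiIncl K L q x) = semiIncl K L q x := by
  induction x using TensorProduct.induction_on with
  | zero => simp
  | tmul y k => rw [semiIncl_tmul, splAct_tmul, AlgEquiv.commutes]
  | add a b ha hb => rw [map_add, map_add, ha, hb]

lemma splAct_one (x : semiAlg q L) : splAct q (1 : L ≃ₐ[K] L) x = x := by
  induction x using TensorProduct.induction_on with
  | zero => simp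
  | tmul y k => rw [splAct_tmul, AlgEquiv.one_apply]
  | add a b ha hb => rw [map_add, ha, hb]

lemma splAct_splIota (σ : L ≃ₐ[K] L) (x : K) : splAct q σ (splIota K L q x) = splIota K L q x := by
  rw [splIota_apply, splAct_tmul, AlgEquiv.commutes]

theorem spl_local [Fintype (L ≃ₐ[K] L)] {ζ : K} (hζ : IsPrimitiveRoot ζ p) (r : ℕ)
    (a : Fin r → Kˣ) (k : (L ≃ₐ[K] L) → Fin r → ZMod p) (hk : Function.Bijective k)
    (hkum : ∀ σ i, ((kumChar p σ (a i) : Kˣ) : K) = ζ ^ (k σ i).val)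
    (hroot : ∀ i, ∃ β : L, β ^ p = algebraMap K L (a i : K))
    (hloc : ∀ i, ∃ b : (semiAlg q K)ˣ,
      ((1 : ℚ_[q]) ⊗ₜ[ℚ] (a i : K) : semiAlg q K) = (b : semiAlg q K) ^ p)
    (y : (semiAlg q K)ˣ) :
    ∃ u : (semiAlg q L)ˣ,
      ∏ σ : L ≃ₐ[K] L, splAct q σ (u : semiAlg q L) = semiIncl K L q (y : semiAlg q K) := by
  have hp0 := (Fact.out : p.Prime).ne_zero
  choose β hβ using hroot
  choose b hb using hloc
  set θ : Fin r → semiAlg q L := fun i =>
    ((1 : ℚ_[q]) ⊗ₜ[ℚ] β i) * semiIncl K L q (((b i)⁻¹ : (semiAlg q K)ˣ) : semiAlg q K) with hθdef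
  have hθ : ∀ i, θ i ^ p = 1 := by
    intro i
    show (((1 : ℚ_[q]) ⊗ₜ[ℚ] β i) *
      semiIncl K L q (((b i)⁻¹ : (semiAlg q K)ˣ) : semiAlg q K)) ^ p = 1
    rw [mul_pow, Algebra.TensorProduct.tmul_pow, one_pow, hβ i, ← semiIncl_tmul, hb i,
      ← map_pow, ← map_mul, ← mul_pow, Units.mul_inv, one_pow, map_one]
  have hθk : ∀ σ i, splAct q σ (θ i) = splIota K L q (ζ ^ (k σ i).val) * θ i := by
    intro σ i
    show splAct q σ (((1 : ℚ_[q]) ⊗ₜ[ℚ] β i) *
      semiIncl K L q (((b i)⁻¹ : (semiAlg q K)ˣ) : semiAlg q K)) = _ * (((1 : ℚ_[q]) ⊗ₜ[ℚ] β i) *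
      semiIncl K L q (((b i)⁻¹ : (semiAlg q K)ˣ) : semiAlg q K))
    rw [map_mul, splAct_semiIncl, splAct_tmul, kumChar_spec hp0 hζ σ (a i) (hβ i), hkum σ i,
      splIota_apply, ← mul_assoc, Algebra.TensorProduct.tmul_mul_tmul, one_mul]
  obtain ⟨e, horth, hsum⟩ := spl_exists_idempotent (splIota K L q) hζ
    (kum_natCast_ne_zero hp0 hζ) (splAct q) (splAct_splIota q) r θ hθ k hk hθk
  have hee : e * e = e := spl_idem (splAct q) e 1 (splAct_one q e) horth hsum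
  have hYY : semiIncl K L q (y : semiAlg q K) *
      semiIncl K L q ((y⁻¹ : (semiAlg q K)ˣ) : semiAlg q K) = 1 := by
    rw [← map_mul, Units.mul_inv, map_one]
  refine ⟨Units.mkOfMulEqOne (1 + (semiIncl K L q (y : semiAlg q K) - 1) * e)
    (1 + (semiIncl K L q ((y⁻¹ : (semiAlg q K)ˣ) : semiAlg q K) - 1) * e) ?_, ?_⟩
  · linear_combination e * hYY + (semiIncl K L q (y : semiAlg q K) - 1) *
      (semiIncl K L q ((y⁻¹ : (semiAlg q K)ˣ) : semiAlg q K) - 1) * hee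
  · exact spl_prod_eq (splAct q) e horth hsum _ (fun σ => splAct_semiIncl q σ _)

end loc

/-- **X-SPL**: `J_K ⊂ N_{L/K} J_L` for `L = K(W^{1/p})`, `W ≤ V_loc`. -/
theorem stmtSplitIdele : StmtSplitIdele := by
  intro p _ S K L _ _ _ _ _ _ ζ hζ W hW hKum j
  obtain ⟨r, a, k, haW, hk, hkum⟩ := spl_exists_gens hζ W hKum
  have hloc : ∀ q : ↥S, ∃ u : (semiAlg ((q : Nat.Primes) : ℕ) L)ˣ,
      ∏ σ : L ≃ₐ[K] L, splAct ((q : Nat.Primes) : ℕ) σ
        (u : semiAlg ((q : Nat.Primes) : ℕ) L) =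
        semiIncl K L ((q : Nat.Primes) : ℕ) (j q : semiAlg ((q : Nat.Primes) : ℕ) K) := by
    intro q
    refine spl_local ((q : Nat.Primes) : ℕ) hζ r a k hk hkum (fun i => hKum.root _ (haW i))
      (fun i => ?_) (j q)
    obtain ⟨jj, hjj⟩ := (hW (haW i)).2
    refine ⟨jj q, ?_⟩
    have h1 := congrArg Units.val (congrFun hjj q)
    rw [Pi.pow_apply, Units.val_pow_eq_pow_val] at h1
    exact h1
  choose j' hj' using hloc
  refine ⟨j', ?_⟩
  funext q
  apply Units.ext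
  rw [jlMap_apply, ← hj' q, Finset.prod_apply, Units.coe_prod]
  rfl

end Fermat.Agent.PT.X
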