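/-
PT-X, piece X-ASM (helper69), part 3: the existence theorem mod `p`, type level, unconditionally:
`stmtExistTL : StmtExistTL`.
-/
import Fermat.Agent.PT.X.ExistTL
import Fermat.Agent.PT.X.JCount
import Fermat.Agent.PT.X.SplitIdele
import Fermat.Agent.PT.X.KummerRam
import Fermat.Agent.PT.G.DivInv
import Fermat.Agent.PT.G.SemiInv
import Fermat.Agent.PT.G.Descent

set_option autoImplicit false

namespace Fermat.Agent.PT.X

/-- **X-ASM**: the existence theorem mod `p`, type level. -/
theorem stmtExistTL : StmtExistTL :=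
  ExistTL.stmtExistTL_of stmtJCount stmtSplitIdele stmtKummerUnram
    (Fermat.Agent.PT.G.stmtCSDescent_of Fermat.Agent.PT.G.stmtSemiInv
      Fermat.Agent.PT.G.stmtDivInv)

end Fermat.Agent.PT.X
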