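/-
PT-X piece X-J, part 1: general counting lemmas for `nMul n A = n·A`.
-/
import Fermat.Agent.PT.X.Count

set_option autoImplicit false

namespace Fermat.Agent.PT.X

/-- `[A : nA]` is invariant under isomorphisms. -/
theorem jc_index_nMul_congr {A B : Type*} [AddCommGroup A] [AddCommGroup B] (e : A ≃+ B) (n : ℕ) :
    (nMul n A).index = (nMul n B).index := by
  have h : (nMul n A).map (e : A →+ B) = nMul n B :=
    map_nMul_of_surjective (e : A →+ B) e.surjective
  rw [← h]
  exact (AddSubgroup.index_map_equiv (nMul n A) e).symm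

/-- `[∏ X_i : n ∏ X_i] = ∏ [X_i : n X_i]`. -/
theorem jc_index_nMul_pi {ι : Type*} [Fintype ι] {X : ι → Type*} [∀ i, AddCommGroup (X i)]
    (n : ℕ) : (nMul n (∀ i, X i)).index = ∏ i, (nMul n (X i)).index := by
  classical
  simp only [AddSubgroup.index]
  rw [← Nat.card_pi]
  let Φ : ((∀ i, X i) ⧸ nMul n (∀ i, X i)) → ∀ i, (X i ⧸ nMul n (X i)) :=
    fun q i => QuotientAddGroup.map _ _ (Pi.evalAddMonoidHom X i) (by
      intro x hx
      obtain ⟨y, rfl⟩ := mem_nMul.1 hx
      exact mem_nMul.2 ⟨y i, rfl⟩) q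
  have hΦ : ∀ (x : ∀ i, X i) (i : ι), Φ (QuotientAddGroup.mk x) i = QuotientAddGroup.mk (x i) :=
    fun x i => rfl
  refine Nat.card_congr (Equiv.ofBijective Φ ⟨?_, ?_⟩)
  · intro a b hab
    obtain ⟨x, rfl⟩ := QuotientAddGroup.mk_surjective a
    obtain ⟨y, rfl⟩ := QuotientAddGroup.mk_surjective b
    rw [QuotientAddGroup.eq]
    have h : ∀ i, ∃ z : X i, n • z = -x i + y i := by
      intro i
      have := congrFun hab i
      rw [hΦ, hΦ, QuotientAddGroup.eq] at this
      exact mem_nMul.1 this
    choose z hz using h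
    exact mem_nMul.2 ⟨z, funext fun i => by simpa using hz i⟩
  · intro b
    choose x hx using fun i => QuotientAddGroup.mk_surjective (b i)
    exact ⟨QuotientAddGroup.mk x, funext fun i => by rw [hΦ, hx]⟩

/-- `[A : nA]` for `A = Additive M` is the index of the `n`-th powers of `M`. -/
theorem jc_index_nMul_additive (M : Type*) [CommGroup M] (n : ℕ) :
    (nMul n (Additive M)).index = (powMonoidHom n : M →* M).range.index := by
  have h : nMul n (Additive M) = (powMonoidHom n : M →* M).range.toAddSubgroup := by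
    ext a
    rw [mem_nMul]
    constructor
    · rintro ⟨b, rfl⟩
      exact ⟨Additive.toMul b, rfl⟩
    · rintro ⟨b, hb⟩
      exact ⟨Additive.ofMul b, hb⟩
  rw [h]
  rfl

end Fermat.Agent.PT.X
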