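/-
PT-X / X-D (helper74): the divisor map outside `S` and the Selmer group.

`R` Dedekind domain with fraction field `K`, `S` a set of primes, `D_S = {v // v ∉ S} →₀ ℤ`.
* `divS S : Kˣ →* Multiplicative D_S`, `x ↦ (ord_v x)_{v ∉ S}`;
* `divS_ker : (divS S).ker = S.unit K`                                             (X-D (a));
* `mk_mem_selmerGroup_iff : (x mod n-th powers) ∈ K⟮S, n⟯ ↔ divS S x ∈ n-th powers of D_S`
  (X-D (b));
* `divS_range_finiteIndex : [Finite (ClassGroup R)] → (divS S).range.FiniteIndex`  (X-D (c)).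
-/
import Mathlib
import Fermat.Agent.PT.X.DivS

set_option autoImplicit false
set_option linter.unusedSectionVars false

open IsDedekindDomain IsDedekindDomain.HeightOneSpectrum FractionalIdeal
open scoped nonZeroDivisors

namespace Fermat.Agent.PT.X

variable {R : Type*} [CommRing R] [IsDedekindDomain R] {K : Type*} [Field K] [Algebra R K]
  [IsFractionRing R K]

/-- Only finitely many primes have nonzero order at `x`. -/
lemma finite_ordAt_ne_zero (x : Kˣ) : {v : HeightOneSpectrum R | ordAt v x ≠ 0}.Finite :=
  FractionalIdeal.finite_factors (spanSingleton R⁰ (x : K))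

variable (S : Set (HeightOneSpectrum R))

/-- The divisor of `x` outside `S`, as a finitely supported function. -/
noncomputable def divSFun (x : Kˣ) : {v : HeightOneSpectrum R // v ∉ S} →₀ ℤ :=
  Finsupp.ofSupportFinite (fun v => ordAt v.1 x)
    (((finite_ordAt_ne_zero (R := R) x).preimage Subtype.val_injective.injOn).subset
      (fun v hv => by simpa [Function.mem_support] using hv))

@[simp] lemma divSFun_apply (x : Kˣ) (v : {v : HeightOneSpectrum R // v ∉ S}) :
    divSFun S x v = ordAt v.1 x := rfl

/-- The divisor map outside `S`. -/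
noncomputable def divS : Kˣ →* Multiplicative ({v : HeightOneSpectrum R // v ∉ S} →₀ ℤ) where
  toFun x := Multiplicative.ofAdd (divSFun S x)
  map_one' := by
    rw [← ofAdd_zero]
    congr 1
    ext v
    simp [ordAt_one]
  map_mul' x y := by
    rw [← ofAdd_add]
    congr 1
    ext v
    simp [ordAt_mul]

@[simp] lemma divS_apply (x : Kˣ) (v : {v : HeightOneSpectrum R // v ∉ S}) :
    Multiplicative.toAdd (divS S x) v = ordAt v.1 x := rfl

/-- Link with Mathlib's multiplicative valuation. -/
lemma valuationOfNeZero_eq_divS (x : Kˣ) (v : {v : HeightOneSpectrum R // v ∉ S}) :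
    v.1.valuationOfNeZero x = Multiplicative.ofAdd (-(Multiplicative.toAdd (divS S x) v)) :=
  valuationOfNeZero_eq_ordAt v.1 x

/-- **X-D (a)**: the kernel of the divisor map outside `S` is the group of `S`-units. -/
theorem divS_ker : (divS (K := K) S).ker = S.unit K := by
  ext x
  rw [MonoidHom.mem_ker, mem_unit_iff_ordAt]
  constructor
  · intro h v hv
    have := congrArg (fun d : Multiplicative ({v : HeightOneSpectrum R // v ∉ S} →₀ ℤ) =>
      Multiplicative.toAdd d ⟨v, hv⟩) h
    simpa using this
  · intro h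
    rw [← ofAdd_zero]
    change Multiplicative.ofAdd (divSFun S x) = _
    congr 1
    ext v
    simpa using h v.1 v.2

/-- The mod-`n` valuation of a class is trivial iff `n` divides the order. -/
lemma valuationOfNeZeroMod_mk_eq_one_iff (v : HeightOneSpectrum R) (n : ℕ) (x : Kˣ) :
    v.valuationOfNeZeroMod n (QuotientGroup.mk x : Kˣ ⧸ (powMonoidHom n : Kˣ →* Kˣ).range) = 1 ↔
      (n : ℤ) ∣ ordAt v x := by
  have h1 : v.valuationOfNeZeroMod n (QuotientGroup.mk x : Kˣ ⧸ (powMonoidHom n : Kˣ →* Kˣ).range)
      = Multiplicative.ofAdd ((Multiplicative.toAdd (v.valuationOfNeZero x) : ℤ) : ZMod n) := rfl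
  rw [h1, valuationOfNeZero_eq_ordAt, toAdd_ofAdd, ← ofAdd_zero, Multiplicative.ofAdd.injective.eq_iff,
    ZMod.intCast_zmod_eq_zero_iff_dvd, dvd_neg]

/-- **X-D (b)**: the class of `x` lies in the Selmer group `K⟮S, n⟯` iff the divisor of `x` outside
`S` is divisible by `n`. -/
theorem mk_mem_selmerGroup_iff (n : ℕ) (x : Kˣ) :
    (QuotientGroup.mk x : Kˣ ⧸ (powMonoidHom n : Kˣ →* Kˣ).range) ∈
        (selmerGroup (K := K) (S := S) (n := n)) ↔
      divS S x ∈ powRange (Multiplicative ({v : HeightOneSpectrum R // v ∉ S} →₀ ℤ)) n := by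
  rw [mem_powRange]
  constructor
  · intro h
    have h' : ∀ v : {v : HeightOneSpectrum R // v ∉ S}, (n : ℤ) ∣ ordAt v.1 x := fun v =>
      (valuationOfNeZeroMod_mk_eq_one_iff v.1 n x).mp (h v.1 v.2)
    rcases Nat.eq_zero_or_pos n with hn | hn
    · subst hn
      refine ⟨1, ?_⟩
      rw [pow_zero]
      symm
      rw [← MonoidHom.mem_ker, divS_ker, mem_unit_iff_ordAt]
      intro v hv
      simpa using h' ⟨v, hv⟩
    · refine ⟨Multiplicative.ofAdd ((divSFun S x).mapRange (fun a => a / (n : ℤ)) (by simp)), ?_⟩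
      rw [← ofAdd_nsmul]
      change _ = Multiplicative.ofAdd (divSFun S x)
      congr 1
      ext v
      simp only [Finsupp.coe_smul, Pi.smul_apply, Finsupp.mapRange_apply, divSFun_apply,
        nsmul_eq_mul]
      exact Int.mul_ediv_cancel' (h' v)
  · rintro ⟨c, hc⟩ v hv
    rw [valuationOfNeZeroMod_mk_eq_one_iff]
    have : ordAt v x = n • (Multiplicative.toAdd c ⟨v, hv⟩) := by
      have := congrArg (fun d : Multiplicative ({v : HeightOneSpectrum R // v ∉ S} →₀ ℤ) =>
        Multiplicative.toAdd d ⟨v, hv⟩) hc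
      simpa using this.symm
    rw [this]
    simp

/-- **X-D (c)**: if the class group is finite, the divisor map outside `S` has finite cokernel. -/
theorem divS_range_finiteIndex [Finite (ClassGroup R)] : (divS (K := K) S).range.FiniteIndex := by
  have hinj : Function.Injective (Subtype.val : {v : HeightOneSpectrum R // v ∉ S} → _) :=
    Subtype.val_injective
  have : (classHom K (Subtype.val : {v : HeightOneSpectrum R // v ∉ S} → _)).ker.FiniteIndex :=
    Subgroup.finiteIndex_ker _
  refine Subgroup.finiteIndex_of_le (H := (classHom K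
    (Subtype.val : {v : HeightOneSpectrum R // v ∉ S} → _)).ker) ?_
  intro d hd
  obtain ⟨x, hx, -⟩ := exists_ordAt_eq_of_mem_ker _ hinj d hd
  refine ⟨x, ?_⟩
  change Multiplicative.ofAdd (divSFun S x) = d
  rw [← ofAdd_toAdd d]
  congr 1
  ext v
  simpa using hx v

end Fermat.Agent.PT.X
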